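/-
DELTA / NODE-X (helper8): **VERT, part 1 — the algebra**.

* `dlxv_root_mem`, `dlxv_root_unit` : `V` a valuation ring of a field `F ⊇ L` containing the
  constants; `P ∈ L[Y][X]` monic, `y ∈ V`, `x ∈ F` a root of `P(X, y)`.  Then `x ∈ V`, and if the
  constant coefficient of `P` is a non-zero constant, `x` is a unit of `V`.
* `dlxv_val_pow_sub` : `1 < v(a)`, `2 ≤ Q` ⇒ `1 < v(a ^ Q - a)`.
* `dlxv_psi_root_unique` : **the only root of `Ψ_r(X, j(T))` in `K((T))` is
  `r¹² Δ(T ^ r) / Δ(T)`** (`K` a field of characteristic `0`): the other roots are the twists of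
  `Δ(T ^ (1/r)) / Δ(T)`, whose expansions have the exponent `(1 - r) / r`.
-/
import Fermat.Agent.Lib.Igusa.ModPoly
import Fermat.Agent.Lib.Igusa.ModPolyDelta

set_option autoImplicit false
set_option linter.unusedSectionVars false
set_option linter.unusedVariables false
set_option linter.style.haveILetI false

open Polynomial HahnSeries ModularCurve Fermat.Agent.Igusa

namespace Fermat.Agent.Delta

section Root

variable {L F : Type*} [Field L] [Field F] [Algebra L F] (V : ValuationSubring F)
  (hL : ∀ c : L, algebraMap L F c ∈ V)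

/-- the constants as a ring homomorphism into `V` -/
noncomputable def dlxvConst : L →+* ↥V := (algebraMap L F).codRestrict V.toSubring hL

include hL in
/-- a root of a monic polynomial with coefficients in `L[y]`, `y ∈ V`, lies in `V`; if the constant
coefficient is a non-zero constant, it is a unit of `V` -/
theorem dlxv_root (P : L[X][X]) (hP : P.Monic) {y x : F} (hy : y ∈ V)
    (hroot : (P.map ((aeval y : L[X] →ₐ[L] F) : L[X] →+* F)).eval x = 0) :
    x ∈ V ∧ ∀ c : L, c ≠ 0 → P.coeff 0 = C c → x⁻¹ ∈ V := by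
  set ι : L →+* ↥V := dlxvConst V hL with hι
  set a : ↥V := ⟨y, hy⟩ with ha
  set φ : L[X] →+* ↥V := Polynomial.eval₂RingHom ι a with hφ
  set g : (↥V)[X] := P.map φ with hg
  have hgm : g.Monic := hP.map _
  have hcomp : (V.subtype).comp φ = ((aeval y : L[X] →ₐ[L] F) : L[X] →+* F) := by
    apply Polynomial.ringHom_ext
    · intro c
      simp only [hφ, RingHom.coe_comp, Function.comp_apply, RingHom.coe_coe, aeval_C,
        Polynomial.coe_eval₂RingHom, eval₂_C]
      rfl
    · simp only [hφ, RingHom.coe_comp, Function.comp_apply, RingHom.coe_coe, aeval_X,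
        Polynomial.coe_eval₂RingHom, eval₂_X]
      rfl
  have hroot' : g.eval₂ (V.subtype) x = 0 := by
    rw [hg, Polynomial.eval₂_map, hcomp, Polynomial.eval₂_eq_eval_map]
    exact hroot
  have hint : IsIntegral ↥V x := ⟨g, hgm, hroot'⟩
  obtain ⟨u, hu⟩ := IsIntegrallyClosed.isIntegral_iff.1 hint
  have hu' : ((u : ↥V) : F) = x := hu
  refine ⟨hu' ▸ u.2, ?_⟩
  intro c hc hc0
  have hev : g.eval u = 0 := by
    apply Subtype.val_injective
    have h1 : V.subtype (g.eval u) = g.eval₂ (V.subtype) (V.subtype u) := by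
      rw [Polynomial.eval, Polynomial.hom_eval₂, RingHom.comp_id]
    show V.subtype (g.eval u) = _
    rw [h1]
    show g.eval₂ _ ((u : ↥V) : F) = _
    rw [hu', hroot']
    rfl
  have hg0 : g.coeff 0 = ι c := by
    rw [hg, coeff_map, hc0, hφ]
    simp
  have hsplit := Polynomial.divX_mul_X_add g
  have h2 : (Polynomial.divX g).eval u * u + ι c = 0 := by
    rw [← hg0, ← hev]
    conv_rhs => rw [← hsplit]
    simp
  have h3 : (Polynomial.divX g).eval u * u = -ι c := eq_neg_of_add_eq_zero_left h2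
  have h4 : u * (-(Polynomial.divX g).eval u * ι c⁻¹) = 1 := by
    calc u * (-(Polynomial.divX g).eval u * ι c⁻¹)
        = -((Polynomial.divX g).eval u * u) * ι c⁻¹ := by ring
      _ = 1 := by rw [h3, neg_neg, ← map_mul, mul_inv_cancel₀ hc, map_one]
  have h5 : x * ((-(Polynomial.divX g).eval u * ι c⁻¹ : ↥V) : F) = 1 := by
    rw [← hu']
    exact congrArg (fun t : ↥V => (t : F)) h4
  have hx0 : x ≠ 0 := by
    rintro rfl
    rw [zero_mul] at h5
    exact zero_ne_one h5
  have h6 : x⁻¹ = ((-(Polynomial.divX g).eval u * ι c⁻¹ : ↥V) : F) :=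
    (eq_inv_of_mul_eq_one_right h5).symm ▸ rfl
  rw [h6]
  exact Subtype.property _

end Root

section Val

variable {F : Type*} [Field F] (V : ValuationSubring F)

/-- `1 < v(a)`, `2 ≤ Q` ⇒ `1 < v(a ^ Q - a)` -/
theorem dlxv_val_pow_sub {a : F} (ha : 1 < V.valuation a) {Q : ℕ} (hQ : 2 ≤ Q) :
    1 < V.valuation (a ^ Q - a) := by
  have h1 : V.valuation a < V.valuation (a ^ Q) := by
    rw [map_pow]
    exact lt_self_pow₀ ha (by omega)
  rw [Valuation.map_sub_eq_of_lt_left _ h1]
  exact ha.trans h1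

/-- a pole of `a` is a pole of `a ^ Q - a` -/
theorem dlxv_pow_sub_notMem {a : F} (ha : a ∉ V) {Q : ℕ} (hQ : 2 ≤ Q) :
    1 < V.valuation (a ^ Q - a) := by
  apply dlxv_val_pow_sub V _ hQ
  rw [← not_le, V.valuation_le_one_iff]
  exact ha

end Val

section Unique

variable (r : ℕ) [NeZero r] (hr : r.Prime)

/-- root uniqueness over a domain with a primitive `r`-th root of unity -/
theorem dlxv_psi_root_unique_aux (K : Type*) [CommRing K] [IsDomain K] {ζ : Kˣ}
    (hζ : IsPrimitiveRoot ζ r) (y : LaurentSeries K)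
    (hy : (modPsiK r hr K).eval₂ (evalJ K) y = 0) : y = unitInfLS K r := by
  have h1 : ((modPsiK r hr K).map ((qExpand K r).comp (evalJ K))).eval (qExpand K r y) = 0 := by
    rw [Polynomial.eval_map, ← Polynomial.hom_eval₂, hy, map_zero]
  rw [modPsiK_roots r hr K hζ, Polynomial.eval_mul, Polynomial.eval_sub, Polynomial.eval_X,
    Polynomial.eval_C, Polynomial.eval_prod, mul_eq_zero, Finset.prod_eq_zero_iff] at h1
  rcases h1 with h1 | ⟨b, -, h1⟩
  · exact qExpand_injective (R := K) (N := r) (sub_eq_zero.mp h1)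
  · exfalso
    rw [Polynomial.eval_sub, Polynomial.eval_X, Polynomial.eval_C, sub_eq_zero] at h1
    have h2 := congrArg (fun s : LaurentSeries K => s.coeff (1 - (r : ℤ))) h1
    simp only [lsTwist_coeff, unitFinLS_coeff, mul_one] at h2
    have hnd : ¬ (r : ℤ) ∣ 1 - (r : ℤ) := by
      intro hd
      have h3 : (r : ℤ) ∣ 1 := by
        have := dvd_add hd (dvd_refl (r : ℤ))
        simpa using this
      have h4 : (r : ℤ) = 1 ∨ (r : ℤ) = -1 := Int.isUnit_iff.mp (isUnit_of_dvd_one h3)
      have h5 := hr.one_lt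
      omega
    rw [qExpand_coeff_of_not_dvd r y hnd] at h2
    exact (Units.ne_zero _) h2.symm

/-- **the only root of `Ψ_r(X, j(T))` in `K((T))` is `r¹² Δ(T ^ r) / Δ(T)`** -/
theorem dlxv_psi_root_unique (K : Type*) [Field K] [CharZero K] (y : LaurentSeries K)
    (hy : (modPsiK r hr K).eval₂ (evalJ K) y = 0) : y = unitInfLS K r := by
  set Ω := AlgebraicClosure K with hΩ
  set φ : K →+* Ω := algebraMap K Ω with hφ
  haveI : NeZero ((r : ℕ) : Ω) := ⟨by exact_mod_cast (NeZero.ne r)⟩
  obtain ⟨ζ₀, hζ₀⟩ := HasEnoughRootsOfUnity.exists_primitiveRoot Ω r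
  have hζ₀u : IsUnit ζ₀ := hζ₀.isUnit (NeZero.ne r)
  set ζ : Ωˣ := hζ₀u.unit with hζ
  have hζp : IsPrimitiveRoot ζ r := by
    rw [← IsPrimitiveRoot.coe_units_iff]
    exact hζ₀
  have h1 : (modPsiK r hr Ω).eval₂ (evalJ Ω) (lsMapHom φ y) = 0 := by
    have h2 := congrArg (lsMapHom φ) hy
    rw [map_zero, Polynomial.hom_eval₂] at h2
    have h3 : (modPsiK r hr Ω) = (modPsiK r hr K).map (Polynomial.mapRingHom φ) := by
      rw [modPsiK, modPsiK, Polynomial.map_map]
      congr 1
      apply RingHom.ext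
      intro P
      simp only [RingHom.coe_comp, Function.comp_apply, Polynomial.coe_mapRingHom,
        Polynomial.map_map]
      congr 1
    rw [h3, Polynomial.eval₂_map]
    have h4 : (evalJ Ω).comp (Polynomial.mapRingHom φ) = (lsMapHom φ).comp (evalJ K) := by
      apply RingHom.ext
      intro P
      simp only [RingHom.coe_comp, Function.comp_apply, Polynomial.coe_mapRingHom]
      exact (lsMapHom_evalJ φ P).symm
    rw [h4]
    exact h2
  have h5 := dlxv_psi_root_unique_aux r hr Ω hζp _ h1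
  rw [← lsMapHom_unitInfLS φ r] at h5
  exact lsMapHom_injective φ.injective h5

end Unique

end Fermat.Agent.Delta
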