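/-
DELTA / NODE-X (helper8): **VERT, part 2 — the vertical unit `D = Δ(q) / Δ(q ^ r)`, generic level**.

`L` a field of characteristic `0`, `F = TaF L N` (function field of `X₀(N)` over `L`), `r ∣ N`:

* `dlxvD N hr : ↥(TaF L N)`, the element with `q`-expansion `unitFinLS L r = Δ(q) / Δ(q ^ r)`;
  `dlxvD_mul_taUnit : D · U = r¹²` with `U = taUnit N hr = r¹² Δ(q ^ r) / Δ(q)`.
* Gauss valuation (`(O, π, k)` a DVR base): `dlxvD_val_inf : v_∞(D) = 1`, `taResN_dlxvD`.
* `N = N' q`, `q` prime, `W : T2iAL L N' q` ANY Atkin–Lehner datum (`w ∘ α = β`, `w ∘ w = 1`):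
  **`dlxv_w_D : W.w D = U`** (`D` is a root of `Ψ_q(X, j(T ^ q))`, so `w D` is a root of
  `Ψ_q(X, j(T))`, whose only root in `L((T))` is `U`: `dlxv_psi_root_unique`);
  `dlxv_w_D_mul : W.w D * D = q¹²`;  `dlxvD_val_zero : v_0(D) < 1` if `q = 0` in `k`.
* horizontal places: `dlxv_hor` : `V` a place of `F / L` at which the symmetric chart
  `x · w x`, `x = j ^ Q - j` (`2 ≤ Q`), is regular ⇒ `V.valuation D = 1`.  (`x · w x ∈ V` forces
  `j ∈ V`, since the poles of `j` and of `w j = j(T ^ q)` coincide (`Φ_q`); and `U` is a root of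
  `Ψ_q(X, j)`, monic with constant coefficient `q¹²`.)
-/
import Fermat.Agent.Lib.Delta.NodeX.VertAlg
import Fermat.Agent.Lib.Delta.Toric.InstGen
import Fermat.Agent.Lib.T4.Inst.PresChart
import Fermat.Agent.Lib.Mazur.G.NP.Shape

set_option autoImplicit false
set_option linter.unusedSectionVars false
set_option linter.unusedVariables false
set_option linter.style.haveILetI false
set_option synthInstance.maxHeartbeats 400000

open Polynomial HahnSeries ModularCurve Fermat.Agent.Igusa Fermat.Agent.T1 Fermat.Agent.T2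
  Fermat.Agent.T4 Fermat.Agent.Mazur

noncomputable section

namespace Fermat.Agent.Delta

/-! ### the element `D` -/

section Elt

variable {L : Type*} [Field L] [Algebra ℚ L] (N : ℕ) [NeZero N] {r : ℕ} [NeZero r] (hr : r ∣ N)

theorem dlxv_natCast_pow_ne_zero (L : Type*) [Field L] [Algebra ℚ L] (r : ℕ) [NeZero r] :
    ((r : L) ^ 12) ≠ 0 := by
  haveI := algebraRat.charZero L
  exact pow_ne_zero 12 (Nat.cast_ne_zero.mpr (NeZero.ne r))

theorem dlxv_C_ne_zero {K : Type*} [Field K] {c : K} (hc : c ≠ 0) :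
    (HahnSeries.C c : LaurentSeries K) ≠ 0 := by
  intro h
  have h1 := congrArg (fun s : LaurentSeries K => s.coeff 0) h
  simp only [HahnSeries.C_apply, HahnSeries.coeff_single_same, HahnSeries.coeff_zero] at h1
  exact hc h1

theorem dlxv_unitInfLS_ne_zero (L : Type*) [Field L] [Algebra ℚ L] (r : ℕ) [NeZero r] :
    unitInfLS L r ≠ 0 := by
  intro h
  have h1 := unitFinLS_mul_unitInfLS L r
  rw [h, mul_zero] at h1
  exact dlxv_C_ne_zero (dlxv_natCast_pow_ne_zero L r) h1.symm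

theorem dlxv_unitFinLS_ne_zero (K : Type*) [Field K] (r : ℕ) [NeZero r] : unitFinLS K r ≠ 0 := by
  intro h
  have h1 := unitFinLS_coeff K r
  rw [h, HahnSeries.coeff_zero] at h1
  exact zero_ne_one h1

theorem dlxv_unitFinLS_eq (L : Type*) [Field L] [Algebra ℚ L] (r : ℕ) [NeZero r] :
    unitFinLS L r = HahnSeries.C ((r : L) ^ 12) * (unitInfLS L r)⁻¹ := by
  rw [← unitFinLS_mul_unitInfLS L r, mul_assoc, mul_inv_cancel₀ (dlxv_unitInfLS_ne_zero L r),
    mul_one]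

include hr in
theorem dlxv_unitFinLS_mem : unitFinLS L r ∈ TaF L N := by
  rw [dlxv_unitFinLS_eq]
  refine mul_mem ?_ (inv_mem (unitInfLS_mem_taF N hr))
  have := (TaF L N).algebraMap_mem ((r : L) ^ 12)
  rwa [algebraMap_laurentSeries_eq_single] at this

/-- **the vertical unit** `D = Δ(q) / Δ(q ^ r) ∈ F_{N,L}` -/
def dlxvD : ↥(TaF L N) := ⟨unitFinLS L r, dlxv_unitFinLS_mem N hr⟩

@[simp] theorem coe_dlxvD : ((dlxvD (L := L) N hr : ↥(TaF L N)) : LaurentSeries L) = unitFinLS L r :=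
  rfl

include hr in
theorem dlxvD_ne_zero : dlxvD (L := L) N hr ≠ 0 := by
  intro h
  have := congrArg (fun z : ↥(TaF L N) => (z : LaurentSeries L)) h
  simp only [coe_dlxvD, ZeroMemClass.coe_zero] at this
  exact dlxv_unitFinLS_ne_zero L r this

theorem dlxvD_mul_taUnit :
    dlxvD (L := L) N hr * taUnit N hr = algebraMap L ↥(TaF L N) ((r : L) ^ 12) := by
  apply Subtype.ext
  rw [coe_algebraMap_taF]
  exact unitFinLS_mul_unitInfLS L r

theorem dlxv_taUnit_ne_zero : taUnit (L := L) N hr ≠ 0 := by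
  intro h
  have := congrArg (fun z : ↥(TaF L N) => (z : LaurentSeries L)) h
  simp only [ZeroMemClass.coe_zero] at this
  exact dlxv_unitInfLS_ne_zero L r this

theorem dlxv_taUnit_eq :
    taUnit (L := L) N hr = algebraMap L ↥(TaF L N) ((r : L) ^ 12) * (dlxvD N hr)⁻¹ := by
  rw [← dlxvD_mul_taUnit N hr, mul_comm, ← mul_assoc, inv_mul_cancel₀ (dlxvD_ne_zero N hr), one_mul]

end Elt

/-! ### the Gauss valuation `v_∞` -/

section Gauss

variable {L : Type*} [Field L] [Algebra ℚ L] (O : ValuationSubring L) {k : Type*} [Field k]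
  (π : ↥O →+* k) [IsDiscreteValuationRing ↥O] (hπ : Function.Surjective π)
  (N : ℕ) [NeZero N] {r : ℕ} [NeZero r] (hr : r ∣ N)

theorem dlxv_taInc_unitFinLS : taInc O (unitFinLS ↥O r) = unitFinLS L r := by
  rw [taInc_eq_lsMapHom, lsMapHom_unitFinLS]

theorem dlxvD_mem_taOv : dlxvD (L := L) N hr ∈ taOv O π hπ N :=
  mem_taOv_of_eq_taInc O π hπ N (s := unitFinLS ↥O r) (by rw [dlxv_taInc_unitFinLS]; rfl)

theorem taResN_dlxvD :
    taResN O π hπ N ⟨dlxvD N hr, dlxvD_mem_taOv O π hπ N hr⟩ = unitFinLS k r := by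
  rw [taResN_of_eq_taInc O π hπ N (s := unitFinLS ↥O r) (by rw [dlxv_taInc_unitFinLS]; rfl),
    taRed_eq_lsMapHom, lsMapHom_unitFinLS]

theorem dlxvD_inv_mem_taOv : (dlxvD (L := L) N hr)⁻¹ ∈ taOv O π hπ N := by
  apply inv_mem_taOv_of_taResN_ne_zero O π hπ N ⟨dlxvD N hr, dlxvD_mem_taOv O π hπ N hr⟩
  rw [taResN_dlxvD]
  exact dlxv_unitFinLS_ne_zero k r

/-- **`v_∞(D) = 1`** -/
theorem dlxvD_val_inf : (taOv O π hπ N).valuation (dlxvD N hr) = 1 :=
  (t4vp_valuation_eq_one_iff _ (dlxvD_ne_zero N hr)).mpr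
    ⟨dlxvD_mem_taOv O π hπ N hr, dlxvD_inv_mem_taOv O π hπ N hr⟩

/-- `U = r¹² Δ(q ^ r) / Δ(q)` is not a unit of the Gauss ring when `r = 0` in `k` -/
theorem dlxv_taUnit_inv_notMem (hrk : (r : k) = 0) : (taUnit (L := L) N hr)⁻¹ ∉ taOv O π hπ N := by
  intro hmem
  have h1 : (⟨taUnit N hr, taUnit_mem_taOv O π hπ N hr⟩ : ↥(taOv O π hπ N)) *
      ⟨(taUnit N hr)⁻¹, hmem⟩ = 1 := Subtype.ext (mul_inv_cancel₀ (dlxv_taUnit_ne_zero N hr))
  have h2 := congrArg (taResN O π hπ N) h1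
  rw [map_mul, map_one, taResN_taUnit] at h2
  have h3 : unitInfLS k r = 0 := by
    rw [unitInfLS, hrk, zero_pow (by norm_num), map_zero, zero_mul, zero_mul]
  rw [h3, zero_mul] at h2
  exact zero_ne_one h2

end Gauss

/-! ### evaluation of two-variable polynomials at `(·, j)` and `(·, j(q ^ d))` in `F_{N,L}` -/

section Eval

variable {L : Type*} [Field L] [Algebra ℚ L] (N : ℕ) [NeZero N]

theorem dlxv_val_comp_aeval_taJ :
    ((TaF L N).val : ↥(TaF L N) →+* LaurentSeries L).comp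
      ((aeval (taJ N) : L[X] →ₐ[L] ↥(TaF L N)) : L[X] →+* ↥(TaF L N)) = evalJ L := by
  apply Polynomial.ringHom_ext
  · intro c
    simp only [RingHom.coe_comp, Function.comp_apply, RingHom.coe_coe, aeval_C, evalJ_C]
    show ((algebraMap L ↥(TaF L N) c : ↥(TaF L N)) : LaurentSeries L) = _
    rw [coe_algebraMap_taF]
  · simp only [RingHom.coe_comp, Function.comp_apply, RingHom.coe_coe, aeval_X, evalJ_X]
    rfl

theorem dlxv_val_comp_aeval_taGen {d : ℕ} [NeZero d] (hd : d ∣ N) :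
    ((TaF L N).val : ↥(TaF L N) →+* LaurentSeries L).comp
      ((aeval (taGen N hd) : L[X] →ₐ[L] ↥(TaF L N)) : L[X] →+* ↥(TaF L N)) =
      (qExpand L d).comp (evalJ L) := by
  apply Polynomial.ringHom_ext
  · intro c
    simp only [RingHom.coe_comp, Function.comp_apply, RingHom.coe_coe, aeval_C, evalJ_C]
    show ((algebraMap L ↥(TaF L N) c : ↥(TaF L N)) : LaurentSeries L) = _
    rw [coe_algebraMap_taF, HahnSeries.C_apply, qExpand_single, mul_zero]
  · simp only [RingHom.coe_comp, Function.comp_apply, RingHom.coe_coe, aeval_X, evalJ_X]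
    rfl

/-- transfer of a Laurent series identity `P(x, j(q ^ d)) = 0` to `F_{N,L}` -/
theorem dlxv_eval_taGen {d : ℕ} [NeZero d] (hd : d ∣ N) (P : L[X][X]) (x : ↥(TaF L N))
    (h : P.eval₂ ((qExpand L d).comp (evalJ L)) (x : LaurentSeries L) = 0) :
    (P.map ((aeval (taGen N hd) : L[X] →ₐ[L] ↥(TaF L N)) : L[X] →+* ↥(TaF L N))).eval x = 0 := by
  apply Subtype.val_injective
  show ((TaF L N).val : ↥(TaF L N) →+* LaurentSeries L) _ = 0
  rw [← Polynomial.eval₂_eq_eval_map, Polynomial.hom_eval₂, dlxv_val_comp_aeval_taGen]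
  exact h

/-- transfer of a Laurent series identity `P(x, j) = 0` to `F_{N,L}` -/
theorem dlxv_eval_taJ (P : L[X][X]) (x : ↥(TaF L N))
    (h : P.eval₂ (evalJ L) (x : LaurentSeries L) = 0) :
    (P.map ((aeval (taJ N) : L[X] →ₐ[L] ↥(TaF L N)) : L[X] →+* ↥(TaF L N))).eval x = 0 := by
  apply Subtype.val_injective
  show ((TaF L N).val : ↥(TaF L N) →+* LaurentSeries L) _ = 0
  rw [← Polynomial.eval₂_eq_eval_map, Polynomial.hom_eval₂, dlxv_val_comp_aeval_taJ]
  exact h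

/-- ... and back -/
theorem dlxv_eval_taJ' (P : L[X][X]) (x : ↥(TaF L N))
    (h : (P.map ((aeval (taJ N) : L[X] →ₐ[L] ↥(TaF L N)) : L[X] →+* ↥(TaF L N))).eval x = 0) :
    P.eval₂ (evalJ L) (x : LaurentSeries L) = 0 := by
  have h1 := congrArg ((TaF L N).val : ↥(TaF L N) →+* LaurentSeries L) h
  rw [← Polynomial.eval₂_eq_eval_map, Polynomial.hom_eval₂, dlxv_val_comp_aeval_taJ, map_zero] at h1
  exact h1

/-- an `L`-automorphism transports `P(x, y) = 0` to `P(σ x, σ y) = 0` -/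
theorem dlxv_eval_algEquiv {F : Type*} [Field F] [Algebra L F] (σ : F ≃ₐ[L] F) (P : L[X][X])
    (x y : F) (h : (P.map ((aeval y : L[X] →ₐ[L] F) : L[X] →+* F)).eval x = 0) :
    (P.map ((aeval (σ y) : L[X] →ₐ[L] F) : L[X] →+* F)).eval (σ x) = 0 := by
  have h1 := congrArg (σ : F →+* F) h
  rw [← Polynomial.eval₂_eq_eval_map, Polynomial.hom_eval₂, map_zero] at h1
  have h2 : (σ : F →+* F).comp ((aeval y : L[X] →ₐ[L] F) : L[X] →+* F) =
      ((aeval (σ y) : L[X] →ₐ[L] F) : L[X] →+* F) := by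
    apply Polynomial.ringHom_ext
    · intro c
      simp only [RingHom.coe_comp, Function.comp_apply, RingHom.coe_coe, aeval_C]
      exact σ.commutes c
    · simp only [RingHom.coe_comp, Function.comp_apply, RingHom.coe_coe, aeval_X]
  rw [h2] at h1
  rw [← Polynomial.eval₂_eq_eval_map]
  exact h1

end Eval

/-! ### the Atkin–Lehner involution and `v_0` -/

section AL

variable {L : Type*} [Field L] [Algebra ℚ L] {N' q : ℕ} [NeZero N'] [hq : Fact q.Prime]
  (W : T2iAL L N' q)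

/-- `w j = j(q ^ q)` -/
theorem dlxv_w_taJ : W.w (taJ (N' * q)) = taGen (N' * q) (dvd_mul_left q N') := by
  rw [← t2i_alpha_taJ, W.w_alpha]
  apply Subtype.ext
  rw [coe_heckeBetaBar]
  rfl

/-- `w (j(q ^ q)) = j` -/
theorem dlxv_w_taGen : W.w (taGen (N' * q) (dvd_mul_left q N')) = taJ (N' * q) := by
  rw [← dlxv_w_taJ W, W.w_w]

/-- `Ψ_q(D, j(q ^ q)) = 0` -/
theorem dlxv_psi_D :
    ((modPsiK q hq.out L).map ((aeval (taGen (N' * q) (dvd_mul_left q N')) :
      L[X] →ₐ[L] ↥(TaF L (N' * q))) : L[X] →+* ↥(TaF L (N' * q)))).eval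
      (dlxvD (N' * q) (dvd_mul_left q N')) = 0 :=
  dlxv_eval_taGen (N' * q) (dvd_mul_left q N') _ _ (modPsiK_eval_right q hq.out L)

/-- `Φ_q(j, j(q ^ q)) = 0` -/
theorem dlxv_phi_J :
    ((modPhiK q hq.out L).map ((aeval (taGen (N' * q) (dvd_mul_left q N')) :
      L[X] →ₐ[L] ↥(TaF L (N' * q))) : L[X] →+* ↥(TaF L (N' * q)))).eval (taJ (N' * q)) = 0 :=
  dlxv_eval_taGen (N' * q) (dvd_mul_left q N') _ _ (modPhiK_eval_right q hq.out L)

/-- `Ψ_q(U, j) = 0` -/
theorem dlxv_psi_U :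
    ((modPsiK q hq.out L).map ((aeval (taJ (N' * q)) :
      L[X] →ₐ[L] ↥(TaF L (N' * q))) : L[X] →+* ↥(TaF L (N' * q)))).eval
      (taUnit (N' * q) (dvd_mul_left q N')) = 0 :=
  dlxv_eval_taJ (N' * q) _ _ (modPsiK_eval_left q hq.out L)

/-- **`w D = U`**: the Atkin–Lehner involution exchanges `Δ(q) / Δ(q ^ q)` and
`q¹² Δ(q ^ q) / Δ(q)` -/
theorem dlxv_w_D :
    W.w (dlxvD (N' * q) (dvd_mul_left q N')) = taUnit (N' * q) (dvd_mul_left q N') := by
  haveI := algebraRat.charZero L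
  have h1 := dlxv_eval_algEquiv W.w _ _ _ (dlxv_psi_D (L := L) (N' := N') (q := q))
  rw [dlxv_w_taGen] at h1
  have h2 := dlxv_eval_taJ' (N' * q) _ _ h1
  exact Subtype.ext (dlxv_psi_root_unique q hq.out L _ h2)

/-- `w D · D = q¹²` -/
theorem dlxv_w_D_mul :
    W.w (dlxvD (N' * q) (dvd_mul_left q N')) * dlxvD (N' * q) (dvd_mul_left q N') =
      algebraMap L ↥(TaF L (N' * q)) ((q : L) ^ 12) := by
  rw [dlxv_w_D]
  exact (mul_comm _ _).trans (dlxvD_mul_taUnit (N' * q) (dvd_mul_left q N'))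

variable (O : ValuationSubring L) {k : Type*} [Field k]
  (π : ↥O →+* k) [IsDiscreteValuationRing ↥O] (hπ : Function.Surjective π)

/-- **`v_0(D) < 1`** (`q = 0` in the residue field) -/
theorem dlxvD_val_zero (hqk : (q : k) = 0) :
    (dliO0 O π hπ W).valuation (dlxvD (N' * q) (dvd_mul_left q N')) < 1 := by
  rw [t4vp_valuation_lt_one_iff _ (dlxvD_ne_zero _ (dvd_mul_left q N'))]
  intro hmem
  have h1 : W.w (dlxvD (N' * q) (dvd_mul_left q N'))⁻¹ ∈ taOv O π hπ (N' * q) := hmem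
  rw [map_inv₀, dlxv_w_D] at h1
  exact dlxv_taUnit_inv_notMem O π hπ (N' * q) (dvd_mul_left q N') hqk h1

end AL

/-! ### the horizontal places -/

section Hor

variable {L : Type*} [Field L] [Algebra ℚ L] {N' q : ℕ} [NeZero N'] [hq : Fact q.Prime]
  (W : T2iAL L N' q)

theorem dlxv_modPsiK_coeff_zero :
    (modPsiK q hq.out L).coeff 0 = Polynomial.C ((q : L) ^ 12) := by
  rw [mzg_modPsiK_coeff, mzg_modPsi_coeff_zero, Polynomial.map_C]
  simp

/-- `j` is regular wherever `j(q ^ q)` is -/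
theorem dlxv_taJ_mem {V : ValuationSubring ↥(TaF L (N' * q))}
    (hL : ∀ c : L, algebraMap L ↥(TaF L (N' * q)) c ∈ V)
    (h : taGen (N' * q) (dvd_mul_left q N') ∈ V) : taJ (N' * q) ∈ V :=
  (dlxv_root V hL _ (modPhiK_monic q hq.out L) h (dlxv_phi_J (L := L) (N' := N') (q := q))).1

/-- `D` is a unit wherever `j` is regular -/
theorem dlxvD_unit_of_taJ_mem {V : ValuationSubring ↥(TaF L (N' * q))}
    (hL : ∀ c : L, algebraMap L ↥(TaF L (N' * q)) c ∈ V) (h : taJ (N' * q) ∈ V) :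
    V.valuation (dlxvD (N' * q) (dvd_mul_left q N')) = 1 := by
  have hc := dlxv_natCast_pow_ne_zero L q
  obtain ⟨h1, h2⟩ := dlxv_root V hL _ (modPsiK_monic q hq.out L) h
    (dlxv_psi_U (L := L) (N' := N') (q := q))
  have h3 := h2 _ hc dlxv_modPsiK_coeff_zero
  have hD0 := dlxvD_ne_zero (L := L) (N' * q) (dvd_mul_left q N')
  have hU0 := dlxv_taUnit_ne_zero (L := L) (N' * q) (dvd_mul_left q N')
  have hmul := dlxvD_mul_taUnit (L := L) (N' * q) (dvd_mul_left q N')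
  have hc' : algebraMap L ↥(TaF L (N' * q)) ((q : L) ^ 12) ≠ 0 := (_root_.map_ne_zero _).mpr hc
  rw [t4vp_valuation_eq_one_iff V hD0]
  constructor
  · have : dlxvD (L := L) (N' * q) (dvd_mul_left q N') =
        algebraMap L ↥(TaF L (N' * q)) ((q : L) ^ 12) * (taUnit (N' * q) (dvd_mul_left q N'))⁻¹ := by
      rw [← hmul, mul_assoc, mul_inv_cancel₀ hU0, mul_one]
    rw [this]
    exact V.mul_mem _ _ (hL _) h3
  · have : (dlxvD (L := L) (N' * q) (dvd_mul_left q N'))⁻¹ =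
        algebraMap L ↥(TaF L (N' * q)) ((q : L) ^ 12)⁻¹ * taUnit (N' * q) (dvd_mul_left q N') := by
      rw [map_inv₀, ← hmul, mul_inv, mul_assoc, inv_mul_cancel₀ hU0, mul_one]
    rw [this]
    exact V.mul_mem _ _ (hL _) h1

/-- the symmetric chart `x · w x`, `x = j ^ Q - j` -/
def dlxvX (Q : ℕ) : ↥(TaF L (N' * q)) :=
  (taJ (N' * q) ^ Q - taJ (N' * q)) * W.w (taJ (N' * q) ^ Q - taJ (N' * q))

/-- `j` is regular wherever the symmetric chart is -/
theorem dlxv_taJ_mem_of_chart {Q : ℕ} (hQ : 2 ≤ Q) {V : ValuationSubring ↥(TaF L (N' * q))}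
    (hL : ∀ c : L, algebraMap L ↥(TaF L (N' * q)) c ∈ V) (hx : dlxvX W Q ∈ V) :
    taJ (N' * q) ∈ V := by
  by_contra hj
  have hjq : taGen (N' * q) (dvd_mul_left q N') ∉ V := fun h => hj (dlxv_taJ_mem hL h)
  have h1 := dlxv_pow_sub_notMem V hj hQ
  have h2 := dlxv_pow_sub_notMem V hjq hQ
  have h3 : W.w (taJ (N' * q) ^ Q - taJ (N' * q)) =
      taGen (N' * q) (dvd_mul_left q N') ^ Q - taGen (N' * q) (dvd_mul_left q N') := by
    rw [map_sub, map_pow, dlxv_w_taJ]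
  have h4 : V.valuation (dlxvX W Q) ≤ 1 := (V.valuation_le_one_iff _).mpr hx
  rw [dlxvX, h3, map_mul] at h4
  exact absurd h4 (not_le.mpr (one_lt_mul_of_lt_of_le h1 h2.le))

/-- **`D` is a unit at every place of `F / L` at which the symmetric chart is regular** -/
theorem dlxv_hor {Q : ℕ} (hQ : 2 ≤ Q) (V : ValuationSubring ↥(TaF L (N' * q)))
    (hV : V ∈ t4vpHor L (dlxvX W Q)) :
    V.valuation (dlxvD (N' * q) (dvd_mul_left q N')) = 1 := by
  have hL : ∀ c : L, algebraMap L ↥(TaF L (N' * q)) c ∈ V := t4vp_algebraMap_mem_hor hV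
  obtain ⟨v, rfl, hx⟩ := hV
  exact dlxvD_unit_of_taJ_mem hL (dlxv_taJ_mem_of_chart W hQ hL hx)

end Hor

end Fermat.Agent.Delta
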