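/-
DELTA / NODE-X (helper8): **VERT — the vertical unit `D = Δ(q) / Δ(q ^ p)` at the level `H`**.

`𝔓` a place of `ℚ̄` over `p`, `H ≤ I_𝔓` of finite index, `L = L_H = tbFix 𝔓 H`, `p ∤ N'`,
`F = tbLevF 𝔓 (N' * p) H`.  `dlxVertD 𝔓 H N' : F` is the element with `q`-expansion
`unitFinLS L p = Δ(q) / Δ(q ^ p)` (instance of `dlxvD`, VertGen.lean):

* `dlxVertD_ne_zero`;
* `dlxVertD_hor`   : a unit at every place of `F / L` at which the chart `t2gaX 𝔓 H N' h Q`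
  (`2 ≤ Q`) is regular;
* `dlxVertD_val_inf` : `v_∞(D) = 1` (Gauss valuation `taOv`);
* `dlxVertD_val_zero` : `v_0(D) < 1` (`v_0 = v_∞ ∘ w`, `dliO0`);
* `dlxVertD_w` : `w D = taUnit = p¹² Δ(q ^ p) / Δ(q)`;  `dlxVertD_w_mul : w D * D = p¹²`;
* `dlxVertD_phi` : the `q`-expansion over `ℚ̄` is `unitFinLS ℚ̄ p`;
* **`dlx_vert`** : the literal target of NODE-X (all of the above in one existential statement).
-/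
import Fermat.Agent.Lib.Delta.NodeX.VertGen
import Fermat.Agent.Lib.T2.Gal.Adapter

set_option autoImplicit false
set_option linter.unusedSectionVars false
set_option linter.unusedVariables false
set_option linter.style.haveILetI false
set_option synthInstance.maxHeartbeats 400000

open HahnSeries ModularCurve Fermat.Agent.Igusa Fermat.Agent.T1 Fermat.Agent.T2
  Fermat.Agent.T4 Fermat.Agent.TW

noncomputable section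

namespace Fermat.Agent.Delta

local notation "Qb" => AlgebraicClosure ℚ

attribute [local instance] t2i_dvr t2i_isAlgClosed t2i_charP t2i_fact

variable (𝔓 : FFPlace) (H : Subgroup 𝔓.I) [H.FiniteIndex] (N' : ℕ) [NeZero N'] (h : ¬ 𝔓.p ∣ N')

/-- **the vertical unit** `D = Δ(q) / Δ(q ^ p)` of `X₀(N' p)` over `L_H` -/
def dlxVertD : ↥(tbLevF 𝔓 (N' * 𝔓.p) H) :=
  dlxvD (L := ↥(tbFix 𝔓 H)) (N' * 𝔓.p) (dvd_mul_left 𝔓.p N')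

theorem coe_dlxVertD :
    ((dlxVertD 𝔓 H N' : ↥(tbLevF 𝔓 (N' * 𝔓.p) H)) : LaurentSeries ↥(tbFix 𝔓 H)) =
      unitFinLS ↥(tbFix 𝔓 H) 𝔓.p := rfl

theorem dlxVertD_ne_zero : dlxVertD 𝔓 H N' ≠ 0 := dlxvD_ne_zero _ _

/-- the chart of T2-G is the symmetric chart of `VertGen.lean` -/
theorem dlx_t2gaX_eq (Q : ℕ) : t2gaX 𝔓 H N' h Q = dlxvX (t2iALFix 𝔓 H N' h) Q := rfl

/-- **`D` is a unit at every horizontal place of the chart** -/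
theorem dlxVertD_hor {Q : ℕ} (hQ : 2 ≤ Q) (V : ValuationSubring ↥(tbLevF 𝔓 (N' * 𝔓.p) H))
    (hV : V ∈ t4vpHor ↥(tbFix 𝔓 H) (t2gaX 𝔓 H N' h Q)) :
    V.valuation (dlxVertD 𝔓 H N') = 1 :=
  dlxv_hor (t2iALFix 𝔓 H N' h) hQ V hV

/-- **`v_∞(D) = 1`** -/
theorem dlxVertD_val_inf :
    (taOv (tbFixO 𝔓 H) (tbFixRes 𝔓 H) (tbFixRes_surjective 𝔓 H) (N' * 𝔓.p)).valuation
      (dlxVertD 𝔓 H N') = 1 :=
  dlxvD_val_inf _ _ _ _ _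

/-- **`v_0(D) < 1`** -/
theorem dlxVertD_val_zero :
    (dliO0 (tbFixO 𝔓 H) (tbFixRes 𝔓 H) (tbFixRes_surjective 𝔓 H)
      (t2iALFix 𝔓 H N' h)).valuation (dlxVertD 𝔓 H N') < 1 :=
  dlxvD_val_zero (t2iALFix 𝔓 H N' h) _ _ _
    (CharP.cast_eq_zero (IsLocalRing.ResidueField ↥𝔓.P) 𝔓.p)

/-- **`w D = p¹² Δ(q ^ p) / Δ(q)`** -/
theorem dlxVertD_w :
    (t2iALFix 𝔓 H N' h).w (dlxVertD 𝔓 H N') = taUnit (N' * 𝔓.p) (dvd_mul_left 𝔓.p N') :=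
  dlxv_w_D (t2iALFix 𝔓 H N' h)

/-- **`w D · D = p¹²`** -/
theorem dlxVertD_w_mul :
    (t2iALFix 𝔓 H N' h).w (dlxVertD 𝔓 H N') * dlxVertD 𝔓 H N' =
      algebraMap ↥(tbFix 𝔓 H) ↥(tbLevF 𝔓 (N' * 𝔓.p) H) ((𝔓.p : ↥(tbFix 𝔓 H)) ^ 12) :=
  dlxv_w_D_mul (t2iALFix 𝔓 H N' h)

/-- the `q`-expansion over `ℚ̄` -/
theorem dlxVertD_phi :
    ((tbPhiF 𝔓 (N' * 𝔓.p) H (dlxVertD 𝔓 H N') : ↥(modularFunctionFieldBar (N' * 𝔓.p))) :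
      LaurentSeries Qb) = unitFinLS Qb 𝔓.p := by
  rw [coe_tbPhiF, coe_dlxVertD]
  exact lsMapHom_unitFinLS (algebraMap ↥(tbFix 𝔓 H) Qb) 𝔓.p

/-- **VERT** (the literal target of NODE-X) -/
theorem dlx_vert : ∃ D : ↥(tbLevF 𝔓 (N' * 𝔓.p) H), D ≠ 0 ∧
    (∀ V ∈ t4vpHor ↥(tbFix 𝔓 H) (t2gaX 𝔓 H N' h (𝔓.p ^ 2)), V.valuation D = 1) ∧
    (taOv (tbFixO 𝔓 H) (tbFixRes 𝔓 H) (tbFixRes_surjective 𝔓 H) (N' * 𝔓.p)).valuation D = 1 ∧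
    (dliO0 (tbFixO 𝔓 H) (tbFixRes 𝔓 H) (tbFixRes_surjective 𝔓 H)
      (t2iALFix 𝔓 H N' h)).valuation D < 1 ∧
    ((tbPhiF 𝔓 (N' * 𝔓.p) H D : ↥(modularFunctionFieldBar (N' * 𝔓.p))) : LaurentSeries Qb) =
      unitFinLS Qb 𝔓.p ∧
    (t2iALFix 𝔓 H N' h).w D * D =
      algebraMap ↥(tbFix 𝔓 H) ↥(tbLevF 𝔓 (N' * 𝔓.p) H) ((𝔓.p : ↥(tbFix 𝔓 H)) ^ 12) := by
  have hQ : 2 ≤ 𝔓.p ^ 2 := by
    have := 𝔓.hp.two_le
    nlinarith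
  exact ⟨dlxVertD 𝔓 H N', dlxVertD_ne_zero 𝔓 H N', dlxVertD_hor 𝔓 H N' h hQ,
    dlxVertD_val_inf 𝔓 H N', dlxVertD_val_zero 𝔓 H N' h, dlxVertD_phi 𝔓 H N',
    dlxVertD_w_mul 𝔓 H N' h⟩

end Fermat.Agent.Delta
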