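/-
DELTA / NODE-X (helper2), part 1: **a chart of a two-component arithmetic surface and its closed
points**.

Abstract setting (instances: chart 1 `x = x_s` and chart 2 `x = x_s⁻¹` of `X₀(N' p)` over
`O_H = tbFixO 𝔓 H`, every finite-index `H ≤ 𝔓.I`):
* `B : DlBase L k`, `g₁ : DlPlace B F κ₁`, `g₂ : DlPlace B F κ₂` (helper9's Gauss places `v_∞`, `v_0`);
* `C : DlxChart g₁ g₂ σ` : the two vertical valuation rings `V₁`, `V₂`, the chart coordinate `x`,
  a KRULL presentation `P : T4Pres F` of the chart ring (`P.vals = t4vpHor L x ∪ {V₁, V₂}`) and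
  the gluing datum `G : DlgData k κ₁ κ₂ σ` of its special fibre (`G.S = res P.B`).

This file: the residue maps `C.res₁`, `C.res₂ : P.B → κᵢ`, the evaluation `C.ev₁ P : P.B → k` at a
place `P` of the chart of the first component, its kernel `C.n₁ P` (a maximal ideal of `P.B`),
the local ring `C.loc P = (P.B)_{𝔫}` and its first properties.
-/
import Fermat.Agent.Lib.Delta.Glue.Local
import Fermat.Agent.Lib.Delta.Toric.InstGen
import Fermat.Agent.Lib.Delta.Et.LocPres
import Fermat.Agent.Lib.Delta.Node.Defs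
import Fermat.Agent.Lib.T4.Inst.PresChart

set_option autoImplicit false
set_option linter.unusedSectionVars false
set_option linter.unusedVariables false
set_option linter.style.haveILetI false

namespace Fermat.Agent.Delta

open AlgebraicCurve Fermat.Agent.Curve Fermat.Agent.Curve.PlaceAux Fermat.Agent.T1 Fermat.Agent.T2
  Fermat.Agent.T4

section PlaceLemmas

variable {L k : Type*} [Field L] [Field k] {B : DlBase L k} {F κ : Type*} [Field F] [Algebra L F]
  [Field κ] [Algebra k κ] (g : DlPlace B F κ) (V : ValuationSubring F) (hV : V.toSubring = g.O)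

include hV in
theorem dlx_mem_iff (f : F) : f ∈ V ↔ f ∈ g.O := by rw [← hV]; rfl

include hV in
/-- the kernel of the residue map of a Gauss place is the maximal ideal of its valuation ring -/
theorem dlx_res_eq_zero_iff {f : F} (hf : f ∈ g.O) : g.res ⟨f, hf⟩ = 0 ↔ V.valuation f < 1 := by
  constructor
  · intro h0
    obtain ⟨f', hf', rfl⟩ := g.exists_eq_pi_mul hf h0
    rw [map_mul]
    have h1 := (g.unif V hV).1
    have h2 : V.valuation f' ≤ 1 :=
      (V.valuation_le_one_iff _).mpr ((dlx_mem_iff g V hV f').mpr hf')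
    calc V.valuation g.pi * V.valuation f' ≤ V.valuation g.pi * 1 := mul_le_mul_right h2 _
      _ = V.valuation g.pi := mul_one _
      _ < 1 := h1
  · intro h
    by_contra h0
    have h1 : f⁻¹ ∈ V := (dlx_mem_iff g V hV _).mpr (g.hunit f hf h0)
    have h2 : V.valuation f⁻¹ ≤ 1 := (V.valuation_le_one_iff _).mpr h1
    have hf0 : f ≠ 0 := by
      rintro rfl
      exact h0 (g.res_zero' hf)
    have h3 : V.valuation f ≠ 0 := (map_ne_zero _).mpr hf0
    rw [map_inv₀, inv_le_one₀ (zero_lt_iff.mpr h3)] at h2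
    exact absurd h (not_lt.mpr h2)

include hV in
theorem dlx_res_ne_zero_iff {f : F} (hf : f ∈ g.O) : g.res ⟨f, hf⟩ ≠ 0 ↔ V.valuation f = 1 := by
  rw [Ne, dlx_res_eq_zero_iff g V hV hf, not_lt]
  have h1 : V.valuation f ≤ 1 := (V.valuation_le_one_iff _).mpr ((dlx_mem_iff g V hV f).mpr hf)
  exact ⟨fun h => le_antisymm h1 h, fun h => h.ge⟩

end PlaceLemmas

variable {L k : Type*} [Field L] [Field k] {B : DlBase L k} {F κ₁ κ₂ : Type*} [Field F]
  [Algebra L F] [Field κ₁] [Algebra k κ₁] [Field κ₂] [Algebra k κ₂]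

/-- **a chart of a two-component arithmetic surface**: the two vertical valuation rings, the chart
coordinate, a Krull presentation of the chart ring and the gluing datum of its special fibre -/
structure DlxChart (g₁ : DlPlace B F κ₁) (g₂ : DlPlace B F κ₂) (σ : Type*) [Fintype σ] where
  /-- the valuation ring of the first component -/
  V₁ : ValuationSubring F
  /-- the valuation ring of the second component -/
  V₂ : ValuationSubring F
  hV₁ : V₁.toSubring = g₁.O
  hV₂ : V₂.toSubring = g₂.O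
  hne : V₁ ≠ V₂
  /-- the chart coordinate -/
  x : F
  hx₁ : x ∈ g₁.O
  hx₂ : x ∈ g₂.O
  /-- the Krull presentation of the chart ring -/
  P : T4Pres F
  hvals : P.vals = t4vpHor L x ∪ {V₁, V₂}
  /-- the gluing datum of the special fibre -/
  G : DlgData k κ₁ κ₂ σ
  hS : ∀ t : κ₁ × κ₂, t ∈ G.S ↔ ∃ (b : F) (h₁ : b ∈ g₁.O) (h₂ : b ∈ g₂.O), b ∈ P.B ∧
    t = (g₁.res ⟨b, h₁⟩, g₂.res ⟨b, h₂⟩)

namespace DlxChart

variable {g₁ : DlPlace B F κ₁} {g₂ : DlPlace B F κ₂} {σ : Type*} [Fintype σ]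
  (C : DlxChart g₁ g₂ σ)

theorem V₁_mem : C.V₁ ∈ C.P.vals := by rw [C.hvals]; exact Or.inr (Or.inl rfl)

theorem V₂_mem : C.V₂ ∈ C.P.vals := by rw [C.hvals]; exact Or.inr (Or.inr rfl)

theorem B_le₁ {b : F} (hb : b ∈ C.P.B) : b ∈ g₁.O :=
  (dlx_mem_iff g₁ C.V₁ C.hV₁ b).mp (C.P.B_le C.V₁_mem hb)

theorem B_le₂ {b : F} (hb : b ∈ C.P.B) : b ∈ g₂.O :=
  (dlx_mem_iff g₂ C.V₂ C.hV₂ b).mp (C.P.B_le C.V₂_mem hb)

/-- the valuation rings of the presentation are the two vertical ones and the horizontal ones -/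
theorem vals_cases {V : ValuationSubring F} (hV : V ∈ C.P.vals) :
    V = C.V₁ ∨ V = C.V₂ ∨ V ∈ t4vpHor L C.x := by
  rw [C.hvals] at hV
  rcases hV with h | h | h
  · exact Or.inr (Or.inr h)
  · exact Or.inl h
  · exact Or.inr (Or.inl h)

theorem hor_mem {V : ValuationSubring F} (hV : V ∈ t4vpHor L C.x) : V ∈ C.P.vals := by
  rw [C.hvals]; exact Or.inl hV

/-- constants of `A` lie in the chart ring -/
theorem algebraMap_mem_B (a : ↥B.A) : algebraMap L F (a : L) ∈ C.P.B := by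
  rw [C.P.mem_iff]
  intro V hV
  rcases C.vals_cases hV with rfl | rfl | h
  · exact (dlx_mem_iff g₁ _ C.hV₁ _).mpr (g₁.algebraMap_mem a)
  · exact (dlx_mem_iff g₂ _ C.hV₂ _).mpr (g₂.algebraMap_mem a)
  · exact t4vp_algebraMap_mem_hor h _

/-- the chart coordinate lies in the chart ring -/
theorem x_mem_B : C.x ∈ C.P.B := by
  rw [C.P.mem_iff]
  intro V hV
  rcases C.vals_cases hV with rfl | rfl | h
  · exact (dlx_mem_iff g₁ _ C.hV₁ _).mpr C.hx₁
  · exact (dlx_mem_iff g₂ _ C.hV₂ _).mpr C.hx₂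
  · obtain ⟨v, rfl, hxv⟩ := h
    exact hxv

/-- the first residue map on the chart ring -/
def res₁ : ↥C.P.B →+* κ₁ := g₁.res.comp (Subring.inclusion fun _ hb => C.B_le₁ hb)

/-- the second residue map on the chart ring -/
def res₂ : ↥C.P.B →+* κ₂ := g₂.res.comp (Subring.inclusion fun _ hb => C.B_le₂ hb)

theorem res₁_apply (b : ↥C.P.B) : C.res₁ b = g₁.res ⟨(b : F), C.B_le₁ b.2⟩ := rfl

theorem res₂_apply (b : ↥C.P.B) : C.res₂ b = g₂.res ⟨(b : F), C.B_le₂ b.2⟩ := rfl

/-- the constants of `A` as elements of the chart ring -/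
def ofA : ↥B.A →+* ↥C.P.B where
  toFun a := ⟨algebraMap L F (a : L), C.algebraMap_mem_B a⟩
  map_one' := Subtype.ext (by simp)
  map_mul' a b := Subtype.ext (by simp)
  map_zero' := Subtype.ext (by simp)
  map_add' a b := Subtype.ext (by simp)

@[simp] theorem coe_ofA (a : ↥B.A) : ((C.ofA a : ↥C.P.B) : F) = algebraMap L F (a : L) := rfl

theorem res₁_ofA (a : ↥B.A) : C.res₁ (C.ofA a) = algebraMap k κ₁ (B.resA a) :=
  g₁.res_algebraMap a

theorem res₂_ofA (a : ↥B.A) : C.res₂ (C.ofA a) = algebraMap k κ₂ (B.resA a) :=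
  g₂.res_algebraMap a

theorem res₁_eq_zero_iff (b : ↥C.P.B) : C.res₁ b = 0 ↔ C.V₁.valuation (b : F) < 1 :=
  dlx_res_eq_zero_iff g₁ C.V₁ C.hV₁ _

theorem res₂_eq_zero_iff (b : ↥C.P.B) : C.res₂ b = 0 ↔ C.V₂.valuation (b : F) < 1 :=
  dlx_res_eq_zero_iff g₂ C.V₂ C.hV₂ _

/-- the reductions of the elements of the chart ring lie in `S` -/
theorem res_mem_S (b : ↥C.P.B) : (C.res₁ b, C.res₂ b) ∈ C.G.S :=
  (C.hS _).mpr ⟨b, C.B_le₁ b.2, C.B_le₂ b.2, b.2, rfl⟩

/-- the elements of `S` are reductions of elements of the chart ring -/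
theorem exists_lift {t : κ₁ × κ₂} (ht : t ∈ C.G.S) : ∃ b : ↥C.P.B, C.res₁ b = t.1 ∧ C.res₂ b = t.2 := by
  obtain ⟨b, h₁, h₂, hb, rfl⟩ := (C.hS t).mp ht
  exact ⟨⟨b, hb⟩, rfl, rfl⟩

variable [IsAlgClosed k]

theorem res₁_integral (b : ↥C.P.B) : IsIntegral ↥(Algebra.adjoin k {C.G.x.1}) (C.res₁ b) :=
  ((C.G.mem_S_iff _).mp (C.res_mem_S b)).1

theorem res₂_integral (b : ↥C.P.B) : IsIntegral ↥(Algebra.adjoin k {C.G.x.2}) (C.res₂ b) :=
  ((C.G.mem_S_iff _).mp (C.res_mem_S b)).2.1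

/-- reductions are regular at the places of the chart -/
theorem res₁_regular (b : ↥C.P.B) {P : Place k κ₁} (hP : 0 ≤ P.ord C.G.x.1) :
    C.res₁ b ∈ P.toValuationSubring :=
  mem_of_ord_nonneg P (ta_ord_nonneg_of_isIntegral (C.res₁_integral b) P hP)

theorem res₂_regular (b : ↥C.P.B) {Q : Place k κ₂} (hQ : 0 ≤ Q.ord C.G.x.2) :
    C.res₂ b ∈ Q.toValuationSubring :=
  mem_of_ord_nonneg Q (ta_ord_nonneg_of_isIntegral (C.res₂_integral b) Q hQ)

end DlxChart

end Fermat.Agent.Delta
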