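/-
DELTA / NODE-X (helper2), part 2: **the closed points of a chart and their local rings**.

For a chart `C : DlxChart g₁ g₂ σ` and a place `P` of the first component in the chart
(`0 ≤ P.ord C.G.x.1`):
* `dlxEval` : evaluation at a place of a ring of regular functions (a ring homomorphism to `k`);
* `C.ev₁ P hP : P.B →+* k`, `C.n₁ P hP = ker` (a maximal ideal), symmetric `C.ev₂`, `C.n₂`;
  at a node the two evaluations agree (`ev_node`, `n_node`);
* the vertical valuation rings through the point (`V₁_through`, `V₂_through_node`,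
  `V₂_not_through_free`);
* the local ring `C.A₁ P hP = (P.B)_𝔫 ⊆ F`, its residue map `C.lres₁` to `O_P ⊆ κ₁`, the local
  evaluation `C.lev₁`, the units (`isUnit_A₁_iff`).
-/
import Fermat.Agent.Lib.Delta.NodeX.Chart

set_option autoImplicit false
set_option linter.unusedSectionVars false
set_option linter.unusedVariables false
set_option linter.style.haveILetI false

namespace Fermat.Agent.Delta

open AlgebraicCurve Fermat.Agent.Curve Fermat.Agent.Curve.PlaceAux Fermat.Agent.T1 Fermat.Agent.T2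
  Fermat.Agent.T4

section Eval

variable {k κ : Type*} [Field k] [Field κ] [Algebra k κ] [IsAlgClosed k] (P : Place k κ)

/-- a function with a non-zero value is a unit at the place -/
theorem DlgVal.ord_eq_zero {f : κ} {c : k} (h : DlgVal P f c) (hc : c ≠ 0) :
    f ≠ 0 ∧ P.ord f = 0 := by
  have hc0 : algebraMap k κ c ≠ 0 := (map_ne_zero _).mpr hc
  have hf : f = algebraMap k κ c + (f - algebraMap k κ c) := by ring
  rcases (ordGE_iff P).mp h with h0 | h0
  · rw [sub_eq_zero] at h0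
    rw [h0]
    exact ⟨hc0, ord_algebraMap P c⟩
  · have h1 : P.ord (algebraMap k κ c) < P.ord (f - algebraMap k κ c) := by
      rw [ord_algebraMap]; omega
    have h2 := ord_add_of_lt P hc0 h1
    rw [← hf, ord_algebraMap] at h2
    refine ⟨?_, h2⟩
    rintro rfl
    rw [zero_sub] at h0
    have : P.ord (-algebraMap k κ c) = 0 := by
      rw [show -algebraMap k κ c = algebraMap k κ (-c) by rw [map_neg], ord_algebraMap]
    omega

/-- the value `0` means vanishing -/
theorem DlgVal.zero_iff {f : κ} : DlgVal P f 0 ↔ f = 0 ∨ 0 < P.ord f := by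
  unfold DlgVal
  rw [map_zero, sub_zero, ordGE_iff]
  constructor
  · rintro (h | h)
    · exact Or.inl h
    · exact Or.inr (by omega)
  · rintro (h | h)
    · exact Or.inl h
    · exact Or.inr (by omega)

variable (hgen : ∃ z : κ, IsFunctionFieldGen k κ z) {R : Type*} [CommRing R] (φ : R →+* κ)
  (hφ : ∀ r, φ r ∈ P.toValuationSubring)

include hgen hφ in
theorem dlx_exists_val (r : R) : ∃ c : k, DlgVal P (φ r) c := by
  obtain ⟨z, hz⟩ := hgen
  exact dlg_exists_val hz P (hφ r)

/-- **evaluation at a place** of a ring of functions regular at the place -/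
noncomputable def dlxEval : R →+* k where
  toFun r := (dlx_exists_val P hgen φ hφ r).choose
  map_one' := (dlx_exists_val P hgen φ hφ 1).choose_spec.unique (by
    rw [map_one]; exact DlgVal.one P)
  map_mul' a b := (dlx_exists_val P hgen φ hφ (a * b)).choose_spec.unique (by
    rw [map_mul]
    exact (dlx_exists_val P hgen φ hφ a).choose_spec.mul (dlx_exists_val P hgen φ hφ b).choose_spec)
  map_zero' := (dlx_exists_val P hgen φ hφ 0).choose_spec.unique (by
    rw [map_zero]; exact DlgVal.zero P)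
  map_add' a b := (dlx_exists_val P hgen φ hφ (a + b)).choose_spec.unique (by
    rw [map_add]
    exact (dlx_exists_val P hgen φ hφ a).choose_spec.add (dlx_exists_val P hgen φ hφ b).choose_spec)

theorem dlxEval_spec (r : R) : DlgVal P (φ r) (dlxEval P hgen φ hφ r) :=
  (dlx_exists_val P hgen φ hφ r).choose_spec

theorem dlxEval_eq_iff {r : R} {c : k} : dlxEval P hgen φ hφ r = c ↔ DlgVal P (φ r) c :=
  ⟨fun h => h ▸ dlxEval_spec P hgen φ hφ r, fun h => (dlxEval_spec P hgen φ hφ r).unique h⟩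

theorem dlxEval_eq_zero_iff {r : R} :
    dlxEval P hgen φ hφ r = 0 ↔ φ r = 0 ∨ 0 < P.ord (φ r) := by
  rw [dlxEval_eq_iff, DlgVal.zero_iff]

/-- an element with non-zero value is a unit at the place -/
theorem dlxEval_ne_zero {r : R} (h : dlxEval P hgen φ hφ r ≠ 0) : φ r ≠ 0 ∧ P.ord (φ r) = 0 :=
  (dlxEval_spec P hgen φ hφ r).ord_eq_zero P h

end Eval

variable {L k : Type*} [Field L] [Field k] {B : DlBase L k} {F κ₁ κ₂ : Type*} [Field F]
  [Algebra L F] [Field κ₁] [Algebra k κ₁] [Field κ₂] [Algebra k κ₂] [IsAlgClosed k]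

namespace DlxChart

variable {g₁ : DlPlace B F κ₁} {g₂ : DlPlace B F κ₂} {σ : Type*} [Fintype σ]
  (C : DlxChart g₁ g₂ σ)

include C in
theorem gen₁ : ∃ z : κ₁, IsFunctionFieldGen k κ₁ z := ⟨_, C.G.gen₁⟩

include C in
theorem gen₂ : ∃ z : κ₂, IsFunctionFieldGen k κ₂ z := ⟨_, C.G.gen₂⟩

section First

variable (P : Place k κ₁) (hP : 0 ≤ P.ord C.G.x.1)

/-- evaluation of the chart ring at a place of the first component -/
noncomputable def ev₁ : ↥C.P.B →+* k :=
  dlxEval P C.gen₁ C.res₁ (fun b => C.res₁_regular b hP)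

theorem ev₁_spec (b : ↥C.P.B) : DlgVal P (C.res₁ b) (C.ev₁ P hP b) := dlxEval_spec _ _ _ _ b

theorem ev₁_eq_iff {b : ↥C.P.B} {c : k} : C.ev₁ P hP b = c ↔ DlgVal P (C.res₁ b) c :=
  dlxEval_eq_iff _ _ _ _

theorem ev₁_ofA (a : ↥B.A) : C.ev₁ P hP (C.ofA a) = B.resA a := by
  rw [ev₁_eq_iff, C.res₁_ofA]
  exact DlgVal.const P _

theorem ev₁_surjective : Function.Surjective (C.ev₁ P hP) := by
  intro c
  obtain ⟨a, rfl⟩ := B.resA_surj c
  exact ⟨C.ofA a, C.ev₁_ofA P hP a⟩

/-- the maximal ideal of the chart ring at a place of the first component -/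
noncomputable def n₁ : Ideal ↥C.P.B := RingHom.ker (C.ev₁ P hP)

instance n₁_isMaximal : (C.n₁ P hP).IsMaximal :=
  RingHom.ker_isMaximal_of_surjective _ (C.ev₁_surjective P hP)

instance n₁_isPrime : (C.n₁ P hP).IsPrime := (C.n₁_isMaximal P hP).isPrime

theorem mem_n₁ {b : ↥C.P.B} : b ∈ C.n₁ P hP ↔ C.ev₁ P hP b = 0 := RingHom.mem_ker

theorem mem_n₁_iff {b : ↥C.P.B} : b ∈ C.n₁ P hP ↔ C.res₁ b = 0 ∨ 0 < P.ord (C.res₁ b) := by
  rw [mem_n₁]
  exact dlxEval_eq_zero_iff _ _ _ _

/-- the uniformiser of the base lies in the maximal ideal -/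
theorem pi_mem_n₁ : C.ofA B.ϖA ∈ C.n₁ P hP := by
  rw [mem_n₁, ev₁_ofA]
  exact B.res_ϖ

/-- the first vertical valuation ring passes through the point -/
theorem V₁_through : C.V₁ ∈ C.P.through (C.n₁ P hP) := by
  refine ⟨C.V₁_mem, fun b hb => ?_⟩
  rw [mem_n₁_iff]
  exact Or.inl ((C.res₁_eq_zero_iff b).mpr hb)

end First

section Second

variable (Q : Place k κ₂) (hQ : 0 ≤ Q.ord C.G.x.2)

/-- evaluation of the chart ring at a place of the second component -/
noncomputable def ev₂ : ↥C.P.B →+* k :=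
  dlxEval Q C.gen₂ C.res₂ (fun b => C.res₂_regular b hQ)

theorem ev₂_spec (b : ↥C.P.B) : DlgVal Q (C.res₂ b) (C.ev₂ Q hQ b) := dlxEval_spec _ _ _ _ b

theorem ev₂_eq_iff {b : ↥C.P.B} {c : k} : C.ev₂ Q hQ b = c ↔ DlgVal Q (C.res₂ b) c :=
  dlxEval_eq_iff _ _ _ _

end Second

section Node

variable {s : Place k κ₁ × Place k κ₂} (hs : s ∈ C.G.nodes)

include hs in
theorem node_fin₁ : 0 ≤ s.1.ord C.G.x.1 := (C.G.nodes_fin hs).1

include hs in
theorem node_fin₂ : 0 ≤ s.2.ord C.G.x.2 := (C.G.nodes_fin hs).2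

/-- the two evaluations at a node agree -/
theorem ev_node (b : ↥C.P.B) :
    C.ev₁ s.1 (C.node_fin₁ hs) b = C.ev₂ s.2 (C.node_fin₂ hs) b := by
  rw [ev₁_eq_iff]
  exact (C.G.val_node (C.res_mem_S b) hs _).mpr (C.ev₂_spec s.2 (C.node_fin₂ hs) b)

/-- the second vertical valuation ring passes through a node -/
theorem V₂_through_node : C.V₂ ∈ C.P.through (C.n₁ s.1 (C.node_fin₁ hs)) := by
  refine ⟨C.V₂_mem, fun b hb => ?_⟩
  rw [mem_n₁, C.ev_node hs, ev₂_eq_iff, (C.res₂_eq_zero_iff b).mpr hb]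
  exact DlgVal.zero _

end Node

/-- the second vertical valuation ring does not pass through a free point of the first
component -/
theorem V₂_not_through_free (P : Place k κ₁) (hP : 0 ≤ P.ord C.G.x.1)
    (hfree : ∀ Q, (P, Q) ∉ C.G.nodes) : C.V₂ ∉ C.P.through (C.n₁ P hP) := by
  intro hthr
  obtain ⟨ta, hta, tb, htb, h1, h2, h3, h4⟩ :=
    C.G.local_free₁ hP hfree (f := 1) (c := 1) (DlgVal.one P)
  obtain ⟨b, hb1, hb2⟩ := C.exists_lift htb
  have hV : C.V₂.valuation (b : F) < 1 := by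
    rw [← C.res₂_eq_zero_iff, hb2, h2]
  have hmem := hthr.2 b hV
  rw [mem_n₁, ev₁_eq_iff, hb1] at hmem
  exact one_ne_zero (h1.unique hmem)

end DlxChart

end Fermat.Agent.Delta
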