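/-
DELTA / NODE-X (helper2), part 3: **the local ring of a chart at a closed point**.

`C : DlxChart g₁ g₂ σ`, `P` a place of the first component in the chart, `𝔫 = C.n₁ P hP`:
* `C.A₁ P hP = (P.B)_𝔫 ⊆ F` (`= C.P.loc 𝔫`), `C.A₁ ≤ g₁.O`; at a node also `≤ g₂.O`;
* `C.lres₁ : A₁ →+* κ₁` with values in `O_P` (`lres₁_regular`), `C.lev₁ : A₁ →+* k`;
* `isUnit_A₁_iff : IsUnit a ↔ lev₁ a ≠ 0`;
* `div_mem_A₁`, `dlx_res_div` : quotients `a₀ / b₀` with `b₀ ∉ 𝔫`;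
* **local surjectivity** `exists_A₁_node` (at a node every pair `(f, g) ∈ O_P ×_k O_Q` is the
  reduction of an element of `A₁`), `exists_A₁_free` (at a free point every `f ∈ O_P`);
* `div_pi_mem_A₁_node`, `div_pi_mem_A₁_free` : the kernel of the reduction is `ϖ A₁`.
-/
import Fermat.Agent.Lib.Delta.NodeX.Point

set_option autoImplicit false
set_option linter.unusedSectionVars false
set_option linter.unusedVariables false
set_option linter.style.haveILetI false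

namespace Fermat.Agent.Delta

open AlgebraicCurve Fermat.Agent.Curve Fermat.Agent.Curve.PlaceAux Fermat.Agent.T1 Fermat.Agent.T2
  Fermat.Agent.T4

section ResDiv

variable {L k : Type*} [Field L] [Field k] {B : DlBase L k} {F κ : Type*} [Field F] [Algebra L F]
  [Field κ] [Algebra k κ] (g : DlPlace B F κ)

/-- the reduction of a quotient with unit denominator -/
theorem dlx_res_div {a b : F} (ha : a ∈ g.O) (hb : b ∈ g.O) (hb0 : g.res ⟨b, hb⟩ ≠ 0) :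
    ∃ h : a / b ∈ g.O, g.res ⟨a / b, h⟩ = g.res ⟨a, ha⟩ / g.res ⟨b, hb⟩ := by
  have hbi : b⁻¹ ∈ g.O := g.hunit b hb hb0
  have hbne : b ≠ 0 := by
    rintro rfl
    exact hb0 (g.res_zero' hb)
  have h : a / b ∈ g.O := by
    rw [div_eq_mul_inv]
    exact g.O.mul_mem ha hbi
  refine ⟨h, ?_⟩
  rw [g.res_congr h (div_eq_mul_inv a b), g.res_mul' ha hbi, g.res_inv' hb hbi hbne,
    div_eq_mul_inv]

end ResDiv

section ValInv

variable {k κ : Type*} [Field k] [Field κ] [Algebra k κ] [IsAlgClosed k] (P : Place k κ)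

/-- the value of an inverse -/
theorem DlgVal.inv {f : κ} {c : k} (h : DlgVal P f c) (hc : c ≠ 0) : DlgVal P f⁻¹ c⁻¹ := by
  obtain ⟨hf0, hford⟩ := h.ord_eq_zero P hc
  have hc0 : algebraMap k κ c ≠ 0 := (map_ne_zero _).mpr hc
  have e : f⁻¹ - algebraMap k κ c⁻¹ = (f - algebraMap k κ c) * (-(f⁻¹ * algebraMap k κ c⁻¹)) := by
    rw [map_inv₀]
    field_simp
    ring
  unfold DlgVal at h ⊢
  rw [e]
  have h1 : OrdGE P (-(f⁻¹ * algebraMap k κ c⁻¹)) 0 := by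
    apply OrdGE.neg
    rw [ordGE_iff]
    right
    rw [P.ord_mul (inv_ne_zero hf0) ((map_ne_zero _).mpr (inv_ne_zero hc)), P.ord_inv, hford,
      ord_algebraMap]
    simp
  have := h.mul P h1
  rwa [add_zero] at this

/-- the value of a quotient -/
theorem DlgVal.div {f f' : κ} {c c' : k} (h : DlgVal P f c) (h' : DlgVal P f' c') (hc' : c' ≠ 0) :
    DlgVal P (f / f') (c / c') := by
  rw [div_eq_mul_inv, div_eq_mul_inv]
  exact h.mul (h'.inv P hc')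

end ValInv

variable {L k : Type*} [Field L] [Field k] {B : DlBase L k} {F κ₁ κ₂ : Type*} [Field F]
  [Algebra L F] [Field κ₁] [Algebra k κ₁] [Field κ₂] [Algebra k κ₂] [IsAlgClosed k]

namespace DlxChart

variable {g₁ : DlPlace B F κ₁} {g₂ : DlPlace B F κ₂} {σ : Type*} [Fintype σ]
  (C : DlxChart g₁ g₂ σ)

/-- quotients with denominator outside `𝔫` lie in the localisation -/
theorem div_mem_loc {𝔫 : Ideal ↥C.P.B} (a₀ b₀ : ↥C.P.B) (hb : b₀ ∉ 𝔫) :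
    (a₀ : F) / (b₀ : F) ∈ C.P.loc 𝔫 := by
  intro V hV
  have h1 := C.P.valuation_eq_one_of_not_mem hV hb
  rw [← V.valuation_le_one_iff, map_div₀, h1, div_one]
  exact (V.valuation_le_one_iff _).mpr (C.P.B_le hV.1 a₀.2)

section First

variable (P : Place k κ₁) (hP : 0 ≤ P.ord C.G.x.1)

/-- the local ring of the chart at a place of the first component -/
noncomputable abbrev A₁ : Subring F := C.P.loc (C.n₁ P hP)

theorem A₁_le₁ {a : F} (ha : a ∈ C.A₁ P hP) : a ∈ g₁.O :=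
  (dlx_mem_iff g₁ C.V₁ C.hV₁ a).mp (ha C.V₁ (C.V₁_through P hP))

/-- the residue map of the local ring -/
noncomputable def lres₁ : ↥(C.A₁ P hP) →+* κ₁ :=
  g₁.res.comp (Subring.inclusion fun _ ha => C.A₁_le₁ P hP ha)

theorem lres₁_apply (a : ↥(C.A₁ P hP)) :
    C.lres₁ P hP a = g₁.res ⟨(a : F), C.A₁_le₁ P hP a.2⟩ := rfl

theorem lres₁_incl (b : ↥C.P.B) : C.lres₁ P hP (C.P.locIncl _ b) = C.res₁ b := rfl

theorem lres₁_eq_zero_iff (a : ↥(C.A₁ P hP)) :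
    C.lres₁ P hP a = 0 ↔ C.V₁.valuation (a : F) < 1 :=
  dlx_res_eq_zero_iff g₁ C.V₁ C.hV₁ _

/-- the residues of the local ring are regular at the place -/
theorem lres₁_regular (a : ↥(C.A₁ P hP)) : C.lres₁ P hP a ∈ P.toValuationSubring := by
  obtain ⟨c, hc, hca⟩ := C.P.mem_loc_iff.mp a.2
  have h1 : C.P.locIncl _ c * a = C.P.locIncl _ ⟨_, hca⟩ := Subtype.ext rfl
  have h2 := congrArg (C.lres₁ P hP) h1
  rw [map_mul, lres₁_incl, lres₁_incl] at h2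
  have hc' : C.ev₁ P hP c ≠ 0 := fun h => hc ((C.mem_n₁ P hP).mpr h)
  obtain ⟨hc0, hcord⟩ := (C.ev₁_spec P hP c).ord_eq_zero P hc'
  rw [PlaceAux.mem_iff]
  by_cases h0 : C.lres₁ P hP a = 0
  · exact Or.inl h0
  right
  have h3 := P.ord_mul hc0 h0
  rw [h2, hcord, zero_add] at h3
  rw [← h3]
  exact ord_nonneg_of_mem P (C.res₁_regular _ hP)

/-- evaluation of the local ring at the place -/
noncomputable def lev₁ : ↥(C.A₁ P hP) →+* k :=
  dlxEval P C.gen₁ (C.lres₁ P hP) (C.lres₁_regular P hP)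

theorem lev₁_spec (a : ↥(C.A₁ P hP)) : DlgVal P (C.lres₁ P hP a) (C.lev₁ P hP a) :=
  dlxEval_spec _ _ _ _ a

theorem lev₁_eq_iff {a : ↥(C.A₁ P hP)} {c : k} :
    C.lev₁ P hP a = c ↔ DlgVal P (C.lres₁ P hP a) c := dlxEval_eq_iff _ _ _ _

theorem lev₁_incl (b : ↥C.P.B) : C.lev₁ P hP (C.P.locIncl _ b) = C.ev₁ P hP b := by
  rw [lev₁_eq_iff, lres₁_incl]
  exact C.ev₁_spec P hP b

theorem lev₁_eq_zero_iff {a : ↥(C.A₁ P hP)} :
    C.lev₁ P hP a = 0 ↔ C.lres₁ P hP a = 0 ∨ 0 < P.ord (C.lres₁ P hP a) :=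
  dlxEval_eq_zero_iff _ _ _ _

/-- **the units of the local ring** are the functions which do not vanish at the point -/
theorem isUnit_A₁_iff (a : ↥(C.A₁ P hP)) : IsUnit a ↔ C.lev₁ P hP a ≠ 0 := by
  constructor
  · intro hu h0
    obtain ⟨a', ha'⟩ := isUnit_iff_exists_inv.mp hu
    have := congrArg (C.lev₁ P hP) ha'
    rw [map_mul, h0, zero_mul, map_one] at this
    exact zero_ne_one this
  · intro h
    by_contra hnu
    letI := C.P.isLocalRing_loc (C.n₁ P hP)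
    have hm : a ∈ IsLocalRing.maximalIdeal ↥(C.A₁ P hP) := hnu
    obtain ⟨b, c, hb, hc, hcab⟩ := (C.P.mem_maximalIdeal_loc_iff (C.n₁ P hP) a).mp hm
    have h1 : C.P.locIncl _ c * a = C.P.locIncl _ b := Subtype.ext hcab
    have h2 := congrArg (C.lev₁ P hP) h1
    rw [map_mul, lev₁_incl, lev₁_incl, (C.mem_n₁ P hP).mp hb] at h2
    rcases mul_eq_zero.mp h2 with h3 | h3
    · exact hc ((C.mem_n₁ P hP).mpr h3)
    · exact h h3

/-- constants lie in the local ring -/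
theorem algebraMap_mem_A₁ (a : ↥B.A) : algebraMap L F (a : L) ∈ C.A₁ P hP :=
  C.P.B_le_loc _ (C.algebraMap_mem_B a)

/-- a quotient with denominator which does not vanish at the point -/
theorem div_mem_A₁ (a₀ b₀ : ↥C.P.B) (hb : C.ev₁ P hP b₀ ≠ 0) :
    (a₀ : F) / (b₀ : F) ∈ C.A₁ P hP :=
  C.div_mem_loc a₀ b₀ (fun h => hb ((C.mem_n₁ P hP).mp h))

/-- **local surjectivity at a free point of the first component** -/
theorem exists_A₁_free (hfree : ∀ Q, (P, Q) ∉ C.G.nodes) {f : κ₁} {c : k} (hf : DlgVal P f c) :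
    ∃ a : ↥(C.A₁ P hP), C.lres₁ P hP a = f := by
  obtain ⟨ta, hta, tb, htb, h1, h2, h3, h4⟩ := C.G.local_free₁ hP hfree hf
  obtain ⟨a₀, ha1, ha2⟩ := C.exists_lift hta
  obtain ⟨b₀, hb1, hb2⟩ := C.exists_lift htb
  have hb : C.ev₁ P hP b₀ = 1 := by rw [ev₁_eq_iff, hb1]; exact h1
  have hb' : C.ev₁ P hP b₀ ≠ 0 := by rw [hb]; exact one_ne_zero
  have hb0 : tb.1 ≠ 0 := (h1.ord_eq_zero P one_ne_zero).1
  refine ⟨⟨_, C.div_mem_A₁ P hP a₀ b₀ hb'⟩, ?_⟩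
  obtain ⟨h, hres⟩ := dlx_res_div g₁ (C.B_le₁ a₀.2) (C.B_le₁ b₀.2)
    (by rw [← C.res₁_apply, hb1]; exact hb0)
  rw [lres₁_apply]
  show g₁.res ⟨(a₀ : F) / (b₀ : F), _⟩ = f
  rw [hres, ← C.res₁_apply, ← C.res₁_apply, ha1, hb1, h4, mul_div_assoc, div_self hb0, mul_one]

/-- the kernel of the reduction at a free point is `ϖ A₁` -/
theorem div_pi_mem_A₁_free (hfree : ∀ Q, (P, Q) ∉ C.G.nodes) {a : F} (ha : a ∈ C.A₁ P hP)
    (h1 : C.V₁.valuation a < 1) : a / g₁.pi ∈ C.A₁ P hP := by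
  intro V hV
  rcases C.vals_cases hV.1 with rfl | rfl | h
  · have h2 := (g₁.unif _ C.hV₁).2 a h1
    rw [← ValuationSubring.valuation_le_one_iff, map_div₀]
    exact div_le_one_of_le₀ h2 zero_le
  · exact absurd hV (C.V₂_not_through_free P hP hfree)
  · have h2 : V.valuation g₁.pi = 1 := t4vp_valuation_const h B.hϖ
    rw [← ValuationSubring.valuation_le_one_iff, map_div₀, h2, div_one]
    exact (V.valuation_le_one_iff _).mpr (ha V hV)

end First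

section Node

variable {s : Place k κ₁ × Place k κ₂} (hs : s ∈ C.G.nodes)

theorem A₁_le₂ {a : F} (ha : a ∈ C.A₁ s.1 (C.node_fin₁ hs)) : a ∈ g₂.O :=
  (dlx_mem_iff g₂ C.V₂ C.hV₂ a).mp (ha C.V₂ (C.V₂_through_node hs))

/-- the second residue map of the local ring at a node -/
noncomputable def lres₂ : ↥(C.A₁ s.1 (C.node_fin₁ hs)) →+* κ₂ :=
  g₂.res.comp (Subring.inclusion fun _ ha => C.A₁_le₂ hs ha)

theorem lres₂_apply (a : ↥(C.A₁ s.1 (C.node_fin₁ hs))) :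
    C.lres₂ hs a = g₂.res ⟨(a : F), C.A₁_le₂ hs a.2⟩ := rfl

theorem lres₂_incl (b : ↥C.P.B) : C.lres₂ hs (C.P.locIncl _ b) = C.res₂ b := rfl

theorem lres₂_eq_zero_iff (a : ↥(C.A₁ s.1 (C.node_fin₁ hs))) :
    C.lres₂ hs a = 0 ↔ C.V₂.valuation (a : F) < 1 :=
  dlx_res_eq_zero_iff g₂ C.V₂ C.hV₂ _

/-- **local surjectivity at a node** -/
theorem exists_A₁_node {f : κ₁} {g : κ₂} {c : k} (hf : DlgVal s.1 f c) (hg : DlgVal s.2 g c) :
    ∃ a : ↥(C.A₁ s.1 (C.node_fin₁ hs)), C.lres₁ s.1 (C.node_fin₁ hs) a = f ∧ C.lres₂ hs a = g := by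
  obtain ⟨ta, hta, tb, htb, h1, h2, h3, h4⟩ := C.G.local_node hs hf hg
  obtain ⟨a₀, ha1, ha2⟩ := C.exists_lift hta
  obtain ⟨b₀, hb1, hb2⟩ := C.exists_lift htb
  have hb : C.ev₁ s.1 (C.node_fin₁ hs) b₀ = 1 := by rw [ev₁_eq_iff, hb1]; exact h1
  have hb' : C.ev₁ s.1 (C.node_fin₁ hs) b₀ ≠ 0 := by rw [hb]; exact one_ne_zero
  have hb10 : tb.1 ≠ 0 := (h1.ord_eq_zero s.1 one_ne_zero).1
  have hb20 : tb.2 ≠ 0 := (h2.ord_eq_zero s.2 one_ne_zero).1
  refine ⟨⟨_, C.div_mem_A₁ s.1 (C.node_fin₁ hs) a₀ b₀ hb'⟩, ?_, ?_⟩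
  · obtain ⟨h, hres⟩ := dlx_res_div g₁ (C.B_le₁ a₀.2) (C.B_le₁ b₀.2)
      (by rw [← C.res₁_apply, hb1]; exact hb10)
    rw [lres₁_apply]
    show g₁.res ⟨(a₀ : F) / (b₀ : F), _⟩ = f
    rw [hres, ← C.res₁_apply, ← C.res₁_apply, ha1, hb1, h3, mul_div_assoc, div_self hb10, mul_one]
  · obtain ⟨h, hres⟩ := dlx_res_div g₂ (C.B_le₂ a₀.2) (C.B_le₂ b₀.2)
      (by rw [← C.res₂_apply, hb2]; exact hb20)
    rw [lres₂_apply]
    show g₂.res ⟨(a₀ : F) / (b₀ : F), _⟩ = g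
    rw [hres, ← C.res₂_apply, ← C.res₂_apply, ha2, hb2, h4, mul_div_assoc, div_self hb20, mul_one]

/-- the residues of the local ring at a node are regular at the second branch, with the same
value -/
theorem lres₂_val (a : ↥(C.A₁ s.1 (C.node_fin₁ hs))) :
    DlgVal s.2 (C.lres₂ hs a) (C.lev₁ s.1 (C.node_fin₁ hs) a) := by
  obtain ⟨c, hc, hca⟩ := C.P.mem_loc_iff.mp a.2
  have h1 : C.P.locIncl _ c * a = C.P.locIncl _ ⟨_, hca⟩ := Subtype.ext rfl
  have h2 := congrArg (C.lres₂ hs) h1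
  rw [map_mul, lres₂_incl, lres₂_incl] at h2
  have h3 := congrArg (C.lev₁ s.1 (C.node_fin₁ hs)) h1
  rw [map_mul, lev₁_incl, lev₁_incl] at h3
  have hc' : C.ev₁ s.1 (C.node_fin₁ hs) c ≠ 0 := fun h => hc ((C.mem_n₁ _ _).mpr h)
  -- values at the second branch
  have hvc : DlgVal s.2 (C.res₂ c) (C.ev₁ s.1 (C.node_fin₁ hs) c) := by
    rw [C.ev_node hs]; exact C.ev₂_spec _ _ c
  have hvb : DlgVal s.2 (C.res₂ ⟨_, hca⟩) (C.ev₁ s.1 (C.node_fin₁ hs) ⟨_, hca⟩) := by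
    rw [C.ev_node hs]; exact C.ev₂_spec _ _ _
  obtain ⟨hc0, hcord⟩ := hvc.ord_eq_zero s.2 hc'
  have hquot : C.lres₂ hs a = C.res₂ ⟨_, hca⟩ / C.res₂ c := by
    rw [← h2, mul_comm, mul_div_assoc, div_self hc0, mul_one]
  have hval : C.lev₁ s.1 (C.node_fin₁ hs) a =
      C.ev₁ s.1 (C.node_fin₁ hs) ⟨_, hca⟩ / C.ev₁ s.1 (C.node_fin₁ hs) c := by
    rw [← h3, mul_comm, mul_div_assoc, div_self hc', mul_one]
  rw [hquot, hval]
  exact hvb.div s.2 hvc hc'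

/-- the kernel of the reduction at a node is `ϖ A₁` -/
theorem div_pi_mem_A₁_node {a : F} (ha : a ∈ C.A₁ s.1 (C.node_fin₁ hs))
    (h1 : C.V₁.valuation a < 1) (h2 : C.V₂.valuation a < 1) :
    a / g₁.pi ∈ C.A₁ s.1 (C.node_fin₁ hs) := by
  intro V hV
  rcases C.vals_cases hV.1 with rfl | rfl | h
  · have h3 := (g₁.unif _ C.hV₁).2 a h1
    rw [← ValuationSubring.valuation_le_one_iff, map_div₀]
    exact div_le_one_of_le₀ h3 zero_le
  · have h3 := (g₂.unif _ C.hV₂).2 a h2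
    rw [← ValuationSubring.valuation_le_one_iff, map_div₀]
    exact div_le_one_of_le₀ h3 zero_le
  · have h3 : V.valuation g₁.pi = 1 := t4vp_valuation_const h B.hϖ
    rw [← ValuationSubring.valuation_le_one_iff, map_div₀, h3, div_one]
    exact (V.valuation_le_one_iff _).mpr (ha V hV)

end Node

end DlxChart

end Fermat.Agent.Delta
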