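/-
DELTA / NODE-X (helper2), part 5: **the crossing at a node and the smooth point at a free place**.

`C : DlxChart g₁ g₂ σ` over a discrete valuation ring `B.A`, with noetherian chart ring.
* `C.FinAt 𝔫` : (FIN-X) for the horizontal valuation rings through `𝔫` (proved in `Fin.lean`);
* `C.toLocal hs hfin hens : DlLocal L F` at a node `hs : s ∈ C.G.nodes`
  (`W = V₁`, `W' = V₂`, `A = C.A₁ s.1 _`);
* `C.toCross hs hfin hens D … : DlCross L F` (smooth branches, transversality, the vertical unit);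
* `C.toSmooth P hP hfree hfin hens : DlSmooth L F` at a free place of the first component.
-/
import Fermat.Agent.Lib.Delta.NodeX.Local
import Fermat.Agent.Lib.Delta.Et.LocFin
import Fermat.Agent.Lib.Delta.Node.ParNode
import Fermat.Agent.Lib.Delta.Node.Smooth.Basic
import Fermat.Agent.Lib.Curve.AdeleDim

set_option autoImplicit false
set_option linter.unusedSectionVars false
set_option linter.unusedVariables false
set_option linter.style.haveILetI false

namespace Fermat.Agent.Delta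

open AlgebraicCurve Fermat.Agent.Curve Fermat.Agent.Curve.PlaceAux Fermat.Agent.T1 Fermat.Agent.T2
  Fermat.Agent.T4

section Base

variable {L k : Type*} [Field L] [Field k] (B : DlBase L k)

/-- `ϖ` is a uniformiser of the base -/
theorem dlx_unif_base : DlUnif B.A B.ϖ := by
  have hnu : ¬ IsUnit B.ϖA := (B.resA_eq_zero_iff B.ϖA).mp B.res_ϖ
  constructor
  · rw [lt_iff_le_and_ne]
    refine ⟨(B.A.valuation_le_one_iff _).mpr B.hϖA, fun h1 => hnu ?_⟩
    have h2 : B.ϖ⁻¹ ∈ B.A := by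
      rw [← B.A.valuation_le_one_iff, map_inv₀, h1, inv_one]
    refine isUnit_iff_exists_inv.mpr ⟨⟨B.ϖ⁻¹, h2⟩, Subtype.ext ?_⟩
    show B.ϖ * B.ϖ⁻¹ = 1
    exact mul_inv_cancel₀ B.hϖ
  · intro x hx
    have hxA : x ∈ B.A := (B.A.valuation_le_one_iff _).mp hx.le
    have hxnu : ¬ IsUnit (⟨x, hxA⟩ : ↥B.A) := by
      intro hu
      obtain ⟨y, hy⟩ := isUnit_iff_exists_inv.mp hu
      have h1 : x * (y : L) = 1 := congrArg Subtype.val hy
      have h2 : B.A.valuation x * B.A.valuation (y : L) = 1 := by rw [← map_mul, h1, map_one]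
      have h3 : B.A.valuation (y : L) ≤ 1 := (B.A.valuation_le_one_iff _).mpr y.2
      have h4 : B.A.valuation x * B.A.valuation (y : L) < 1 :=
        lt_of_le_of_lt (mul_le_mul_right h3 _) (by rwa [mul_one])
      exact h4.ne h2
    obtain ⟨a', ha'⟩ := B.unif _ ((B.resA_eq_zero_iff _).mpr hxnu)
    have e : x = B.ϖ * (a' : L) := ha'
    rw [e, map_mul]
    calc B.A.valuation B.ϖ * B.A.valuation (a' : L) ≤ B.A.valuation B.ϖ * 1 :=
          mul_le_mul_right ((B.A.valuation_le_one_iff _).mpr a'.2) _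
      _ = B.A.valuation B.ϖ := mul_one _

end Base

section DivUnif

variable {k κ : Type*} [Field k] [Field κ] [Algebra k κ] [IsAlgClosed k] (P : Place k κ)

/-- a function vanishing at the place is divisible by a uniformiser -/
theorem dlx_div_unif_mem {φ τ : κ} (hφ : DlgVal P φ 0) (hτ : P.ord τ = 1) :
    φ / τ ∈ P.toValuationSubring := by
  rw [PlaceAux.mem_iff]
  have hτ0 : τ ≠ 0 := by
    rintro rfl
    rw [P.ord_zero] at hτ
    omega
  rcases (DlgVal.zero_iff P).mp hφ with h | h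
  · left; rw [h, zero_div]
  · right
    have hφ0 : φ ≠ 0 := by
      rintro rfl
      rw [P.ord_zero] at h
      omega
    rw [div_eq_mul_inv, P.ord_mul hφ0 (inv_ne_zero hτ0), P.ord_inv, hτ]
    omega

end DivUnif

variable {L k : Type*} [Field L] [Field k] {B : DlBase L k} {F κ₁ κ₂ : Type*} [Field F]
  [Algebra L F] [Field κ₁] [Algebra k κ₁] [Field κ₂] [Algebra k κ₂] [IsAlgClosed k]

namespace DlxChart

variable {g₁ : DlPlace B F κ₁} {g₂ : DlPlace B F κ₂} {σ : Type*} [Fintype σ]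
  (C : DlxChart g₁ g₂ σ)

/-- (FIN-X) at a maximal ideal of the chart ring: for every horizontal valuation ring `V` through
`𝔫` the quotient `P.B ⧸ 𝔭_V` is spanned over `A` by a finite set -/
def FinAt (𝔫 : Ideal ↥C.P.B) : Prop :=
  ∀ V ∈ C.P.through 𝔫, V ∈ t4vpHor L C.x → ∃ S : Finset F, (∀ s ∈ S, s ∈ C.P.B) ∧
    ∀ f ∈ C.P.B, ∃ y ∈ dltComb B.A S, V.valuation (f - y) < 1

/-- (FIN) for the local ring from (FIN-X) and (HENS) -/
theorem fin_loc (𝔫 : Ideal ↥C.P.B) [h𝔫 : 𝔫.IsMaximal] (hfin : C.FinAt 𝔫) (hens : DltHens B.A F)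
    {V : ValuationSubring F} (hV : V ∈ C.P.through 𝔫) (hhor : V ∈ t4vpHor L C.x) :
    ∃ S : Finset F, (∀ s ∈ S, s ∈ C.P.loc 𝔫) ∧ ∀ f ∈ C.P.loc 𝔫, ∃ c : F → L,
      (∀ s, c s ∈ B.A) ∧ V.valuation (f - ∑ s ∈ S, algebraMap L F (c s) * s) < 1 := by
  obtain ⟨S, hS, hf⟩ := hfin V hV hhor
  refine ⟨S, fun s hs => C.P.B_le_loc _ (hS s hs), fun f hfl => ?_⟩
  obtain ⟨y, ⟨c, hc, rfl⟩, hy⟩ := dlt_loc_fin B.A C.P
    (fun a ha => C.algebraMap_mem_B ⟨a, ha⟩) V hV.1
    (fun a => t4vp_algebraMap_mem_hor hhor a) S hS hf hens 𝔫 hV hfl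
  exact ⟨c, hc, hy⟩

variable [IsDiscreteValuationRing ↥B.A] [IsNoetherianRing ↥C.P.B]

section Node

variable {s : Place k κ₁ × Place k κ₂} (hs : s ∈ C.G.nodes)
  (hfin : C.FinAt (C.n₁ s.1 (C.node_fin₁ hs))) (hens : DltHens B.A F)

/-- **the local Krull ring at a node** -/
noncomputable def toLocal : DlLocal L F where
  O := B.A
  dvrO := inferInstance
  ϖ := B.ϖ
  hϖ := dlx_unif_base B
  P := dltLocPres C.P (C.n₁ s.1 (C.node_fin₁ hs))
  isLocal := dltLocPres_isLocalRing _ _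
  noeth := dltLocPres_isNoetherianRing _ _
  W := C.V₁
  W' := C.V₂
  hW := C.V₁_through _ _
  hW' := C.V₂_through_node hs
  W_ne := C.hne
  ϖW := g₁.unif _ C.hV₁
  ϖW' := g₂.unif _ C.hV₂
  O_le := fun a ha => C.algebraMap_mem_A₁ _ _ ⟨a, ha⟩
  hor_ϖ := by
    intro V hV h1 h2
    rcases C.vals_cases hV.1 with h | h | h
    · exact absurd h h1
    · exact absurd h h2
    · exact t4vp_valuation_const h B.hϖ
  resk := by
    intro f
    obtain ⟨a, ha⟩ := B.resA_surj (C.lev₁ s.1 (C.node_fin₁ hs) f)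
    refine ⟨(a : L), a.2, ?_⟩
    intro hu
    have h2 := (C.isUnit_A₁_iff s.1 (C.node_fin₁ hs) _).mp hu
    have h3 : ∀ f' : ↥(C.A₁ s.1 (C.node_fin₁ hs)), C.lev₁ s.1 (C.node_fin₁ hs) f' = B.resA a →
        C.lev₁ s.1 (C.node_fin₁ hs) (f' - C.P.locIncl _ (C.ofA a)) = 0 := by
      intro f' hf'
      rw [map_sub, lev₁_incl, ev₁_ofA, hf', sub_self]
    have h3 := h3 f ha.symm
    exact h2 h3
  fin := by
    intro V hV h1 h2
    rcases C.vals_cases hV.1 with h | h | h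
    · exact absurd h h1
    · exact absurd h h2
    · exact C.fin_loc _ hfin hens hV h

@[simp] theorem toLocal_W : (C.toLocal hs hfin hens).W = C.V₁ := rfl

@[simp] theorem toLocal_W' : (C.toLocal hs hfin hens).W' = C.V₂ := rfl

theorem toLocal_B : (C.toLocal hs hfin hens).P.B = C.A₁ s.1 (C.node_fin₁ hs) := rfl

theorem toLocal_vals :
    (C.toLocal hs hfin hens).P.vals = C.P.through (C.n₁ s.1 (C.node_fin₁ hs)) := rfl

/-- a coordinate on the first branch -/
theorem exists_t₁ : ∃ t : ↥(C.A₁ s.1 (C.node_fin₁ hs)),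
    s.1.ord (C.lres₁ s.1 (C.node_fin₁ hs) t) = 1 ∧ C.lres₂ hs t = 0 := by
  obtain ⟨τ, hτ⟩ := RRAux.exists_uniformizer s.1
  have hv : DlgVal s.1 τ 0 := (DlgVal.zero_iff _).mpr (Or.inr (by omega))
  obtain ⟨t, h1, h2⟩ := C.exists_A₁_node hs hv (DlgVal.zero s.2)
  exact ⟨t, by rw [h1]; exact hτ, h2⟩

/-- a coordinate on the second branch -/
theorem exists_t₂ : ∃ t : ↥(C.A₁ s.1 (C.node_fin₁ hs)),
    s.2.ord (C.lres₂ hs t) = 1 ∧ C.lres₁ s.1 (C.node_fin₁ hs) t = 0 := by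
  obtain ⟨τ, hτ⟩ := RRAux.exists_uniformizer s.2
  have hv : DlgVal s.2 τ 0 := (DlgVal.zero_iff _).mpr (Or.inr (by omega))
  obtain ⟨t, h1, h2⟩ := C.exists_A₁_node hs (DlgVal.zero s.1) hv
  exact ⟨t, by rw [h2]; exact hτ, h1⟩

theorem lev₁_eq_zero_of_not_isUnit {f : ↥(C.A₁ s.1 (C.node_fin₁ hs))} (hf : ¬ IsUnit f) :
    C.lev₁ s.1 (C.node_fin₁ hs) f = 0 := by
  by_contra h
  exact hf ((C.isUnit_A₁_iff _ _ f).mpr h)

/-- division by a coordinate on the first branch -/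
theorem exists_div₁ {t : ↥(C.A₁ s.1 (C.node_fin₁ hs))}
    (ht : s.1.ord (C.lres₁ s.1 (C.node_fin₁ hs) t) = 1) (f : ↥(C.A₁ s.1 (C.node_fin₁ hs)))
    (hf : ¬ IsUnit f) :
    ∃ a : ↥(C.A₁ s.1 (C.node_fin₁ hs)), C.V₁.valuation ((f - a * t : ↥(C.A₁ s.1 _)) : F) < 1 := by
  have hφ : DlgVal s.1 (C.lres₁ s.1 (C.node_fin₁ hs) f) 0 := by
    rw [← C.lev₁_eq_zero_of_not_isUnit hs hf]
    exact C.lev₁_spec _ _ f
  have hmem := dlx_div_unif_mem s.1 hφ ht
  obtain ⟨c', hc'⟩ := dlg_exists_val C.G.gen₁ s.1 hmem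
  obtain ⟨a, ha1, -⟩ := C.exists_A₁_node hs hc' (DlgVal.const s.2 c')
  refine ⟨a, ?_⟩
  rw [← lres₁_eq_zero_iff, map_sub, map_mul, ha1]
  have hτ0 : C.lres₁ s.1 (C.node_fin₁ hs) t ≠ 0 := by
    intro h0
    rw [h0, s.1.ord_zero] at ht
    omega
  rw [div_mul_cancel₀ _ hτ0, sub_self]

/-- division by a coordinate on the second branch -/
theorem exists_div₂ {t : ↥(C.A₁ s.1 (C.node_fin₁ hs))}
    (ht : s.2.ord (C.lres₂ hs t) = 1) (f : ↥(C.A₁ s.1 (C.node_fin₁ hs)))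
    (hf : ¬ IsUnit f) :
    ∃ a : ↥(C.A₁ s.1 (C.node_fin₁ hs)), C.V₂.valuation ((f - a * t : ↥(C.A₁ s.1 _)) : F) < 1 := by
  have hφ : DlgVal s.2 (C.lres₂ hs f) 0 := by
    rw [← C.lev₁_eq_zero_of_not_isUnit hs hf]
    exact C.lres₂_val hs f
  have hmem := dlx_div_unif_mem s.2 hφ ht
  obtain ⟨c', hc'⟩ := dlg_exists_val C.G.gen₂ s.2 hmem
  obtain ⟨a, -, ha2⟩ := C.exists_A₁_node hs (DlgVal.const s.1 c') hc'
  refine ⟨a, ?_⟩
  rw [← lres₂_eq_zero_iff C hs, map_sub, map_mul, ha2]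
  have hτ0 : C.lres₂ hs t ≠ 0 := by
    intro h0
    rw [h0, s.2.ord_zero] at ht
    omega
  rw [div_mul_cancel₀ _ hτ0, sub_self]

/-- the first branch is smooth at the node, with coordinate any lift of a uniformiser -/
theorem quot_dvr₁ {t : ↥(C.A₁ s.1 (C.node_fin₁ hs))}
    (ht : s.1.ord (C.lres₁ s.1 (C.node_fin₁ hs) t) = 1) :
    IsPrincipalIdealRing ((C.toLocal hs hfin hens).P.B ⧸
        (C.toLocal hs hfin hens).ctr C.V₁ (C.V₁_through _ _)) ∧
      IsLocalRing.maximalIdeal ((C.toLocal hs hfin hens).P.B ⧸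
        (C.toLocal hs hfin hens).ctr C.V₁ (C.V₁_through _ _)) =
        Ideal.span {Ideal.Quotient.mk ((C.toLocal hs hfin hens).ctr C.V₁ (C.V₁_through _ _)) t} := by
  refine dln_quot_dvr_of_gen (C.toLocal hs hfin hens) C.V₁ (C.V₁_through _ _) t ?_ ?_ ?_
  · intro hu
    have h1 := (C.isUnit_A₁_iff _ _ t).mp hu
    have h2 := C.lev₁_spec s.1 (C.node_fin₁ hs) t
    have h3 := (h2.ord_eq_zero s.1 h1).2
    omega
  · intro hmem
    have h1 : C.V₁.valuation (t : F) < 1 := hmem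
    rw [← lres₁_eq_zero_iff] at h1
    rw [h1, s.1.ord_zero] at ht
    omega
  · intro f hf
    obtain ⟨a, ha⟩ := C.exists_div₁ hs ht f hf
    exact ⟨a, ha⟩

/-- the second branch is smooth at the node -/
theorem quot_dvr₂ {t : ↥(C.A₁ s.1 (C.node_fin₁ hs))} (ht : s.2.ord (C.lres₂ hs t) = 1) :
    IsPrincipalIdealRing ((C.toLocal hs hfin hens).P.B ⧸
        (C.toLocal hs hfin hens).ctr C.V₂ (C.V₂_through_node hs)) ∧
      IsLocalRing.maximalIdeal ((C.toLocal hs hfin hens).P.B ⧸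
        (C.toLocal hs hfin hens).ctr C.V₂ (C.V₂_through_node hs)) =
        Ideal.span {Ideal.Quotient.mk ((C.toLocal hs hfin hens).ctr C.V₂ (C.V₂_through_node hs)) t} := by
  refine dln_quot_dvr_of_gen (C.toLocal hs hfin hens) C.V₂ (C.V₂_through_node hs) t ?_ ?_ ?_
  · intro hu
    have h1 := (C.isUnit_A₁_iff _ _ t).mp hu
    have h2 := C.lres₂_val hs t
    have h3 := (h2.ord_eq_zero s.2 h1).2
    omega
  · intro hmem
    have h1 : C.V₂.valuation (t : F) < 1 := hmem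
    rw [← lres₂_eq_zero_iff C hs] at h1
    rw [h1, s.2.ord_zero] at ht
    omega
  · intro f hf
    obtain ⟨a, ha⟩ := C.exists_div₂ hs ht f hf
    exact ⟨a, ha⟩

/-- transversality: `𝔭_W + 𝔭_W' = 𝔪_A` -/
theorem exists_trans (f : ↥(C.A₁ s.1 (C.node_fin₁ hs))) (hf : ¬ IsUnit f) :
    ∃ g h : ↥(C.A₁ s.1 (C.node_fin₁ hs)), C.V₁.valuation (g : F) < 1 ∧
      C.V₂.valuation (h : F) < 1 ∧ f = g + h := by
  have hφ : DlgVal s.1 (C.lres₁ s.1 (C.node_fin₁ hs) f) 0 := by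
    rw [← C.lev₁_eq_zero_of_not_isUnit hs hf]
    exact C.lev₁_spec _ _ f
  obtain ⟨h, h1, h2⟩ := C.exists_A₁_node hs hφ (DlgVal.zero s.2)
  refine ⟨f - h, h, ?_, ?_, ?_⟩
  · rw [← lres₁_eq_zero_iff, map_sub, h1, sub_self]
  · rw [← lres₂_eq_zero_iff C hs, h2]
  · exact (sub_add_cancel f h).symm

/-- **the crossing at a node** -/
noncomputable def toCross (D : F) (hD0 : D ≠ 0) (hDhor : ∀ V ∈ t4vpHor L C.x, V.valuation D = 1)
    (hD1 : C.V₁.valuation D = 1) (hD2 : C.V₂.valuation D < 1) : DlCross L F where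
  toDlLocal := C.toLocal hs hfin hens
  smoothW := (C.quot_dvr₁ hs hfin hens (C.exists_t₁ hs).choose_spec.1).1
  smoothW' := (C.quot_dvr₂ hs hfin hens (C.exists_t₂ hs).choose_spec.1).1
  trans := C.exists_trans hs
  D := D
  D_ne := hD0
  D_hor := by
    intro V hV h1 h2
    rcases C.vals_cases hV.1 with h | h | h
    · exact absurd h h1
    · exact absurd h h2
    · exact hDhor V h
  D_W := hD1
  D_W' := hD2

end Node

section Free

variable (P : Place k κ₁) (hP : 0 ≤ P.ord C.G.x.1) (hfree : ∀ Q, (P, Q) ∉ C.G.nodes)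
  (hfin : C.FinAt (C.n₁ P hP)) (hens : DltHens B.A F)

include hfree in
/-- a coordinate at a free point -/
theorem exists_t_free : ∃ t : ↥(C.A₁ P hP), P.ord (C.lres₁ P hP t) = 1 := by
  obtain ⟨τ, hτ⟩ := RRAux.exists_uniformizer P
  have hv : DlgVal P τ 0 := (DlgVal.zero_iff _).mpr (Or.inr (by omega))
  obtain ⟨t, h1⟩ := C.exists_A₁_free P hP hfree hv
  exact ⟨t, by rw [h1]; exact hτ⟩

theorem lev₁_eq_zero_of_not_isUnit' {f : ↥(C.A₁ P hP)} (hf : ¬ IsUnit f) :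
    C.lev₁ P hP f = 0 := by
  by_contra h
  exact hf ((C.isUnit_A₁_iff _ _ f).mpr h)

include hfree in
/-- `𝔪 = (t, ϖ)` at a free point -/
theorem exists_max_free {t : ↥(C.A₁ P hP)} (ht : P.ord (C.lres₁ P hP t) = 1) (f : ↥(C.A₁ P hP))
    (hf : ¬ IsUnit f) :
    ∃ a c : ↥(C.A₁ P hP), (f : F) = (a : F) * (t : F) + (c : F) * algebraMap L F B.ϖ := by
  have hφ : DlgVal P (C.lres₁ P hP f) 0 := by
    rw [← C.lev₁_eq_zero_of_not_isUnit' P hP hf]
    exact C.lev₁_spec _ _ f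
  have hmem := dlx_div_unif_mem P hφ ht
  obtain ⟨c', hc'⟩ := dlg_exists_val C.G.gen₁ P hmem
  obtain ⟨a, ha1⟩ := C.exists_A₁_free P hP hfree hc'
  have hτ0 : C.lres₁ P hP t ≠ 0 := by
    intro h0
    rw [h0, P.ord_zero] at ht
    omega
  have hv : C.V₁.valuation ((f - a * t : ↥(C.A₁ P hP)) : F) < 1 := by
    rw [← lres₁_eq_zero_iff, map_sub, map_mul, ha1, div_mul_cancel₀ _ hτ0, sub_self]
  have hdiv := C.div_pi_mem_A₁_free P hP hfree (f - a * t).2 hv
  refine ⟨a, ⟨_, hdiv⟩, ?_⟩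
  show (f : F) = (a : F) * (t : F) + ((f : F) - (a : F) * (t : F)) / g₁.pi * g₁.pi
  rw [div_mul_cancel₀ _ g₁.pi_ne_zero]
  ring

/-- **the smooth point at a free place of the first component** -/
noncomputable def toSmooth : DlSmooth L F where
  O := B.A
  dvrO := inferInstance
  ϖ := B.ϖ
  hϖ := dlx_unif_base B
  P := dltLocPres C.P (C.n₁ P hP)
  isLocal := dltLocPres_isLocalRing _ _
  noeth := dltLocPres_isNoetherianRing _ _
  W := C.V₁
  hW := C.V₁_through _ _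
  ϖW := g₁.unif _ C.hV₁
  O_le := fun a ha => C.algebraMap_mem_A₁ _ _ ⟨a, ha⟩
  hor_ϖ := by
    intro V hV h1
    rcases C.vals_cases hV.1 with h | h | h
    · exact absurd h h1
    · exact absurd (h ▸ hV) (C.V₂_not_through_free P hP hfree)
    · exact t4vp_valuation_const h B.hϖ
  resk := by
    intro f
    obtain ⟨a, ha⟩ := B.resA_surj (C.lev₁ P hP f)
    refine ⟨(a : L), a.2, ?_⟩
    intro hu
    have h2 := (C.isUnit_A₁_iff P hP _).mp hu
    have h3 : ∀ f' : ↥(C.A₁ P hP), C.lev₁ P hP f' = B.resA a →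
        C.lev₁ P hP (f' - C.P.locIncl _ (C.ofA a)) = 0 := by
      intro f' hf'
      rw [map_sub, lev₁_incl, ev₁_ofA, hf', sub_self]
    have h3 := h3 f ha.symm
    exact h2 h3
  fin := by
    intro V hV h1
    rcases C.vals_cases hV.1 with h | h | h
    · exact absurd h h1
    · exact absurd (h ▸ hV) (C.V₂_not_through_free P hP hfree)
    · exact C.fin_loc _ hfin hens hV h
  t := ((C.exists_t_free P hP hfree).choose : F)
  ht := (C.exists_t_free P hP hfree).choose.2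
  Wt := by
    have ht := (C.exists_t_free P hP hfree).choose_spec
    rw [← dlx_res_ne_zero_iff g₁ C.V₁ C.hV₁ (C.A₁_le₁ P hP (C.exists_t_free P hP hfree).choose.2)]
    intro h0
    have h1 : C.lres₁ P hP (C.exists_t_free P hP hfree).choose = 0 := h0
    rw [h1, P.ord_zero] at ht
    omega
  t_nu := by
    intro hu
    have ht := (C.exists_t_free P hP hfree).choose_spec
    have h1 := (C.isUnit_A₁_iff P hP _).mp hu
    have h2 := C.lev₁_spec P hP (C.exists_t_free P hP hfree).choose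
    have h3 := (h2.ord_eq_zero P h1).2
    omega
  max := C.exists_max_free P hP hfree (C.exists_t_free P hP hfree).choose_spec

@[simp] theorem toSmooth_W : (C.toSmooth P hP hfree hfin hens).W = C.V₁ := rfl

theorem toSmooth_B : (C.toSmooth P hP hfree hfin hens).P.B = C.A₁ P hP := rfl

theorem toSmooth_vals : (C.toSmooth P hP hfree hfin hens).P.vals = C.P.through (C.n₁ P hP) := rfl

end Free

end DlxChart

end Fermat.Agent.Delta
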