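/-
DELTA / NODE-X (helper2), part 6: **the dictionary: slope = order of the reduction**.

For a chart `C : DlxChart g₁ g₂ σ`, a non-zero function `z ∈ F`, and ANY normalisation
`z / ϖ ^ n ∈ g₁.O` with non-zero reduction `y ∈ κ₁`:
* `toCross_slope`  : at a node `s`, the slope of the crossing `C.toCross hs …` is `ord_{s.1} y`;
* `toSmooth_slope` : at a free place `P`, the slope of the smooth point `C.toSmooth P …` is
  `ord_P y`;
* `toCross_oW`, `toSmooth_oW` : `n` is the order of `z` at `V₁`.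
-/
import Fermat.Agent.Lib.Delta.NodeX.Cross
import Fermat.Agent.Lib.Delta.Node.CrossExport
import Fermat.Agent.Lib.Delta.Node.Smooth.Cll

set_option autoImplicit false
set_option linter.unusedSectionVars false
set_option linter.unusedVariables false
set_option linter.style.haveILetI false

namespace Fermat.Agent.Delta

open AlgebraicCurve Fermat.Agent.Curve Fermat.Agent.Curve.PlaceAux Fermat.Agent.T1 Fermat.Agent.T2
  Fermat.Agent.T4

section ResZpow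

variable {L k : Type*} [Field L] [Field k] {B : DlBase L k} {F κ : Type*} [Field F] [Algebra L F]
  [Field κ] [Algebra k κ] (g : DlPlace B F κ)

/-- the reduction of an integer power of a unit -/
theorem dlx_res_zpow {t : F} (ht : t ∈ g.O) (ht0 : g.res ⟨t, ht⟩ ≠ 0) (m : ℤ) :
    ∃ h : t ^ m ∈ g.O, g.res ⟨t ^ m, h⟩ = g.res ⟨t, ht⟩ ^ m := by
  have htne : t ≠ 0 := by
    rintro rfl
    exact ht0 (g.res_zero' ht)
  rcases m with n | n
  · have h : t ^ (Int.ofNat n) ∈ g.O := by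
      rw [Int.ofNat_eq_natCast, zpow_natCast]; exact g.O.pow_mem ht n
    refine ⟨h, ?_⟩
    rw [g.res_congr h (show t ^ (Int.ofNat n) = t ^ n by
      rw [Int.ofNat_eq_natCast, zpow_natCast]), g.res_pow' ht, Int.ofNat_eq_natCast, zpow_natCast]
  · have hp : t ^ (n + 1) ∈ g.O := g.O.pow_mem ht _
    have hp0 : g.res ⟨t ^ (n + 1), hp⟩ ≠ 0 := by
      rw [g.res_pow' ht]; exact pow_ne_zero _ ht0
    have hpi : (t ^ (n + 1))⁻¹ ∈ g.O := g.hunit _ hp hp0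
    have h : t ^ (Int.negSucc n) ∈ g.O := by rw [zpow_negSucc]; exact hpi
    refine ⟨h, ?_⟩
    rw [g.res_congr h (zpow_negSucc t n), g.res_inv' hp hpi (pow_ne_zero _ htne), g.res_pow' ht,
      zpow_negSucc]

/-- the order at the valuation ring of a Gauss place from a normalisation -/
theorem dlx_ord_of_norm (V : ValuationSubring F) [IsDiscreteValuationRing V]
    (hV : V.toSubring = g.O) {z : F} (hz : z ≠ 0) {n : ℤ} (hn : z / g.pi ^ n ∈ g.O)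
    (hy : g.res ⟨_, hn⟩ ≠ 0) : dlOrd V z = n := by
  have h1 : V.valuation (z / g.pi ^ n) = 1 := (dlx_res_ne_zero_iff g V hV hn).mp hy
  have hp : g.pi ^ n ≠ 0 := zpow_ne_zero _ g.pi_ne_zero
  rw [dl_valuation_eq_one_iff V (div_ne_zero hz hp), dlOrd_div V hz hp, dlOrd_zpow,
    dln_ord_of_unif V (g.unif V hV)] at h1
  omega

end ResZpow

variable {L k : Type*} [Field L] [Field k] {B : DlBase L k} {F κ₁ κ₂ : Type*} [Field F]
  [Algebra L F] [Field κ₁] [Algebra k κ₁] [Field κ₂] [Algebra k κ₂] [IsAlgClosed k]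

namespace DlxChart

variable {g₁ : DlPlace B F κ₁} {g₂ : DlPlace B F κ₂} {σ : Type*} [Fintype σ]
  (C : DlxChart g₁ g₂ σ) [IsDiscreteValuationRing ↥B.A] [IsNoetherianRing ↥C.P.B]

section Node

variable {s : Place k κ₁ × Place k κ₂} (hs : s ∈ C.G.nodes)
  (hfin : C.FinAt (C.n₁ s.1 (C.node_fin₁ hs))) (hens : DltHens B.A F)
  (D : F) (hD0 : D ≠ 0) (hDhor : ∀ V ∈ t4vpHor L C.x, V.valuation D = 1)
  (hD1 : C.V₁.valuation D = 1) (hD2 : C.V₂.valuation D < 1)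

/-- the order at `W = V₁` of the crossing, from a normalisation -/
theorem toCross_oW {z : F} (hz : z ≠ 0) {n : ℤ} (hn : z / g₁.pi ^ n ∈ g₁.O)
    (hy : g₁.res ⟨_, hn⟩ ≠ 0) :
    (C.toCross hs hfin hens D hD0 hDhor hD1 hD2).oW z = n :=
  @dlx_ord_of_norm _ _ _ _ _ _ _ _ _ _ _ g₁ C.V₁ (C.P.dvr _ C.V₁_mem) C.hV₁ _ hz _ hn hy

/-- **the dictionary at a node**: the slope of the crossing is the order of the reduction at the
first branch -/
theorem toCross_slope {z : F} (hz : z ≠ 0) {n : ℤ} (hn : z / g₁.pi ^ n ∈ g₁.O)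
    (hy : g₁.res ⟨_, hn⟩ ≠ 0) :
    (C.toCross hs hfin hens D hD0 hDhor hD1 hD2).slope z = s.1.ord (g₁.res ⟨_, hn⟩) := by
  set 𝒞 := C.toCross hs hfin hens D hD0 hDhor hD1 hD2 with h𝒞
  set y := g₁.res ⟨_, hn⟩ with hy'
  set m := s.1.ord y with hm
  obtain ⟨t, ht1, ht2⟩ := C.exists_t₁ hs
  have hτ0 : C.lres₁ s.1 (C.node_fin₁ hs) t ≠ 0 := by
    intro h0
    rw [h0, s.1.ord_zero] at ht1
    omega
  -- the unit `ū = y / τ̄ ^ m`
  have hu0 : y / C.lres₁ s.1 (C.node_fin₁ hs) t ^ m ≠ 0 := div_ne_zero hy (zpow_ne_zero _ hτ0)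
  have huord : s.1.ord (y / C.lres₁ s.1 (C.node_fin₁ hs) t ^ m) = 0 := by
    rw [div_eq_mul_inv, s.1.ord_mul hy (inv_ne_zero (zpow_ne_zero _ hτ0)), s.1.ord_inv,
      s.1.ord_zpow, ht1]
    omega
  obtain ⟨c, hc⟩ := dlg_exists_val C.G.gen₁ s.1 (mem_of_ord_nonneg s.1 huord.ge)
  have hc0 : c ≠ 0 := DlgVal.ne_zero_of_ord_eq_zero hu0 huord hc
  obtain ⟨u, hu1, -⟩ := C.exists_A₁_node hs hc (DlgVal.const s.2 c)
  have huU : IsUnit u := by
    rw [isUnit_A₁_iff, (C.lev₁_eq_iff _ _).mpr (hu1 ▸ hc)]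
    exact hc0
  have huU' : 𝒞.IsU (u : F) := (dln_isU_iff_isUnit 𝒞.toDlLocal u).mpr huU
  -- the congruence
  obtain ⟨htm, hresm⟩ := dlx_res_zpow g₁ (C.A₁_le₁ _ _ t.2) hτ0 m
  have hmem : (t : F) ^ m * (u : F) ∈ g₁.O := g₁.O.mul_mem htm (C.A₁_le₁ _ _ u.2)
  have hres : g₁.res ⟨(t : F) ^ m * (u : F), hmem⟩ = y := by
    rw [g₁.res_mul' htm (C.A₁_le₁ _ _ u.2), hresm]
    show C.lres₁ s.1 (C.node_fin₁ hs) t ^ m * C.lres₁ s.1 (C.node_fin₁ hs) u = y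
    rw [hu1, mul_div_cancel₀ _ (zpow_ne_zero _ hτ0)]
  have hoW : 𝒞.oW z = n := C.toCross_oW hs hfin hens D hD0 hDhor hD1 hD2 hz hn hy
  have hcong : 𝒞.CongW (z / 𝒞.pi ^ (𝒞.oW z)) ((t : F) ^ m * (u : F)) := by
    rw [dln_congW_iff_val, hoW]
    show C.V₁.valuation (z / g₁.pi ^ n - (t : F) ^ m * (u : F)) < 1
    rw [← dlx_res_eq_zero_iff g₁ C.V₁ C.hV₁ (g₁.O.sub_mem hn hmem), g₁.res_sub' hn hmem, hres,
      sub_self]
  exact dlc_slope_eq 𝒞 (t : F) t.2 (C.quot_dvr₁ hs hfin hens ht1).2 hz huU' hcong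

end Node

section Free

variable (P : Place k κ₁) (hP : 0 ≤ P.ord C.G.x.1) (hfree : ∀ Q, (P, Q) ∉ C.G.nodes)
  (hfin : C.FinAt (C.n₁ P hP)) (hens : DltHens B.A F)

/-- the order at `W = V₁` of the smooth point, from a normalisation -/
theorem toSmooth_oW {z : F} (hz : z ≠ 0) {n : ℤ} (hn : z / g₁.pi ^ n ∈ g₁.O)
    (hy : g₁.res ⟨_, hn⟩ ≠ 0) : (C.toSmooth P hP hfree hfin hens).oW z = n :=
  @dlx_ord_of_norm _ _ _ _ _ _ _ _ _ _ _ g₁ C.V₁ (C.P.dvr _ C.V₁_mem) C.hV₁ _ hz _ hn hy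

/-- **the dictionary at a free place**: the slope of the smooth point is the order of the
reduction -/
theorem toSmooth_slope {z : F} (hz : z ≠ 0) {n : ℤ} (hn : z / g₁.pi ^ n ∈ g₁.O)
    (hy : g₁.res ⟨_, hn⟩ ≠ 0) :
    (C.toSmooth P hP hfree hfin hens).slope z = P.ord (g₁.res ⟨_, hn⟩) := by
  set 𝒮 := C.toSmooth P hP hfree hfin hens with h𝒮
  set y := g₁.res ⟨_, hn⟩ with hy'
  set m := P.ord y with hm
  set t : ↥(C.A₁ P hP) := (C.exists_t_free P hP hfree).choose with ht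
  have ht1 : P.ord (C.lres₁ P hP t) = 1 := (C.exists_t_free P hP hfree).choose_spec
  have hτ0 : C.lres₁ P hP t ≠ 0 := by
    intro h0
    rw [h0, P.ord_zero] at ht1
    omega
  have hu0 : y / C.lres₁ P hP t ^ m ≠ 0 := div_ne_zero hy (zpow_ne_zero _ hτ0)
  have huord : P.ord (y / C.lres₁ P hP t ^ m) = 0 := by
    rw [div_eq_mul_inv, P.ord_mul hy (inv_ne_zero (zpow_ne_zero _ hτ0)), P.ord_inv,
      P.ord_zpow, ht1]
    omega
  obtain ⟨c, hc⟩ := dlg_exists_val C.G.gen₁ P (mem_of_ord_nonneg P huord.ge)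
  have hc0 : c ≠ 0 := DlgVal.ne_zero_of_ord_eq_zero hu0 huord hc
  obtain ⟨u, hu1⟩ := C.exists_A₁_free P hP hfree hc
  have huU : IsUnit u := by
    rw [isUnit_A₁_iff, (C.lev₁_eq_iff _ _).mpr (hu1 ▸ hc)]
    exact hc0
  have huU' : 𝒮.IsU (u : F) := (dlns_isU_iff_isUnit 𝒮 u).mpr huU
  obtain ⟨htm, hresm⟩ := dlx_res_zpow g₁ (C.A₁_le₁ _ _ t.2) hτ0 m
  have hmem : (t : F) ^ m * (u : F) ∈ g₁.O := g₁.O.mul_mem htm (C.A₁_le₁ _ _ u.2)
  have hres : g₁.res ⟨(t : F) ^ m * (u : F), hmem⟩ = y := by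
    rw [g₁.res_mul' htm (C.A₁_le₁ _ _ u.2), hresm]
    show C.lres₁ P hP t ^ m * C.lres₁ P hP u = y
    rw [hu1, mul_div_cancel₀ _ (zpow_ne_zero _ hτ0)]
  have hoW : 𝒮.oW z = n := C.toSmooth_oW P hP hfree hfin hens hz hn hy
  have hcong : 𝒮.CongW (𝒮.nrm z) (𝒮.t ^ m * (u : F)) := by
    rw [dlns_congW_iff_val]
    unfold DlSmooth.nrm
    rw [hoW]
    show C.V₁.valuation (z / g₁.pi ^ n - (t : F) ^ m * (u : F)) < 1
    rw [← dlx_res_eq_zero_iff g₁ C.V₁ C.hV₁ (g₁.O.sub_mem hn hmem), g₁.res_sub' hn hmem, hres,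
      sub_self]
  exact 𝒮.slope_eq hz huU' hcong

end Free

end DlxChart

end Fermat.Agent.Delta
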