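/-
DELTA / NODE-X (helper8): **the HENS provider** — the discrete valuation rings `tbFixO 𝔓 H`
(`H ≤ I_𝔓`) are henselian in the form `DltHens` (Et/LocFin.lean): every domain which is a finite
`O`-module with `O → R` injective is a local ring.

* `dlxh_hens_abs` : ABSTRACT form.  `L` a field, `Ω` an algebraically closed field algebraic over
  `L`, `P` a valuation ring of `Ω` preserved by every `σ ∈ Aut(Ω / L)`, `O = P ∩ L`.  Then every
  domain `R` finite over `O` with `O → R` injective is local.  [Proof: embed `R` into `Ω` over `O`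
  (`IsAlgClosed.lift`); the image lies in `P` (`P` is integrally closed); `x ∈ R` is a unit iff its
  image is a unit of `P`: the constant coefficient of the minimal polynomial of `x` over `O` is
  `± ∏` of the conjugates of the image of `x`, which are units of `P` since `Aut(Ω / L)` preserves
  `P`; so the non-units of `R` are the preimage of `𝔪_P`.]
* `dlxh_hens 𝔓 H R : IsLocalRing R` (universe-generic `R`), `dlxh_dltHens 𝔓 H F :
  DltHens (tbFixO 𝔓 H) F` for every `F : Type`, and the literal target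
  `dlx_hens 𝔓 H N : DltHens (tbFixO 𝔓 H) ↥(tbLevF 𝔓 N H)`.
-/
import Fermat.Agent.Lib.Delta.Et.LocFin
import Fermat.Agent.Lib.T1.Core.InertiaDVR
import Fermat.Agent.Lib.T1.Inst.Level
import Fermat.Agent.Lib.TW.LF.Galois

set_option autoImplicit false
set_option linter.style.haveILetI false
set_option linter.unusedSectionVars false
set_option linter.unusedVariables false

namespace Fermat.Agent.Delta

open Polynomial

section Abs

variable {L Ω : Type*} [Field L] [Field Ω] [Algebra L Ω] [IsAlgClosed Ω]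
  [Algebra.IsAlgebraic L Ω] (P : ValuationSubring Ω)
  (hσ : ∀ σ : Ω ≃ₐ[L] Ω, ∀ x ∈ P, σ x ∈ P)

include hσ in
/-- conjugate elements are simultaneously units of `P` -/
theorem dlxh_conj_unit {x y : Ω} (hxy : minpoly L x = minpoly L y) (hx0 : x ≠ 0) (hx : x ∈ P)
    (hxi : x⁻¹ ∈ P) : P.valuation y = 1 := by
  haveI : IsAlgClosure L Ω := ⟨inferInstance, inferInstance⟩
  haveI : Normal L Ω := IsAlgClosure.normal L Ω
  obtain ⟨σ, hσy⟩ := (isConjRoot_iff_exists_algEquiv (K := L) (L := Ω) (x := y) (y := x)).mp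
    (isConjRoot_def.mpr hxy.symm)
  have h1 : y ∈ P := by rw [← hσy]; exact hσ σ x hx
  have h2 : y⁻¹ ∈ P := by rw [← hσy, ← map_inv₀]; exact hσ σ _ hxi
  have h3 : P.valuation y ≤ 1 := (P.valuation_le_one_iff _).mpr h1
  have h4 : P.valuation y⁻¹ ≤ 1 := (P.valuation_le_one_iff _).mpr h2
  have hy0 : y ≠ 0 := by
    rw [← hσy]
    exact (EmbeddingLike.map_ne_zero_iff (f := σ)).mpr hx0
  have h5 : 0 < P.valuation y := by
    rw [zero_lt_iff, Valuation.ne_zero_iff]; exact hy0
  rw [map_inv₀, inv_le_one₀ h5] at h4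
  exact le_antisymm h3 h4

variable (O : ValuationSubring L) (hO : ∀ a : L, a ∈ O ↔ algebraMap L Ω a ∈ P)
  (R : Type*) [CommRing R] [IsDomain R] [Algebra ↥O R] [Module.Finite ↥O R]
  (hinj : Function.Injective (algebraMap ↥O R))

include hσ hO hinj in
/-- **henselianity, abstract form** -/
theorem dlxh_hens_abs : IsLocalRing R := by
  classical
  letI algOΩ : Algebra ↥O Ω := ((algebraMap L Ω).comp O.subtype).toAlgebra
  haveI tower : IsScalarTower ↥O L Ω := IsScalarTower.of_algebraMap_eq (fun _ => rfl)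
  have hinjΩ : Function.Injective (algebraMap ↥O Ω) :=
    (algebraMap L Ω).injective.comp Subtype.val_injective
  haveI : Module.IsTorsionFree ↥O R := Module.isTorsionFree_iff_algebraMap_injective.mpr hinj
  haveI : Module.IsTorsionFree ↥O Ω := Module.isTorsionFree_iff_algebraMap_injective.mpr hinjΩ
  haveI : Algebra.IsIntegral ↥O R := Algebra.IsIntegral.of_finite ↥O R
  haveI : Algebra.IsAlgebraic ↥O R := Algebra.IsIntegral.isAlgebraic
  let φ : R →ₐ[↥O] Ω := IsAlgClosed.lift
  -- `φ` is injective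
  have hφinj : Function.Injective φ := by
    rw [injective_iff_map_eq_zero]
    intro x hx
    have hker : (RingHom.ker (φ : R →+* Ω)).comap (algebraMap ↥O R) = ⊥ := by
      rw [eq_bot_iff]
      intro a ha
      rw [Ideal.mem_comap, RingHom.mem_ker] at ha
      have h1 : algebraMap ↥O Ω a = 0 := by
        rw [← ha]; exact (φ.commutes a).symm
      rw [Ideal.mem_bot]
      exact hinjΩ (by rw [h1, map_zero])
    have := Ideal.eq_bot_of_comap_eq_bot hker
    have hx' : x ∈ RingHom.ker (φ : R →+* Ω) := hx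
    rw [this, Ideal.mem_bot] at hx'
    exact hx'
  -- (C) the image lies in `P`
  have hC : ∀ x : R, φ x ∈ P := by
    intro x
    obtain ⟨g, hg, hgx⟩ := Algebra.IsIntegral.isIntegral (R := ↥O) x
    let ι : ↥O →+* ↥P := ((algebraMap L Ω).comp O.subtype).codRestrict P.toSubring
      (fun a => (hO _).mp a.2)
    have h1 : IsIntegral ↥P (φ x) := by
      refine ⟨g.map ι, hg.map ι, ?_⟩
      rw [eval₂_map]
      have h2 : eval₂ (algebraMap ↥O Ω) (φ x) g = 0 := by
        have := congrArg φ hgx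
        rw [map_zero, ← aeval_def, ← aeval_algHom_apply, aeval_def] at this
        exact this
      exact h2
    obtain ⟨y, hy⟩ := IsIntegrallyClosed.isIntegral_iff.mp h1
    rw [← hy]
    exact y.2
  -- (D) the unit criterion
  have hD : ∀ x : R, x ≠ 0 → (φ x)⁻¹ ∈ P → IsUnit x := by
    intro x hx0 hxi
    have hxint : IsIntegral ↥O x := Algebra.IsIntegral.isIntegral x
    set g : Polynomial ↥O := minpoly ↥O x with hg
    have hgm : g.Monic := minpoly.monic hxint
    have hirr : Irreducible (g.map (algebraMap ↥O L)) :=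
      hgm.irreducible_iff_irreducible_map_fraction_map.mp (minpoly.irreducible hxint)
    have hφx0 : φ x ≠ 0 := fun h => hx0 (hφinj (by rw [h, map_zero]))
    have hroot : aeval (φ x) (g.map (algebraMap ↥O L)) = 0 := by
      rw [aeval_map_algebraMap, aeval_algHom_apply, hg, minpoly.aeval, map_zero]
    have hmin : minpoly L (φ x) = g.map (algebraMap ↥O L) :=
      (minpoly.eq_of_irreducible_of_monic hirr hroot (hgm.map _)).symm
    set gΩ : Polynomial Ω := (g.map (algebraMap ↥O L)).map (algebraMap L Ω) with hgΩ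
    have hsplit : gΩ.Splits := IsAlgClosed.splits gΩ
    have hgΩm : gΩ.Monic := (hgm.map _).map _
    have hroots : ∀ y ∈ gΩ.roots, P.valuation y = 1 := by
      intro y hy
      have hy0 : aeval y (g.map (algebraMap ↥O L)) = 0 := by
        have := (mem_roots hgΩm.ne_zero).mp hy
        rw [IsRoot.def, hgΩ, eval_map_algebraMap] at this
        exact this
      have hminy : minpoly L y = g.map (algebraMap ↥O L) :=
        (minpoly.eq_of_irreducible_of_monic hirr hy0 (hgm.map _)).symm
      exact dlxh_conj_unit P hσ (hmin.trans hminy.symm) hφx0 (hC x) hxi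
    have hc0 : P.valuation (gΩ.coeff 0) = 1 := by
      rw [hsplit.coeff_zero_eq_prod_roots_of_monic hgΩm, map_mul, map_pow, Valuation.map_neg,
        map_one, one_pow, one_mul, map_multiset_prod]
      refine Multiset.prod_eq_one ?_
      intro v hv
      obtain ⟨y, hy, rfl⟩ := Multiset.mem_map.mp hv
      exact hroots y hy
    set a₀ : ↥O := g.coeff 0 with ha₀
    have hc0' : gΩ.coeff 0 = algebraMap L Ω (a₀ : L) := by
      rw [hgΩ, coeff_map, coeff_map]
      rfl
    rw [hc0'] at hc0
    have ha₀0 : (a₀ : L) ≠ 0 := by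
      intro h0
      rw [h0, map_zero, map_zero] at hc0
      exact zero_ne_one hc0
    have ha₀i : (a₀ : L)⁻¹ ∈ O := by
      rw [hO, map_inv₀, ← P.valuation_le_one_iff, map_inv₀, hc0, inv_one]
    have ha₀u : IsUnit a₀ :=
      isUnit_iff_exists_inv.mpr ⟨⟨(a₀ : L)⁻¹, ha₀i⟩, Subtype.ext (mul_inv_cancel₀ ha₀0)⟩
    have hdec : aeval x (divX g) * x + algebraMap ↥O R a₀ = 0 := by
      have h1 : aeval x g = 0 := minpoly.aeval ↥O x
      conv_lhs at h1 => rw [← divX_mul_X_add g]
      rw [map_add, map_mul, aeval_X, aeval_C] at h1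
      exact h1
    have hmul : x * (-aeval x (divX g)) = algebraMap ↥O R a₀ := by
      linear_combination (-1 : R) * hdec
    exact isUnit_of_mul_isUnit_left (hmul ▸ ha₀u.map (algebraMap ↥O R))
  -- the non-units are the preimage of the maximal ideal of `P`
  have hN : ∀ x : R, x ∈ nonunits R ↔ P.valuation (φ x) < 1 := by
    intro x
    constructor
    · intro hx
      by_contra hlt
      have hle : P.valuation (φ x) ≤ 1 := (P.valuation_le_one_iff _).mpr (hC x)
      have heq : P.valuation (φ x) = 1 := le_antisymm hle (not_lt.mp hlt)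
      have hφx0 : φ x ≠ 0 := by
        intro h0; rw [h0, map_zero] at heq; exact zero_ne_one heq
      have hx0 : x ≠ 0 := by rintro rfl; exact hφx0 (map_zero _)
      have hxi : (φ x)⁻¹ ∈ P := by
        rw [← P.valuation_le_one_iff, map_inv₀, heq, inv_one]
      exact hx (hD x hx0 hxi)
    · intro hlt hu
      obtain ⟨y, hy⟩ := isUnit_iff_exists_inv.mp hu
      have h1 : P.valuation (φ x) * P.valuation (φ y) = 1 := by
        rw [← map_mul, ← map_mul, hy, map_one, map_one]
      have h2 : P.valuation (φ y) ≤ 1 := (P.valuation_le_one_iff _).mpr (hC y)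
      have h3 : P.valuation (φ x) * P.valuation (φ y) < 1 :=
        lt_of_le_of_lt (mul_le_mul_right h2 _) (by rwa [mul_one])
      exact h3.ne h1
  refine IsLocalRing.of_nonunits_add ?_
  intro a b ha hb
  rw [hN] at ha hb ⊢
  rw [map_add]
  exact lt_of_le_of_lt (Valuation.map_add _ _ _) (max_lt ha hb)

end Abs

section Inst

open Fermat.Agent.T1 Fermat.Agent.TW Fermat.Agent.S05Lib

local notation "Qb" => AlgebraicClosure ℚ
local notation "GQ" => (AlgebraicClosure ℚ ≃ₐ[ℚ] AlgebraicClosure ℚ)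

variable (𝔓 : FFPlace) (H : Subgroup 𝔓.I)

/-- `Aut(ℚ̄ / L_H)` preserves the place `𝔓` (`H ≤ I_𝔓 ≤ D_𝔓`) -/
theorem dlxh_aut_mem (σ : Qb ≃ₐ[↥(tbFix 𝔓 H)] Qb) (x : Qb) (hx : x ∈ 𝔓.P) : σ x ∈ 𝔓.P := by
  have h1 : σ.restrictScalars ℚ ∈ (tbFix 𝔓 H).fixingSubgroup := by
    rw [IntermediateField.mem_fixingSubgroup_iff]
    intro y hy
    exact σ.commutes ⟨y, hy⟩
  have h2 : σ.restrictScalars ℚ ∈ 𝔓.D :=
    𝔓.I_le_D (𝔓.lf_fixingSubgroup_le (K0_le_tbFix 𝔓 H) h1)
  exact qv_decomp_mem 𝔓.P h2 hx

/-- **(HENS), universe-generic**: every domain finite over `tbFixO 𝔓 H` (with injective structure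
map) is local -/
theorem dlxh_hens (R : Type*) [CommRing R] [IsDomain R] [Algebra ↥(tbFixO 𝔓 H) R]
    [Module.Finite ↥(tbFixO 𝔓 H) R]
    (hinj : Function.Injective (algebraMap ↥(tbFixO 𝔓 H) R)) : IsLocalRing R := by
  haveI hQ : Algebra.IsAlgebraic ℚ Qb := AlgebraicClosure.isAlgebraic ℚ
  haveI : Algebra.IsAlgebraic ↥(tbFix 𝔓 H) Qb :=
    Algebra.IsAlgebraic.tower_top (K := ℚ) (L := ↥(tbFix 𝔓 H)) (A := Qb)
  exact dlxh_hens_abs (L := ↥(tbFix 𝔓 H)) (Ω := Qb) 𝔓.P (dlxh_aut_mem 𝔓 H) (tbFixO 𝔓 H)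
    (fun a => Iff.rfl) R hinj

/-- `DltHens` for every `F : Type` -/
theorem dlxh_dltHens (F : Type) : DltHens (tbFixO 𝔓 H) F :=
  fun R _ _ _ _ hinj => dlxh_hens 𝔓 H R hinj

/-- **the literal target**: `DltHens` for the level-`N` function field over `L_H` -/
theorem dlx_hens [H.FiniteIndex] (N : ℕ) [NeZero N] :
    DltHens (tbFixO 𝔓 H) ↥(tbLevF 𝔓 N H) :=
  dlxh_dltHens 𝔓 H _

end Inst

end Fermat.Agent.Delta
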