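/-
DELTA / NODE-X (helper2), part 7a: **over a henselian discrete valuation ring every algebraic element
or its inverse is integral**.

`O` a discrete valuation ring with fraction field `L` of characteristic zero such that every finite
`O`-domain (with injective structure map) is local.  Then for every algebraic element `γ` of a field
extension `Ω / L`: `γ` or `γ⁻¹` is integral over `O` (`dlx_hens_val`): the integral closure of `O` in
`L(γ)` is a local Dedekind domain, hence a valuation ring.
-/
import Mathlib

set_option autoImplicit false
set_option linter.unusedSectionVars false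
set_option linter.unusedVariables false
set_option linter.style.haveILetI false

namespace Fermat.Agent.Delta

open IntermediateField

universe u

theorem dlx_hens_val {O L : Type*} [CommRing O] [IsDomain O] [IsDiscreteValuationRing O] [Field L]
    [Algebra O L] [IsFractionRing O L] [CharZero L] {Ω : Type u} [Field Ω] [Algebra L Ω]
    [Algebra O Ω] [IsScalarTower O L Ω]
    (hens : ∀ (R : Type u) [CommRing R] [IsDomain R] [Algebra O R] [Module.Finite O R],
      Function.Injective (algebraMap O R) → IsLocalRing R)
    (γ : Ω) (hγ : IsAlgebraic L γ) : IsIntegral O γ ∨ IsIntegral O γ⁻¹ := by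
  classical
  let L' : IntermediateField L Ω := L⟮γ⟯
  haveI : FiniteDimensional L L' := IntermediateField.adjoin.finiteDimensional hγ.isIntegral
  haveI : Algebra.IsSeparable L L' := Algebra.IsAlgebraic.isSeparable_of_perfectField
  let C := integralClosure O L'
  haveI : IsFractionRing C L' := integralClosure.isFractionRing_of_finite_extension L L'
  haveI : IsDedekindDomain C := integralClosure.isDedekindDomain O L L'
  haveI : Module.Finite O C := IsIntegralClosure.finite O L L' C
  have hinjL : Function.Injective (algebraMap O L') := by
    rw [IsScalarTower.algebraMap_eq O L L']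
    exact (algebraMap L L').injective.comp (IsFractionRing.injective O L)
  have hinj : Function.Injective (algebraMap O C) := by
    intro a b hab
    apply hinjL
    have := congrArg (algebraMap C L') hab
    rwa [← IsScalarTower.algebraMap_apply, ← IsScalarTower.algebraMap_apply] at this
  haveI : IsLocalRing C := hens C hinj
  haveI : ValuationRing C :=
    ((tfae_of_isNoetherianRing_of_isLocalRing_of_isDomain C).out 2 1).mp
      (inferInstance : IsDedekindDomain C)
  have hmem : γ ∈ L' := mem_adjoin_simple_self L γ
  haveI : IsScalarTower O L' Ω := IsScalarTower.of_algebraMap_eq (fun a => rfl)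
  have hinjΩ : Function.Injective (algebraMap L' Ω) := (algebraMap L' Ω).injective
  rcases ValuationRing.isInteger_or_isInteger C (⟨γ, hmem⟩ : L') with ⟨a, ha⟩ | ⟨a, ha⟩
  · left
    have h1 : IsIntegral O (a : L') := a.2
    have h2 : (a : L') = ⟨γ, hmem⟩ := ha
    rw [h2] at h1
    have h3 := h1.map (IsScalarTower.toAlgHom O L' Ω)
    exact h3
  · right
    have h1 : IsIntegral O (a : L') := a.2
    have h2 : (a : L') = (⟨γ, hmem⟩ : L')⁻¹ := ha
    rw [h2] at h1
    have h3 := h1.map (IsScalarTower.toAlgHom O L' Ω)
    have h4 : (IsScalarTower.toAlgHom O L' Ω) (⟨γ, hmem⟩ : L')⁻¹ = γ⁻¹ := by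
      rw [map_inv₀]
      rfl
    rwa [h4] at h3

end Fermat.Agent.Delta
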