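/-
DELTA / NODE-X (helper2), part 7b: **(FIN-X)**: the closed points of the generic fibre
specialising to a closed point of a chart are finite over the base.

`C : DlxChart g₁ g₂ σ` over a henselian discrete valuation ring `B.A` (`DltHens B.A F`),
characteristic zero, with chart ring finite over `A[x]` (`C.FinGen`, = `T2Fin`).  For a horizontal
valuation ring `V` through `𝔫 = C.n₁ P hP`: the image `γ` of the chart coordinate in the residue
field of `V` is integral over `A` (`dlx_hens_val` + the reversed polynomial), hence `P.B ⧸ 𝔭_V` is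
spanned over `A` by the finitely many `x ^ i · s` (`C.finAt`).
-/
import Fermat.Agent.Lib.Delta.NodeX.Cross
import Fermat.Agent.Lib.Delta.NodeX.HensVal

set_option autoImplicit false
set_option linter.unusedSectionVars false
set_option linter.unusedVariables false
set_option linter.style.haveILetI false

namespace Fermat.Agent.Delta

open AlgebraicCurve IsDedekindDomain IntermediateField Fermat.Agent.Curve
  Fermat.Agent.Curve.PlaceAux Fermat.Agent.T1 Fermat.Agent.T2 Fermat.Agent.T4 Polynomial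

section ExistsPoly

variable {K F : Type*} [Field K] [Field F] [Algebra K F] {x : F}
  (hx : IsFunctionFieldGen K F x) [Algebra.IsSeparable K⟮x⟯ F]

include hx in
/-- a non-zero polynomial in the chart coordinate vanishing at a horizontal place -/
theorem dlx_exists_poly (V : ValuationSubring F) (hV : V ∈ t4vpHor K x) :
    ∃ P : K[X], P ≠ 0 ∧ V.valuation (Polynomial.aeval x P) < 1 := by
  haveI : Fact (IsFunctionFieldGen K F x) := ⟨hx⟩
  haveI : IsDedekindDomain (CurveP.Bx K x) := CurveP.Bx.isDedekindDomain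
  haveI : IsFractionRing (CurveP.Bx K x) F := CurveP.Bx.isFractionRing
  have hV' := hV
  rw [t4vp_hor_eq_range hx] at hV'
  obtain ⟨w, rfl⟩ := hV'
  obtain ⟨b, hbw, hb0⟩ := Submodule.exists_mem_ne_zero_of_ne_bot w.ne_bot
  have hcomap : w.asIdeal.comap (algebraMap (CurveP.Ax K x) (CurveP.Bx K x)) ≠ ⊥ :=
    Ideal.comap_ne_bot_of_integral_mem hb0 hbw (integralClosure.isIntegral b)
  obtain ⟨a, haw, ha0⟩ := Submodule.exists_mem_ne_zero_of_ne_bot hcomap
  rw [Ideal.mem_comap] at haw
  have haF : ((a : CurveP.Ax K x) : F) ≠ 0 := fun h => ha0 (Subtype.ext h)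
  have hval : w.valuation F ((a : CurveP.Ax K x) : F) < 1 := by
    have h1 : ((a : CurveP.Ax K x) : F) =
        algebraMap (CurveP.Bx K x) F (algebraMap (CurveP.Ax K x) (CurveP.Bx K x) a) := rfl
    rw [h1, HeightOneSpectrum.valuation_of_algebraMap]
    exact (HeightOneSpectrum.intValuation_lt_one_iff_mem _ _).mpr haw
  obtain ⟨P, hPa⟩ : ∃ P : Polynomial K, Polynomial.aeval x P = ((a : CurveP.Ax K x) : F) := by
    have h1 : ((a : CurveP.Ax K x) : F) ∈ Algebra.adjoin K {x} := a.2
    rw [Algebra.adjoin_singleton_eq_range_aeval] at h1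
    exact h1
  refine ⟨P, ?_, ?_⟩
  · rintro rfl
    rw [map_zero] at hPa
    exact haF hPa.symm
  · rw [hPa, t4vp_valuation_lt_one_iff _ haF, Valuation.mem_valuationSubring_iff, map_inv₀, not_le]
    exact (one_lt_inv₀ (zero_lt_iff.mpr ((Valuation.ne_zero_iff _).mpr haF))).mpr hval

end ExistsPoly

variable {L k : Type*} [Field L] [Field k] {B : DlBase L k} {F κ₁ κ₂ : Type*} [Field F]
  [Algebra L F] [Field κ₁] [Algebra k κ₁] [Field κ₂] [Algebra k κ₂] [IsAlgClosed k]

namespace DlxChart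

variable {g₁ : DlPlace B F κ₁} {g₂ : DlPlace B F κ₂} {σ : Type*} [Fintype σ]
  (C : DlxChart g₁ g₂ σ)

/-- the chart coordinate as an element of the chart ring -/
def xB : ↥C.P.B := ⟨C.x, C.x_mem_B⟩

/-- evaluation of a polynomial with coefficients in `A` at the chart coordinate -/
noncomputable def evalA (p : Polynomial ↥B.A) : ↥C.P.B := Polynomial.eval₂ C.ofA C.xB p

/-- finiteness of the chart ring over `A[x]` (`= T2Fin`) -/
def FinGen : Prop := ∃ S₀ : Finset F, (∀ s ∈ S₀, s ∈ C.P.B) ∧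
  ∀ f ∈ C.P.B, ∃ c : F → Polynomial ↥B.A, f = ∑ s ∈ S₀, ((C.evalA (c s) : ↥C.P.B) : F) * s

theorem coe_evalA_eq_sum {p : Polynomial ↥B.A} {n : ℕ} (hn : p.natDegree < n) :
    ((C.evalA p : ↥C.P.B) : F) =
      ∑ i ∈ Finset.range n, algebraMap L F ((p.coeff i : ↥B.A) : L) * C.x ^ i := by
  unfold evalA
  rw [Polynomial.eval₂_eq_sum_range' C.ofA hn, AddSubmonoidClass.coe_finsetSum]
  rfl

/-- **(FIN-X) from a monic equation of the chart coordinate modulo `𝔭_V`** -/
theorem fin_of_monic (hfg : C.FinGen) (V : ValuationSubring F) (hV : V ∈ C.P.vals)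
    (M : Polynomial ↥B.A) (hM : M.Monic) (hMV : V.valuation ((C.evalA M : ↥C.P.B) : F) < 1) :
    ∃ S : Finset F, (∀ s ∈ S, s ∈ C.P.B) ∧
      ∀ f ∈ C.P.B, ∃ y ∈ dltComb B.A S, V.valuation (f - y) < 1 := by
  classical
  obtain ⟨S₀, hS₀, hgen⟩ := hfg
  have hM1 : M ≠ 1 := by
    rintro rfl
    have : ((C.evalA (1 : Polynomial ↥B.A) : ↥C.P.B) : F) = 1 := by
      unfold evalA
      rw [Polynomial.eval₂_one]
      rfl
    rw [this, map_one] at hMV
    exact lt_irrefl _ hMV
  set n := M.natDegree with hn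
  refine ⟨(Finset.range n ×ˢ S₀).image (fun is => C.x ^ is.1 * is.2), ?_, ?_⟩
  · intro s hs
    obtain ⟨⟨i, s'⟩, his, rfl⟩ := Finset.mem_image.mp hs
    exact Subring.mul_mem _ (Subring.pow_mem _ C.x_mem_B _) (hS₀ s' (Finset.mem_product.mp his).2)
  · intro f hf
    obtain ⟨c, hc⟩ := hgen f hf
    refine ⟨∑ s ∈ S₀, ((C.evalA (c s %ₘ M) : ↥C.P.B) : F) * s, ?_, ?_⟩
    · refine dltComb_sum _ _ _ _ fun s hs => ?_
      rw [C.coe_evalA_eq_sum (Polynomial.natDegree_modByMonic_lt (c s) hM hM1), Finset.sum_mul]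
      refine dltComb_sum _ _ _ _ fun i hi => ?_
      rw [mul_assoc]
      refine dltComb_smul _ _ (SetLike.coe_mem _) (dltComb_mem _ _ ?_)
      exact Finset.mem_image.mpr ⟨(i, s), Finset.mem_product.mpr ⟨hi, hs⟩, rfl⟩
    · have h1 : f - ∑ s ∈ S₀, ((C.evalA (c s %ₘ M) : ↥C.P.B) : F) * s =
          ((C.evalA M : ↥C.P.B) : F) *
            ∑ s ∈ S₀, ((C.evalA (c s /ₘ M) : ↥C.P.B) : F) * s := by
        rw [hc, ← Finset.sum_sub_distrib, Finset.mul_sum]
        refine Finset.sum_congr rfl fun s _ => ?_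
        have h2 : C.evalA (c s) = C.evalA (c s %ₘ M) + C.evalA M * C.evalA (c s /ₘ M) := by
          unfold evalA
          rw [← Polynomial.eval₂_mul, ← Polynomial.eval₂_add, Polynomial.modByMonic_add_div]
        rw [h2]
        push_cast
        ring
      rw [h1, map_mul]
      have h3 : V.valuation (∑ s ∈ S₀, ((C.evalA (c s /ₘ M) : ↥C.P.B) : F) * s) ≤ 1 := by
        rw [V.valuation_le_one_iff]
        refine C.P.B_le hV (Subring.sum_mem _ fun s hs => ?_)
        exact Subring.mul_mem _ (SetLike.coe_mem _) (hS₀ s hs)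
      calc V.valuation ((C.evalA M : ↥C.P.B) : F) * V.valuation _
          ≤ V.valuation ((C.evalA M : ↥C.P.B) : F) * 1 := mul_le_mul_right h3 _
        _ = V.valuation ((C.evalA M : ↥C.P.B) : F) := mul_one _
        _ < 1 := hMV

section FinAt

variable [IsDiscreteValuationRing ↥B.A] [CharZero L]

/-- **Lemma A**: a monic equation over `A` of the chart coordinate modulo a horizontal place through
a closed point of the chart (henselian base) -/
theorem exists_monic (hgen : IsFunctionFieldGen L F C.x) (hens : DltHens B.A F)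
    (P : Place k κ₁) (hP : 0 ≤ P.ord C.G.x.1) (V : ValuationSubring F)
    (hthr : V ∈ C.P.through (C.n₁ P hP)) (hhor : V ∈ t4vpHor L C.x) :
    ∃ M : Polynomial ↥B.A, M.Monic ∧ V.valuation ((C.evalA M : ↥C.P.B) : F) < 1 := by
  classical
  haveI : FiniteDimensional L⟮C.x⟯ F := hgen.finite
  haveI : Algebra.IsSeparable L⟮C.x⟯ F := Algebra.IsAlgebraic.isSeparable_of_perfectField
  have hLV : ∀ a : L, algebraMap L F a ∈ V := fun a => t4vp_algebraMap_mem_hor hhor a
  have hxV : C.x ∈ V := C.P.B_le hthr.1 C.x_mem_B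
  let ιV : L →+* ↥V := (algebraMap L F).codRestrict V.toSubring hLV
  let φ₀ : L →+* IsLocalRing.ResidueField ↥V := (IsLocalRing.residue ↥V).comp ιV
  letI : Algebra L (IsLocalRing.ResidueField ↥V) := φ₀.toAlgebra
  letI : Algebra ↥B.A (IsLocalRing.ResidueField ↥V) := (φ₀.comp B.A.subtype).toAlgebra
  haveI : IsScalarTower ↥B.A L (IsLocalRing.ResidueField ↥V) :=
    IsScalarTower.of_algebraMap_eq (fun _ => rfl)
  let incl : ↥C.P.B →+* ↥V :=
    (C.P.B.subtype).codRestrict V.toSubring (fun b => C.P.B_le hthr.1 b.2)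
  let φ : ↥C.P.B →+* IsLocalRing.ResidueField ↥V := (IsLocalRing.residue ↥V).comp incl
  have hφ0 : ∀ b : ↥C.P.B, φ b = 0 ↔ V.valuation (b : F) < 1 := by
    intro b
    show IsLocalRing.residue ↥V (incl b) = 0 ↔ _
    rw [IsLocalRing.residue_eq_zero_iff, ValuationSubring.valuation_lt_one_iff]
    rfl
  have hφA : φ.comp C.ofA = algebraMap ↥B.A (IsLocalRing.ResidueField ↥V) := RingHom.ext fun _ => rfl
  -- the chart coordinate is algebraic modulo `𝔭_V`
  obtain ⟨P₀, hP₀, hP₀V⟩ := dlx_exists_poly hgen V hhor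
  have hxalg : IsAlgebraic L (φ C.xB) := by
    refine ⟨P₀, hP₀, ?_⟩
    let xV : ↥V := ⟨C.x, hxV⟩
    have h1 : ((P₀.eval₂ ιV xV : ↥V) : F) = Polynomial.aeval C.x P₀ := by
      have := Polynomial.hom_eval₂ P₀ ιV V.subtype xV
      rw [Polynomial.aeval_def]
      exact this
    have h2 : IsLocalRing.residue ↥V (P₀.eval₂ ιV xV) = 0 := by
      rw [IsLocalRing.residue_eq_zero_iff, ValuationSubring.valuation_lt_one_iff, h1]
      exact hP₀V
    rw [Polynomial.hom_eval₂] at h2
    rw [Polynomial.aeval_def]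
    exact h2
  -- a lift of the value of the coordinate at the point
  obtain ⟨a₀, ha₀⟩ := B.resA_surj (C.ev₁ P hP C.xB)
  have hev0 : C.ev₁ P hP (C.xB - C.ofA a₀) = 0 := by
    rw [map_sub, C.ev₁_ofA, ha₀, sub_self]
  set γ := φ (C.xB - C.ofA a₀) with hγ
  have hγalg : IsAlgebraic L γ := by
    rw [hγ, map_sub]
    refine hxalg.sub ?_
    have : φ (C.ofA a₀) = algebraMap L (IsLocalRing.ResidueField ↥V) (a₀ : L) := rfl
    rw [this]
    exact isAlgebraic_algebraMap _
  have hevalφ : ∀ N : Polynomial ↥B.A, φ (Polynomial.eval₂ C.ofA (C.xB - C.ofA a₀) N) =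
      Polynomial.eval₂ (algebraMap ↥B.A (IsLocalRing.ResidueField ↥V)) γ N := by
    intro N
    rw [Polynomial.hom_eval₂, hφA]
  -- `γ` is integral over `A`
  have hint : IsIntegral ↥B.A γ := by
    rcases dlx_hens_val (O := ↥B.A) (L := L) (fun R _ _ _ _ h => hens R h) γ hγalg with h | h
    · exact h
    · by_cases hγ0 : γ = 0
      · rw [hγ0]; exact isIntegral_zero
      · exfalso
        obtain ⟨m, hm, hm0⟩ := h
        letI : Invertible γ⁻¹ := invertibleOfNonzero (inv_ne_zero hγ0)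
        have h1 := (Polynomial.eval₂_reverse_eq_zero_iff
          (algebraMap ↥B.A (IsLocalRing.ResidueField ↥V)) γ⁻¹ m).mpr hm0
        rw [invOf_eq_inv, inv_inv, ← hevalφ, hφ0] at h1
        have h2 := hthr.2 _ h1
        rw [C.mem_n₁, Polynomial.hom_eval₂, hev0, Polynomial.eval₂_at_zero,
          Polynomial.coeff_zero_reverse, hm.leadingCoeff, map_one] at h2
        exact one_ne_zero h2
  obtain ⟨M₀, hM₀, hM₀0⟩ := hint
  refine ⟨M₀.comp (Polynomial.X - Polynomial.C a₀), ?_, ?_⟩
  · refine hM₀.comp (Polynomial.monic_X_sub_C a₀) ?_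
    rw [Polynomial.natDegree_X_sub_C]
    exact one_ne_zero
  · rw [← hφ0]
    have h1 : C.evalA (M₀.comp (Polynomial.X - Polynomial.C a₀)) =
        Polynomial.eval₂ C.ofA (C.xB - C.ofA a₀) M₀ := by
      unfold evalA
      rw [Polynomial.eval₂_comp, Polynomial.eval₂_sub, Polynomial.eval₂_X, Polynomial.eval₂_C]
    rw [h1, hevalφ]
    exact hM₀0

/-- **(FIN-X)** at every closed point of the first component of the chart -/
theorem finAt (hgen : IsFunctionFieldGen L F C.x) (hfg : C.FinGen) (hens : DltHens B.A F)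
    (P : Place k κ₁) (hP : 0 ≤ P.ord C.G.x.1) : C.FinAt (C.n₁ P hP) := by
  intro V hthr hhor
  obtain ⟨M, hM, hMV⟩ := C.exists_monic hgen hens P hP V hthr hhor
  exact C.fin_of_monic hfg V hthr.1 M hM hMV

end FinAt

end DlxChart

end Fermat.Agent.Delta
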