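/-
DELTA / NODE-X (helper2), part 8: **the chart presentation and the `DlxChart` at a (possibly
ramified) DVR level**.

Generic setting of `Toric/InstGen.lean` (helper9): `(L, O, π, k)`, `ϖ` ANY uniformiser of `O`,
`F = TaF L (N' * q)`, `W : T2iAL L N' q`, the two Gauss places `dliInf`, `dliZero`.
* `dlx_ver_dvr`, `dlx_ver_unif`, `dlx_crt` : the two vertical valuation rings `t4vwVer1 = {V_∞, V_0}`
  are discrete with uniformiser `ϖ` and satisfy the Chinese remainder theorem (the unramified case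
  `ϖ = q` is `T4/Inst/PresLow.lean`);
* `dlxPres … Hy : T4Pres F` for a chart coordinate `y` with `Hy : T4vwHyp1 O π W y`, with
  `dlxPres_vals`, `mem_dlxPres_B`;
* `dlx_hyp1` : `T4vwHyp1` from `y ∈ 𝒪`, a generator, with transcendental reductions;
* **`dlxChartGen`** : the `DlxChart (dliInf …) (dliZero …) σ` of a chart coordinate `y` and a gluing
  datum `G` whose `S` is the reduction of the unit ball of `IntCl(L[y])`.
-/
import Fermat.Agent.Lib.Delta.Toric.InstGen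
import Fermat.Agent.Lib.T4.Inst.PresLow
import Fermat.Agent.Lib.Delta.NodeX.Fin
import Fermat.Agent.Lib.T4.Inst.PresNoeth

set_option autoImplicit false
set_option linter.unusedSectionVars false
set_option linter.unusedVariables false
set_option linter.style.haveILetI false
set_option synthInstance.maxHeartbeats 400000
set_option maxHeartbeats 1000000

open HahnSeries ModularCurve Fermat.Agent.T1 Fermat.Agent.T2 Fermat.Agent.T4 IntermediateField
  Fermat.Agent.Curve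

noncomputable section

namespace Fermat.Agent.Delta

variable {L : Type} [Field L] [Algebra ℚ L] (O : ValuationSubring L) {k : Type*} [Field k]
  (π : ↥O →+* k) [IsDiscreteValuationRing ↥O] (hπ : Function.Surjective π) [IsAlgClosed k]
  {N' q : ℕ} [NeZero N'] [hq : Fact q.Prime] [CharP k q] (hN' : (N' : k) ≠ 0)
  (W : T2iAL L N' q) (Fr : T2iFrob k N' q) {ϖ : ↥O} (hϖ : Irreducible ϖ)

attribute [local instance] t2iAlgebra t2i_isScalarTower

include hN' Fr in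
/-- the two vertical valuation rings are discrete -/
theorem dlx_ver_dvr : ∀ V ∈ t4vwVer1 O π hπ W, IsDiscreteValuationRing ↥V := by
  intro V hV
  rcases (mem_t4vwVer1 O π hπ W V).mp hV with rfl | rfl
  · exact dli_dvr_inf O π hπ hN' W Fr
  · exact dli_dvr_zero O π hπ hN' W Fr

include hN' Fr hϖ in
/-- `ϖ` is a uniformiser of the two vertical valuation rings -/
theorem dlx_ver_unif : ∀ V ∈ t4vwVer1 O π hπ W,
    V.valuation (algebraMap L ↥(TaF L (N' * q)) ((ϖ : ↥O) : L)) < 1 ∧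
      ∀ x : ↥(TaF L (N' * q)), V.valuation x < 1 →
        V.valuation x ≤ V.valuation (algebraMap L ↥(TaF L (N' * q)) ((ϖ : ↥O) : L)) := by
  intro V hV
  rcases (mem_t4vwVer1 O π hπ W V).mp hV with rfl | rfl
  · exact (dliInf O π hπ hN' W Fr hϖ).unif _ rfl
  · exact (dliZero O π hπ hN' W Fr hϖ).unif _ rfl

include hN' Fr in
/-- the two vertical valuation rings are different -/
theorem dlx_ver_ne : taOv O π hπ (N' * q) ≠ dliO0 O π hπ W := by
  intro heq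
  have hX1mem : t4vrX1 L N' q ∈ taOv O π hπ (N' * q) := t4vrX1_mem O π hπ
  have hX1ne : t4vrX1 L N' q ≠ 0 := t4vrX1_ne_zero O π hπ W
  have hX1inv : (t4vrX1 L N' q)⁻¹ ∉ taOv O π hπ (N' * q) :=
    t4vr_inv_notMem_of_res_eq_zero O π hπ (N' * q) hX1ne hX1mem (t4vrX1_res O π hπ)
  have hwmem : W.w (t4vrX1 L N' q) ∈ taOv O π hπ (N' * q) := t4vrX1_w_mem O π hπ W
  have hwinv : (W.w (t4vrX1 L N' q))⁻¹ ∈ taOv O π hπ (N' * q) := by
    apply inv_mem_taOv_of_taResN_ne_zero O π hπ (N' * q) ⟨_, hwmem⟩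
    rw [t4vrX1_w_res]
    exact t4vw_res_ne (k := k) (q := q)
  apply hX1inv
  rw [heq, mem_dliO0, map_inv₀]
  exact hwinv

include hN' Fr hϖ in
/-- **the Chinese remainder theorem for the two vertical valuations**, any uniformiser -/
theorem dlx_crt : ∀ V ∈ t4vwVer1 O π hπ W, ∀ n : ℕ, ∃ e : ↥(TaF L (N' * q)),
    (∀ V' ∈ t4vwVer1 O π hπ W, e ∈ V') ∧ V.valuation e = 1 ∧
    ∀ V' ∈ t4vwVer1 O π hπ W, V' ≠ V →
      V'.valuation e ≤ V'.valuation (algebraMap L ↥(TaF L (N' * q)) ((ϖ : ↥O) : L)) ^ n := by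
  have hX1mem : t4vrX1 L N' q ∈ taOv O π hπ (N' * q) := t4vrX1_mem O π hπ
  have hX1ne : t4vrX1 L N' q ≠ 0 := t4vrX1_ne_zero O π hπ W
  have hX1inv : (t4vrX1 L N' q)⁻¹ ∉ taOv O π hπ (N' * q) :=
    t4vr_inv_notMem_of_res_eq_zero O π hπ (N' * q) hX1ne hX1mem (t4vrX1_res O π hπ)
  have hwmem : W.w (t4vrX1 L N' q) ∈ taOv O π hπ (N' * q) := t4vrX1_w_mem O π hπ W
  have hwne : W.w (t4vrX1 L N' q) ≠ 0 := (map_ne_zero _).mpr hX1ne
  have hwinv : (W.w (t4vrX1 L N' q))⁻¹ ∈ taOv O π hπ (N' * q) := by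
    apply inv_mem_taOv_of_taResN_ne_zero O π hπ (N' * q) ⟨_, hwmem⟩
    rw [t4vrX1_w_res]
    exact t4vw_res_ne (k := k) (q := q)
  have hu1 := dlx_ver_unif O π hπ hN' W Fr hϖ _
    ((mem_t4vwVer1 O π hπ W _).mpr (Or.inl rfl))
  have hu2 := dlx_ver_unif O π hπ hN' W Fr hϖ _
    ((mem_t4vwVer1 O π hπ W _).mpr (Or.inr rfl))
  -- the four valuations
  have v1 : (taOv O π hπ (N' * q)).valuation (t4vrX1 L N' q) ≤
      (taOv O π hπ (N' * q)).valuation (algebraMap L ↥(TaF L (N' * q)) ((ϖ : ↥O) : L)) :=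
    hu1.2 _ (t4vs_valuation_lt_one _ hX1mem hX1inv)
  have v2 : (taOv O π hπ (N' * q)).valuation (W.w (t4vrX1 L N' q)) = 1 :=
    t4vs_valuation_unit _ hwne hwmem hwinv
  have m3 : t4vrX1 L N' q ∈ (taOv O π hπ (N' * q)).comap
      (W.w : ↥(TaF L (N' * q)) →+* ↥(TaF L (N' * q))) :=
    (t4vw_mem_comap O π hπ (N' * q) W.w _).mpr hwmem
  have m3i : (t4vrX1 L N' q)⁻¹ ∈ (taOv O π hπ (N' * q)).comap
      (W.w : ↥(TaF L (N' * q)) →+* ↥(TaF L (N' * q))) := by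
    rw [t4vw_mem_comap, map_inv₀]
    exact hwinv
  have v3 : ((taOv O π hπ (N' * q)).comap
      (W.w : ↥(TaF L (N' * q)) →+* ↥(TaF L (N' * q)))).valuation (t4vrX1 L N' q) = 1 :=
    t4vs_valuation_unit _ hX1ne m3 m3i
  have m4 : W.w (t4vrX1 L N' q) ∈ (taOv O π hπ (N' * q)).comap
      (W.w : ↥(TaF L (N' * q)) →+* ↥(TaF L (N' * q))) := by
    rw [t4vw_mem_comap, W.w_w]
    exact hX1mem
  have m4i : (W.w (t4vrX1 L N' q))⁻¹ ∉ (taOv O π hπ (N' * q)).comap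
      (W.w : ↥(TaF L (N' * q)) →+* ↥(TaF L (N' * q))) := by
    rw [t4vw_mem_comap, map_inv₀, W.w_w]
    exact hX1inv
  have v4 : ((taOv O π hπ (N' * q)).comap
      (W.w : ↥(TaF L (N' * q)) →+* ↥(TaF L (N' * q)))).valuation (W.w (t4vrX1 L N' q)) ≤
      ((taOv O π hπ (N' * q)).comap
        (W.w : ↥(TaF L (N' * q)) →+* ↥(TaF L (N' * q)))).valuation
        (algebraMap L ↥(TaF L (N' * q)) ((ϖ : ↥O) : L)) :=
    hu2.2 _ (t4vs_valuation_lt_one _ m4 m4i)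
  intro V hV n
  rcases (mem_t4vwVer1 O π hπ W V).mp hV with rfl | rfl
  · refine ⟨W.w (t4vrX1 L N' q) ^ n, fun V' hV' => ?_, ?_, fun V' hV' hne => ?_⟩
    · rcases (mem_t4vwVer1 O π hπ W V').mp hV' with rfl | rfl
      · exact pow_mem hwmem n
      · exact pow_mem m4 n
    · rw [map_pow, v2, one_pow]
    · rcases (mem_t4vwVer1 O π hπ W V').mp hV' with rfl | rfl
      · exact absurd rfl hne
      · rw [map_pow]
        exact pow_le_pow_left₀ zero_le v4 n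
  · refine ⟨t4vrX1 L N' q ^ n, fun V' hV' => ?_, ?_, fun V' hV' hne => ?_⟩
    · rcases (mem_t4vwVer1 O π hπ W V').mp hV' with rfl | rfl
      · exact pow_mem hX1mem n
      · exact pow_mem m3 n
    · rw [map_pow, v3, one_pow]
    · rcases (mem_t4vwVer1 O π hπ W V').mp hV' with rfl | rfl
      · rw [map_pow]
        exact pow_le_pow_left₀ zero_le v1 n
      · exact absurd rfl hne

variable {O π hπ W}

/-- the presentation data of the chart `y` at the level `(L, O, ϖ)` -/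
def dlxData {y : ↥(TaF L (N' * q))} (Hy : T4vwHyp1 O π W y) : T4vpData ↥(TaF L (N' * q)) :=
  haveI := Hy.isSeparable
  t4vpChart Hy.gen O ((ϖ : ↥O) : L) (fun h0 => hϖ.ne_zero (Subtype.ext h0)) (t4vwVer1 O π hπ W)
    (t4vwVer1_finite O π hπ W) (dlx_ver_dvr O π hπ hN' W Fr)
    (fun V hV => (dlx_ver_unif O π hπ hN' W Fr hϖ V hV).1)
    (dlx_crt O π hπ hN' W Fr hϖ) (t4vw_tr1 O π hπ W y Hy)

/-- **the presentation of the chart ring `IntCl(L[y]) ∩ 𝒪`** at the level `(L, O, ϖ)` -/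
def dlxPres {y : ↥(TaF L (N' * q))} (Hy : T4vwHyp1 O π W y) : T4Pres ↥(TaF L (N' * q)) :=
  (dlxData (hπ := hπ) hN' Fr hϖ Hy).pres

variable {y : ↥(TaF L (N' * q))} (Hy : T4vwHyp1 O π W y)

theorem dlxPres_vals :
    (dlxPres (hπ := hπ) hN' Fr hϖ Hy).vals = t4vpHor L y ∪ t4vwVer1 O π hπ W := rfl

theorem mem_dlxPres_B (f : ↥(TaF L (N' * q))) :
    f ∈ (dlxPres (hπ := hπ) hN' Fr hϖ Hy).B ↔
      f ∈ t2Int (K := L) y ∧ f ∈ (t2iBase2 O π hπ hN' W Fr).Ov := by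
  haveI := Hy.isSeparable
  rw [mem_Ov1_iff_forall_t4vwVer1]
  exact mem_t4vpChart_B Hy.gen O ((ϖ : ↥O) : L) (fun h0 => hϖ.ne_zero (Subtype.ext h0))
    (t4vwVer1 O π hπ W) (t4vwVer1_finite O π hπ W) (dlx_ver_dvr O π hπ hN' W Fr)
    (fun V hV => (dlx_ver_unif O π hπ hN' W Fr hϖ V hV).1)
    (dlx_crt O π hπ hN' W Fr hϖ) (t4vw_tr1 O π hπ W y Hy) f

variable (O π hπ W)

include hπ in
/-- `T4vwHyp1` for a chart coordinate in `𝒪` whose two reductions are transcendental -/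
theorem dlx_hyp1 {y : ↥(TaF L (N' * q))}
    (hgen : IsFunctionFieldGen L ↥(TaF L (N' * q)) y)
    (hy : y ∈ (t2iBase2 O π hπ hN' W Fr).Ov)
    (ht1 : Transcendental k ((t2iBase2 O π hπ hN' W Fr).res ⟨y, hy⟩).1)
    (ht2 : Transcendental k ((t2iBase2 O π hπ hN' W Fr).res ⟨y, hy⟩).2) :
    T4vwHyp1 O π W y where
  gen := hgen
  g1 := hy.1
  t1 := by
    have h1 := (transcendental_algebraMap_iff (R := k)
      (algebraMap ↥(modularFunctionFieldFullC k N') (LaurentSeries k)).injective).mpr ht1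
    have h2 : algebraMap ↥(modularFunctionFieldFullC k N') (LaurentSeries k)
        ((t2iBase2 O π hπ hN' W Fr).res ⟨y, hy⟩).1 =
        taRhoFun O π ((y : ↥(TaF L (N' * q))) : LaurentSeries L) := by
      rw [← taResN_eq_taRhoFun O π hπ (N' * q) ⟨y, hy.1⟩]
      exact t2i_coe_res_fst O π hπ hN' W Fr hy
    rwa [h2] at h1
  g3 := hy.2
  t3 := by
    have h1 := (transcendental_algebraMap_iff (R := k)
      (algebraMap ↥(modularFunctionFieldFullC k N') (LaurentSeries k)).injective).mpr ht2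
    have h2 : algebraMap ↥(modularFunctionFieldFullC k N') (LaurentSeries k)
        ((t2iBase2 O π hπ hN' W Fr).res ⟨y, hy⟩).2 =
        taRhoFun O π ((W.w y : ↥(TaF L (N' * q))) : LaurentSeries L) := by
      rw [← taResN_eq_taRhoFun O π hπ (N' * q) ⟨W.w y, hy.2⟩]
      exact t2i_coe_res_snd O π hπ hN' W Fr hy
    rwa [h2] at h1

variable {O π hπ W}

/-- **the `DlxChart` of a chart coordinate `y` at the level `(L, O, ϖ)`** -/
def dlxChartGen {σ : Type*} [Fintype σ] {y : ↥(TaF L (N' * q))} (Hy : T4vwHyp1 O π W y)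
    (hy : y ∈ (t2iBase2 O π hπ hN' W Fr).Ov)
    (G : DlgData k ↥(modularFunctionFieldFullC k N') ↥(modularFunctionFieldFullC k N') σ)
    (hGS : ∀ t, t ∈ G.S ↔ ∃ b, ∃ hb : b ∈ (t2iBase2 O π hπ hN' W Fr).ball (t2Int y),
      (t2iBase2 O π hπ hN' W Fr).res ⟨b, hb.2⟩ = t) :
    DlxChart (dliInf O π hπ hN' W Fr hϖ) (dliZero O π hπ hN' W Fr hϖ) σ where
  V₁ := taOv O π hπ (N' * q)
  V₂ := dliO0 O π hπ W
  hV₁ := rfl
  hV₂ := rfl
  hne := dlx_ver_ne O π hπ hN' W Fr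
  x := y
  hx₁ := hy.1
  hx₂ := hy.2
  P := dlxPres (hπ := hπ) hN' Fr hϖ Hy
  hvals := by
    rw [dlxPres_vals]
    rfl
  G := G
  hS := by
    intro t
    rw [hGS]
    constructor
    · rintro ⟨b, hb, rfl⟩
      refine ⟨b, hb.2.1, hb.2.2, (mem_dlxPres_B hN' Fr hϖ Hy b).mpr ⟨hb.1, hb.2⟩, ?_⟩
      exact dli_res_eq O π hπ hN' W Fr hϖ hb.2
    · rintro ⟨b, h₁, h₂, hbB, rfl⟩
      have hb := (mem_dlxPres_B hN' Fr hϖ Hy b).mp hbB
      exact ⟨b, ⟨hb.1, hb.2⟩, dli_res_eq O π hπ hN' W Fr hϖ hb.2⟩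

section ChartGen

variable {σ : Type*} [Fintype σ] {y : ↥(TaF L (N' * q))} (Hy : T4vwHyp1 O π W y)
    (hy : y ∈ (t2iBase2 O π hπ hN' W Fr).Ov)
    (G : DlgData k ↥(modularFunctionFieldFullC k N') ↥(modularFunctionFieldFullC k N') σ)
    (hGS : ∀ t, t ∈ G.S ↔ ∃ b, ∃ hb : b ∈ (t2iBase2 O π hπ hN' W Fr).ball (t2Int y),
      (t2iBase2 O π hπ hN' W Fr).res ⟨b, hb.2⟩ = t)

@[simp] theorem dlxChartGen_x : (dlxChartGen hN' Fr hϖ Hy hy G hGS).x = y := rfl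

@[simp] theorem dlxChartGen_G : (dlxChartGen hN' Fr hϖ Hy hy G hGS).G = G := rfl

@[simp] theorem dlxChartGen_V₁ :
    (dlxChartGen hN' Fr hϖ Hy hy G hGS).V₁ = taOv O π hπ (N' * q) := rfl

@[simp] theorem dlxChartGen_V₂ :
    (dlxChartGen hN' Fr hϖ Hy hy G hGS).V₂ = dliO0 O π hπ W := rfl

theorem mem_dlxChartGen_B (f : ↥(TaF L (N' * q))) :
    f ∈ (dlxChartGen hN' Fr hϖ Hy hy G hGS).P.B ↔
      f ∈ t2Int (K := L) y ∧ f ∈ (t2iBase2 O π hπ hN' W Fr).Ov :=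
  mem_dlxPres_B hN' Fr hϖ Hy f

/-- the chart ring is noetherian, from `T2Fin` -/
theorem dlxChartGen_noeth {e : ℕ} (hfin : T2Fin (t2iBase2 O π hπ hN' W Fr) y e) :
    IsNoetherianRing ↥(dlxChartGen hN' Fr hϖ Hy hy G hGS).P.B := by
  haveI : IsNoetherianRing ↥(t2iBase2 O π hπ hN' W Fr).A :=
    (inferInstance : IsNoetherianRing ↥O)
  exact t4vq_isNoetherianRing (t2iBase2 O π hπ hN' W Fr) hfin hy _
    (mem_dlxChartGen_B hN' Fr hϖ Hy hy G hGS)

/-- `FinGen` of the chart, from `T2Fin` -/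
theorem dlxChartGen_finGen {e : ℕ} (hfin : T2Fin (t2iBase2 O π hπ hN' W Fr) y e) :
    (dlxChartGen hN' Fr hϖ Hy hy G hGS).FinGen := by
  obtain ⟨S, hS, hgen⟩ := hfin
  refine ⟨S, fun s hs => (mem_dlxChartGen_B hN' Fr hϖ Hy hy G hGS s).mpr (hS s hs).1,
    fun f hf => ?_⟩
  obtain ⟨c, hc⟩ := hgen f ((mem_dlxChartGen_B hN' Fr hϖ Hy hy G hGS f).mp hf)
  refine ⟨c, ?_⟩
  rw [hc]
  refine Finset.sum_congr rfl fun s _ => ?_
  congr 1
  unfold T2Base.evalA DlxChart.evalA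
  exact (Polynomial.hom_eval₂ (c s) (dlxChartGen hN' Fr hϖ Hy hy G hGS).ofA
    (dlxChartGen hN' Fr hϖ Hy hy G hGS).P.B.subtype
    (dlxChartGen hN' Fr hϖ Hy hy G hGS).xB).symm

end ChartGen

end Fermat.Agent.Delta
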