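/-
DELTA / NODE-X (helper2), part 9: **the two charts of `X₀(N' p)` at an inertia level `L_H`**.

`H ≤ 𝔓.I` of finite index, `ϖ` a uniformiser of `O_H`, `N'` rigid (`4 ∣ N'` or `9 ∣ N'`) prime to
`p`, `su` the `T2Setup` of `s33q_exists_setup_level` (`su.x = x_s`, `su.xb = (ξ, ξ)`):
* `dlxChart1 … : DlxChart (dliInfH …) (dliZeroH …) (Fin n)` — the chart `x_s`, gluing datum
  `dlgDataH`;
* `dlxChart2 … : DlxChart (dliInfH …) (dliZeroH …) (Fin 0)` — the chart `x_s⁻¹` (no nodes: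
  `dlxChart2_nodes`);
* both chart rings are noetherian and finite over `O_H[x]` (`FinGen`), `O_H` is henselian, hence
  (FIN-X) holds at every closed point (`dlxChart1_finAt`, `dlxChart2_finAt`).
-/
import Fermat.Agent.Lib.Delta.NodeX.PresH
import Fermat.Agent.Lib.Delta.NodeX.Hens
import Fermat.Agent.Lib.Delta.Toric.InstH
import Fermat.Agent.Lib.Delta.Glue.InstH
import Fermat.Agent.Lib.T2.Inst.SetupFin

set_option autoImplicit false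
set_option linter.unusedSectionVars false
set_option linter.unusedVariables false
set_option linter.style.haveILetI false
set_option synthInstance.maxHeartbeats 400000
set_option maxHeartbeats 1000000

open HahnSeries ModularCurve Fermat.Agent.T1 Fermat.Agent.T2 Fermat.Agent.T4 Fermat.Agent.TW
  Fermat.Agent.S05Lib Fermat.Agent.S24Lib IntermediateField AlgebraicCurve Fermat.Agent.Curve Module
  Fermat.Agent.S33 Fermat.Agent.S33Q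

noncomputable section

namespace Fermat.Agent.Delta

section Fin2

variable {L : Type} [Field L] [Algebra ℚ L] {O : ValuationSubring L} {k : Type*} [Field k]
  {π : ↥O →+* k} [IsDiscreteValuationRing ↥O] {hπ : Function.Surjective π} [IsAlgClosed k]
  {N' q : ℕ} [NeZero N'] [hq : Fact q.Prime] [CharP k q] {hN' : (N' : k) ≠ 0}
  {W : T2iAL L N' q} (Fr : T2iFrob k N' q) {nn : ℕ} (Hy : T2iHyp O π hπ hN' W nn)

attribute [local instance] t2iAlgebra t2i_isScalarTower t2i_dvr_A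

include Hy in
/-- `T2Fin` for the chart `x_s⁻¹` -/
theorem dlx_fin2 : ∃ e : ℕ, T2Fin (t2iBase2 O π hπ hN' W Fr) (t2iXs W)⁻¹ e := by
  obtain ⟨b, hb⟩ := t2i_exists_indep2 Fr Hy
  haveI : FiniteDimensional ↥(L⟮(t2iChart2 Fr Hy).x⟯) ↥(TaF L (N' * q)) := t2i_fd_inv Hy
  haveI : CharZero L := algebraRat.charZero L
  haveI : Algebra.IsSeparable ↥(L⟮(t2iChart2 Fr Hy).x⟯) ↥(TaF L (N' * q)) :=
    Algebra.IsAlgebraic.isSeparable_of_perfectField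
  exact (t2iChart2 Fr Hy).fin hb (t2i_hn_inv Hy) (inv_ne_zero (t2i_Xs_ne_zero W))

end Fin2

attribute [local instance] t2i_dvr t2i_isAlgClosed t2i_charP t2i_fact
attribute [local instance 10000] dliAlgF dliAlgE

variable (𝔓 : FFPlace) (H : Subgroup 𝔓.I) [H.FiniteIndex] {ϖ : ↥(tbFixO 𝔓 H)}
  (hϖ : Irreducible ϖ) (N' : ℕ) [NeZero N'] (h : ¬ 𝔓.p ∣ N') (h49 : 4 ∣ N' ∨ 9 ∣ N') {n : ℕ}
  (su : T2Setup (t2iBase2Fix 𝔓 H N' h) (Fin n))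
  (hx : su.x = t2gaX 𝔓 H N' h (𝔓.p ^ 2)) (hxb : su.xb = (s33qXi 𝔓 N', s33qXi 𝔓 N'))

/-! ### Chart 1 -/

include hx in
theorem dlx_gen1 : IsFunctionFieldGen ↥(tbFix 𝔓 H) ↥(tbLevF 𝔓 (N' * 𝔓.p) H) su.x := by
  have hx' : su.x = t2iXs (t2iALFix 𝔓 H N' h) := hx
  rw [hx']
  exact t2d_isFunctionFieldGen_mod 𝔓 (N' * 𝔓.p) H (t2i_gen_Xs 𝔓 H N' h)

include h hxb in
theorem dlx_tr1 : Transcendental (IsLocalRing.ResidueField ↥𝔓.P)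
    ((t2iBase2Fix 𝔓 H N' h).res ⟨su.x, su.hx⟩).1 := by
  have : (t2iBase2Fix 𝔓 H N' h).res ⟨su.x, su.hx⟩ = su.xb := rfl
  rw [this, hxb]
  exact (dlg_xi_gen 𝔓 N' h).transcendental

include h hxb in
theorem dlx_tr2 : Transcendental (IsLocalRing.ResidueField ↥𝔓.P)
    ((t2iBase2Fix 𝔓 H N' h).res ⟨su.x, su.hx⟩).2 := by
  have : (t2iBase2Fix 𝔓 H N' h).res ⟨su.x, su.hx⟩ = su.xb := rfl
  rw [this, hxb]
  exact (dlg_xi_gen 𝔓 N' h).transcendental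

include hx hxb in
theorem dlx_hypH1 : T4vwHyp1 (tbFixO 𝔓 H) (tbFixRes 𝔓 H) (t2iALFix 𝔓 H N' h) su.x :=
  dlx_hyp1 (tbFixO 𝔓 H) (tbFixRes 𝔓 H) (tbFixRes_surjective 𝔓 H) (t2i_natCast_ne_zero 𝔓 h)
    (t2iALFix 𝔓 H N' h) (t2iFrobFix 𝔓 N') (dlx_gen1 𝔓 H N' h su hx) su.hx
    (dlx_tr1 𝔓 H N' h su hxb) (dlx_tr2 𝔓 H N' h su hxb)

/-- **chart 1** (`x = x_s`) of `X₀(N' p)` at the level `H` -/
def dlxChart1 : DlxChart (dliInfH 𝔓 H hϖ N' h) (dliZeroH 𝔓 H hϖ N' h) (Fin n) :=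
  dlxChartGen (t2i_natCast_ne_zero 𝔓 h) (t2iFrobFix 𝔓 N') hϖ (dlx_hypH1 𝔓 H N' h su hx hxb) su.hx
    (dlgDataH 𝔓 H N' h h49 su hx hxb) (fun _ => dlgDataH_mem_S 𝔓 H N' h h49 su hx hxb)

@[simp] theorem dlxChart1_x : (dlxChart1 𝔓 H hϖ N' h h49 su hx hxb).x = su.x := rfl

@[simp] theorem dlxChart1_G :
    (dlxChart1 𝔓 H hϖ N' h h49 su hx hxb).G = dlgDataH 𝔓 H N' h h49 su hx hxb := rfl

theorem dlxChart1_Gx :
    (dlxChart1 𝔓 H hϖ N' h h49 su hx hxb).G.x = (s33qXi 𝔓 N', s33qXi 𝔓 N') := hxb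

@[simp] theorem dlxChart1_V₁ : (dlxChart1 𝔓 H hϖ N' h h49 su hx hxb).V₁ =
    taOv (tbFixO 𝔓 H) (tbFixRes 𝔓 H) (tbFixRes_surjective 𝔓 H) (N' * 𝔓.p) := rfl

@[simp] theorem dlxChart1_V₂ : (dlxChart1 𝔓 H hϖ N' h h49 su hx hxb).V₂ =
    dliO0 (tbFixO 𝔓 H) (tbFixRes 𝔓 H) (tbFixRes_surjective 𝔓 H) (t2iALFix 𝔓 H N' h) := rfl

theorem mem_dlxChart1_B (f : ↥(tbLevF 𝔓 (N' * 𝔓.p) H)) :
    f ∈ (dlxChart1 𝔓 H hϖ N' h h49 su hx hxb).P.B ↔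
      f ∈ t2Int (K := ↥(tbFix 𝔓 H)) su.x ∧ f ∈ (t2iBase2Fix 𝔓 H N' h).Ov :=
  mem_dlxChartGen_B _ _ hϖ _ su.hx _ _ f

instance dlxChart1_noeth : IsNoetherianRing ↥(dlxChart1 𝔓 H hϖ N' h h49 su hx hxb).P.B :=
  dlxChartGen_noeth _ _ hϖ _ su.hx _ _ su.fin1

theorem dlxChart1_finGen : (dlxChart1 𝔓 H hϖ N' h h49 su hx hxb).FinGen :=
  dlxChartGen_finGen _ _ hϖ _ su.hx _ _ su.fin1

instance dlx_baseH_dvr : IsDiscreteValuationRing ↥(dliBaseH 𝔓 H hϖ).A := t2i_dvr 𝔓 H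

theorem dlx_hensH : DltHens (dliBaseH 𝔓 H hϖ).A ↥(tbLevF 𝔓 (N' * 𝔓.p) H) :=
  dlx_hens 𝔓 H (N' * 𝔓.p)

/-- **(FIN-X) at every closed point of chart 1** -/
theorem dlxChart1_finAt
    (P : Place (IsLocalRing.ResidueField ↥𝔓.P) ↥(tbBarF 𝔓 N'))
    (hP : 0 ≤ P.ord (dlxChart1 𝔓 H hϖ N' h h49 su hx hxb).G.x.1) :
    (dlxChart1 𝔓 H hϖ N' h h49 su hx hxb).FinAt
      ((dlxChart1 𝔓 H hϖ N' h h49 su hx hxb).n₁ P hP) := by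
  haveI : CharZero ↥(tbFix 𝔓 H) := algebraRat.charZero _
  exact (dlxChart1 𝔓 H hϖ N' h h49 su hx hxb).finAt (dlx_gen1 𝔓 H N' h su hx)
    (dlxChart1_finGen 𝔓 H hϖ N' h h49 su hx hxb) (dlx_hensH 𝔓 H hϖ N') P hP

/-! ### Chart 2 -/

include h hxb in
theorem dlx_xi_ne_zero : s33qXi 𝔓 N' ≠ 0 := by
  intro h0
  apply (dlg_xi_gen 𝔓 N' h).transcendental
  rw [h0]
  exact isAlgebraic_zero

include h hxb in
theorem dlx_xib_eq : su.xib = ((s33qXi 𝔓 N')⁻¹, (s33qXi 𝔓 N')⁻¹) := by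
  have h1 := su.xib_mul_xb
  rw [hxb] at h1
  apply Prod.ext
  · exact eq_inv_of_mul_eq_one_left (congrArg Prod.fst h1)
  · exact eq_inv_of_mul_eq_one_left (congrArg Prod.snd h1)

/-- the gluing datum of chart 2: the special fibre of the chart `x_s ≠ 0` is normal -/
def dlgDataH2 : DlgData (IsLocalRing.ResidueField ↥𝔓.P) ↥(tbBarF 𝔓 N') ↥(tbBarF 𝔓 N') (Fin 0) where
  x := su.xib
  gen₁ := by
    rw [dlx_xib_eq 𝔓 H N' h su hxb]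
    exact CurveP.isFunctionFieldGen_inv (dlg_xi_gen 𝔓 N' h)
  sep₁ := by
    rw [dlx_xib_eq 𝔓 H N' h su hxb]
    show Algebra.IsSeparable ↥(IsLocalRing.ResidueField ↥𝔓.P)⟮(s33qXi 𝔓 N')⁻¹⟯ ↥(tbBarF 𝔓 N')
    rw [ta_adjoin_simple_inv]
    exact dlg_xi_sep 𝔓 N' h
  gen₂ := by
    rw [dlx_xib_eq 𝔓 H N' h su hxb]
    exact CurveP.isFunctionFieldGen_inv (dlg_xi_gen 𝔓 N' h)
  sep₂ := by
    rw [dlx_xib_eq 𝔓 H N' h su hxb]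
    show Algebra.IsSeparable ↥(IsLocalRing.ResidueField ↥𝔓.P)⟮(s33qXi 𝔓 N')⁻¹⟯ ↥(tbBarF 𝔓 N')
    rw [ta_adjoin_simple_inv]
    exact dlg_xi_sep 𝔓 N' h
  S := t2R (k := IsLocalRing.ResidueField ↥𝔓.P) su.xib
  S_le := le_rfl
  ev :=
    { toFun := fun _ => 0
      map_one' := Subsingleton.elim _ _
      map_mul' := fun _ _ => Subsingleton.elim _ _
      map_zero' := rfl
      map_add' := fun _ _ => Subsingleton.elim _ _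
      commutes' := fun _ => Subsingleton.elim _ _ }
  hJ := fun r _ => r.2
  hα := fun f hf => ⟨0, s33rd_isIntegral_inl hf⟩
  hβ := fun g hg => ⟨0, s33rd_isIntegral_inr hg⟩

theorem dlgDataH2_x : (dlgDataH2 𝔓 H N' h su hxb).x =
    ((s33qXi 𝔓 N')⁻¹, (s33qXi 𝔓 N')⁻¹) := dlx_xib_eq 𝔓 H N' h su hxb

/-- chart 2 has no nodes -/
theorem dlgDataH2_nodes : (dlgDataH2 𝔓 H N' h su hxb).nodes = ∅ := by
  ext s
  simp only [Set.mem_empty_iff_false, iff_false]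
  rintro ⟨i, -⟩
  exact i.elim0

theorem dlgDataH2_mem_S {t : ↥(tbBarF 𝔓 N') × ↥(tbBarF 𝔓 N')} :
    t ∈ (dlgDataH2 𝔓 H N' h su hxb).S ↔
      ∃ b, ∃ hb : b ∈ (t2iBase2Fix 𝔓 H N' h).ball (t2Int su.x⁻¹),
        (t2iBase2Fix 𝔓 H N' h).res ⟨b, hb.2⟩ = t :=
  su.mem_S2_iff.symm

include hx in
theorem dlx_gen2 : IsFunctionFieldGen ↥(tbFix 𝔓 H) ↥(tbLevF 𝔓 (N' * 𝔓.p) H) su.x⁻¹ :=
  CurveP.isFunctionFieldGen_inv (dlx_gen1 𝔓 H N' h su hx)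

include h hxb in
theorem dlx_tr1' : Transcendental (IsLocalRing.ResidueField ↥𝔓.P)
    ((t2iBase2Fix 𝔓 H N' h).res ⟨su.x⁻¹, su.hxi⟩).1 := by
  have : (t2iBase2Fix 𝔓 H N' h).res ⟨su.x⁻¹, su.hxi⟩ = su.xib := rfl
  rw [this, dlx_xib_eq 𝔓 H N' h su hxb]
  exact (CurveP.isFunctionFieldGen_inv (dlg_xi_gen 𝔓 N' h)).transcendental

include h hxb in
theorem dlx_tr2' : Transcendental (IsLocalRing.ResidueField ↥𝔓.P)
    ((t2iBase2Fix 𝔓 H N' h).res ⟨su.x⁻¹, su.hxi⟩).2 := by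
  have : (t2iBase2Fix 𝔓 H N' h).res ⟨su.x⁻¹, su.hxi⟩ = su.xib := rfl
  rw [this, dlx_xib_eq 𝔓 H N' h su hxb]
  exact (CurveP.isFunctionFieldGen_inv (dlg_xi_gen 𝔓 N' h)).transcendental

include hx hxb in
theorem dlx_hypH2 : T4vwHyp1 (tbFixO 𝔓 H) (tbFixRes 𝔓 H) (t2iALFix 𝔓 H N' h) su.x⁻¹ :=
  dlx_hyp1 (tbFixO 𝔓 H) (tbFixRes 𝔓 H) (tbFixRes_surjective 𝔓 H) (t2i_natCast_ne_zero 𝔓 h)
    (t2iALFix 𝔓 H N' h) (t2iFrobFix 𝔓 N') (dlx_gen2 𝔓 H N' h su hx) su.hxi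
    (dlx_tr1' 𝔓 H N' h su hxb) (dlx_tr2' 𝔓 H N' h su hxb)

/-- **chart 2** (`x = x_s⁻¹`) of `X₀(N' p)` at the level `H`: the cusps (and the ordinary locus) -/
def dlxChart2 : DlxChart (dliInfH 𝔓 H hϖ N' h) (dliZeroH 𝔓 H hϖ N' h) (Fin 0) :=
  dlxChartGen (t2i_natCast_ne_zero 𝔓 h) (t2iFrobFix 𝔓 N') hϖ (dlx_hypH2 𝔓 H N' h su hx hxb) su.hxi
    (dlgDataH2 𝔓 H N' h su hxb) (fun _ => dlgDataH2_mem_S 𝔓 H N' h su hxb)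

@[simp] theorem dlxChart2_x : (dlxChart2 𝔓 H hϖ N' h su hx hxb).x = su.x⁻¹ := rfl

@[simp] theorem dlxChart2_G :
    (dlxChart2 𝔓 H hϖ N' h su hx hxb).G = dlgDataH2 𝔓 H N' h su hxb := rfl

theorem dlxChart2_Gx : (dlxChart2 𝔓 H hϖ N' h su hx hxb).G.x =
    ((s33qXi 𝔓 N')⁻¹, (s33qXi 𝔓 N')⁻¹) := dlgDataH2_x 𝔓 H N' h su hxb

theorem dlxChart2_free (P : Place (IsLocalRing.ResidueField ↥𝔓.P) ↥(tbBarF 𝔓 N'))
    (Q : Place (IsLocalRing.ResidueField ↥𝔓.P) ↥(tbBarF 𝔓 N')) :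
    (P, Q) ∉ (dlxChart2 𝔓 H hϖ N' h su hx hxb).G.nodes := by
  rw [dlxChart2_G, dlgDataH2_nodes]
  exact Set.notMem_empty _

@[simp] theorem dlxChart2_V₁ : (dlxChart2 𝔓 H hϖ N' h su hx hxb).V₁ =
    taOv (tbFixO 𝔓 H) (tbFixRes 𝔓 H) (tbFixRes_surjective 𝔓 H) (N' * 𝔓.p) := rfl

@[simp] theorem dlxChart2_V₂ : (dlxChart2 𝔓 H hϖ N' h su hx hxb).V₂ =
    dliO0 (tbFixO 𝔓 H) (tbFixRes 𝔓 H) (tbFixRes_surjective 𝔓 H) (t2iALFix 𝔓 H N' h) := rfl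

theorem mem_dlxChart2_B (f : ↥(tbLevF 𝔓 (N' * 𝔓.p) H)) :
    f ∈ (dlxChart2 𝔓 H hϖ N' h su hx hxb).P.B ↔
      f ∈ t2Int (K := ↥(tbFix 𝔓 H)) su.x⁻¹ ∧ f ∈ (t2iBase2Fix 𝔓 H N' h).Ov :=
  mem_dlxChartGen_B _ _ hϖ _ su.hxi _ _ f

include h49 hx in
theorem dlx_fin2H : ∃ e : ℕ, T2Fin (t2iBase2Fix 𝔓 H N' h) su.x⁻¹ e := by
  have hx' : su.x = t2iXs (t2iALFix 𝔓 H N' h) := hx
  rw [hx']
  exact dlx_fin2 (t2iFrobFix 𝔓 N')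
    (t2i_hyp_fix 𝔓 H N' h (t2i_leafGR 𝔓 H N' h h49) (t2i_leafSF 𝔓 N' h))

include h49 in
theorem dlxChart2_noeth : IsNoetherianRing ↥(dlxChart2 𝔓 H hϖ N' h su hx hxb).P.B := by
  obtain ⟨e, he⟩ := dlx_fin2H 𝔓 H N' h h49 su hx
  exact dlxChartGen_noeth _ _ hϖ _ su.hxi _ _ he

include h49 in
theorem dlxChart2_finGen : (dlxChart2 𝔓 H hϖ N' h su hx hxb).FinGen := by
  obtain ⟨e, he⟩ := dlx_fin2H 𝔓 H N' h h49 su hx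
  exact dlxChartGen_finGen _ _ hϖ _ su.hxi _ _ he

include h49 in
/-- **(FIN-X) at every closed point of chart 2** -/
theorem dlxChart2_finAt
    (P : Place (IsLocalRing.ResidueField ↥𝔓.P) ↥(tbBarF 𝔓 N'))
    (hP : 0 ≤ P.ord (dlxChart2 𝔓 H hϖ N' h su hx hxb).G.x.1) :
    (dlxChart2 𝔓 H hϖ N' h su hx hxb).FinAt
      ((dlxChart2 𝔓 H hϖ N' h su hx hxb).n₁ P hP) := by
  haveI : CharZero ↥(tbFix 𝔓 H) := algebraRat.charZero _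
  exact (dlxChart2 𝔓 H hϖ N' h su hx hxb).finAt (dlx_gen2 𝔓 H N' h su hx)
    (dlxChart2_finGen 𝔓 H hϖ N' h h49 su hx hxb) (dlx_hensH 𝔓 H hϖ N') P hP

end Fermat.Agent.Delta
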