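/-
DELTA / NODE-X (helper2), part 10: **morphisms of charts** (change of the level).

`h : DlxHom C C'` : two charts `C` (over `B₁ : DlBase L₁ k`, function field `F₁`) and `C'` (over
`B₂ : DlBase L₂ k`, function field `F₂`) with the SAME residue fields `k`, `κ₁`, `κ₂`, a pair of field
embeddings `ιL : L₁ → L₂`, `ιF : F₁ → F₂` compatible with the base rings, the two Gauss places (with
EQUAL residues), the chart rings and the chart coordinate of the special fibre.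
Then for every place `P` of the first component in the chart:
* `h.mapB : C.P.B →+* C'.P.B`, `h.ev₁_mapB` (same evaluation), `h.mem_n₁_mapB`;
* `h.map_A₁ : f ∈ C.A₁ P hP → ιF f ∈ C'.A₁ P hP'`, `h.mapA`, `h.lres₁_mapA`, `h.lev₁_mapA`,
  `h.isUnit_mapA` (local homomorphism);
* `h.comap_V₁`, `h.comap_V₂` : the vertical valuation rings of `C'` restrict to those of `C`.
-/
import Fermat.Agent.Lib.Delta.NodeX.Dict
import Fermat.Agent.Lib.T4.Local.Loc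

set_option autoImplicit false
set_option linter.unusedSectionVars false
set_option linter.unusedVariables false
set_option linter.style.haveILetI false

namespace Fermat.Agent.Delta

open AlgebraicCurve Fermat.Agent.Curve Fermat.Agent.Curve.PlaceAux Fermat.Agent.T1 Fermat.Agent.T2
  Fermat.Agent.T4

section PlaceComap

variable {L₁ L₂ k : Type*} [Field L₁] [Field L₂] [Field k] {B₁ : DlBase L₁ k} {B₂ : DlBase L₂ k}
  {F₁ F₂ κ : Type*} [Field F₁] [Field F₂] [Algebra L₁ F₁] [Algebra L₂ F₂] [Field κ] [Algebra k κ]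
  (g : DlPlace B₁ F₁ κ) (g' : DlPlace B₂ F₂ κ) (ιF : F₁ →+* F₂)
  (hO : ∀ f : F₁, f ∈ g.O → ιF f ∈ g'.O)
  (hres : ∀ (f : F₁) (hf : f ∈ g.O), g'.res ⟨ιF f, hO f hf⟩ = g.res ⟨f, hf⟩)
  (V : ValuationSubring F₁) (hV : V.toSubring = g.O)

include hres hV in
/-- membership in the Gauss ring can be tested after the change of level -/
theorem dlx_mem_O_of_map {f : F₁} (hf : ιF f ∈ g'.O) : f ∈ g.O := by
  by_contra hfO
  have hfV : f ∉ V := fun h => hfO ((dlx_mem_iff g V hV f).mp h)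
  have hf0 : f ≠ 0 := by
    rintro rfl
    exact hfO g.O.zero_mem
  have hinvV : f⁻¹ ∈ V := (V.mem_or_inv_mem f).resolve_left hfV
  have hinvO : f⁻¹ ∈ g.O := (dlx_mem_iff g V hV _).mp hinvV
  have hlt : V.valuation f⁻¹ < 1 := by
    rw [t4vp_valuation_lt_one_iff V (inv_ne_zero hf0), inv_inv]
    exact hfV
  have h0 : g.res ⟨f⁻¹, hinvO⟩ = 0 := (dlx_res_eq_zero_iff g V hV hinvO).mpr hlt
  have h1 := g'.res_mul' hf (hO _ hinvO)
  rw [hres _ hinvO, h0, mul_zero] at h1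
  have h2 : ιF f * ιF f⁻¹ = 1 := by
    rw [← map_mul, mul_inv_cancel₀ hf0, map_one]
  rw [g'.res_congr _ h2, g'.res_one'] at h1
  exact one_ne_zero h1

include hres hV in
/-- the valuation ring of the upper level restricts to the one of the lower level -/
theorem dlx_comap_eq (V' : ValuationSubring F₂) (hV' : V'.toSubring = g'.O) :
    V'.comap ιF = V := by
  ext f
  rw [ValuationSubring.mem_comap, dlx_mem_iff g' V' hV', dlx_mem_iff g V hV]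
  exact ⟨fun h => dlx_mem_O_of_map g g' ιF hO hres V hV h, hO f⟩

end PlaceComap

variable {L₁ L₂ k : Type*} [Field L₁] [Field L₂] [Field k] {B₁ : DlBase L₁ k} {B₂ : DlBase L₂ k}
  {F₁ F₂ κ₁ κ₂ : Type*} [Field F₁] [Field F₂] [Algebra L₁ F₁] [Algebra L₂ F₂]
  [Field κ₁] [Algebra k κ₁] [Field κ₂] [Algebra k κ₂]

/-- **a morphism of charts** (change of the level) -/
structure DlxHom {g₁ : DlPlace B₁ F₁ κ₁} {g₂ : DlPlace B₁ F₁ κ₂} {g₁' : DlPlace B₂ F₂ κ₁}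
    {g₂' : DlPlace B₂ F₂ κ₂} {σ σ' : Type*} [Fintype σ] [Fintype σ']
    (C : DlxChart g₁ g₂ σ) (C' : DlxChart g₁' g₂' σ') where
  ιL : L₁ →+* L₂
  ιF : F₁ →+* F₂
  hsq : ∀ a : L₁, ιF (algebraMap L₁ F₁ a) = algebraMap L₂ F₂ (ιL a)
  hA : ∀ a : L₁, a ∈ B₁.A → ιL a ∈ B₂.A
  hresA : ∀ (a : L₁) (ha : a ∈ B₁.A), B₂.resA ⟨ιL a, hA a ha⟩ = B₁.resA ⟨a, ha⟩
  hO₁ : ∀ f : F₁, f ∈ g₁.O → ιF f ∈ g₁'.O
  hres₁ : ∀ (f : F₁) (hf : f ∈ g₁.O), g₁'.res ⟨ιF f, hO₁ f hf⟩ = g₁.res ⟨f, hf⟩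
  hO₂ : ∀ f : F₁, f ∈ g₂.O → ιF f ∈ g₂'.O
  hres₂ : ∀ (f : F₁) (hf : f ∈ g₂.O), g₂'.res ⟨ιF f, hO₂ f hf⟩ = g₂.res ⟨f, hf⟩
  hB : ∀ f : F₁, f ∈ C.P.B → ιF f ∈ C'.P.B
  hGx : C'.G.x = C.G.x

namespace DlxHom

variable [IsAlgClosed k] {g₁ : DlPlace B₁ F₁ κ₁} {g₂ : DlPlace B₁ F₁ κ₂} {g₁' : DlPlace B₂ F₂ κ₁}
  {g₂' : DlPlace B₂ F₂ κ₂} {σ σ' : Type*} [Fintype σ] [Fintype σ']
  {C : DlxChart g₁ g₂ σ} {C' : DlxChart g₁' g₂' σ'} (h : DlxHom C C')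

/-- the map of chart rings -/
def mapB : ↥C.P.B →+* ↥C'.P.B :=
  (h.ιF.comp C.P.B.subtype).codRestrict C'.P.B (fun b => h.hB b b.2)

@[simp] theorem coe_mapB (b : ↥C.P.B) : ((h.mapB b : ↥C'.P.B) : F₂) = h.ιF (b : F₁) := rfl

theorem res₁_mapB (b : ↥C.P.B) : C'.res₁ (h.mapB b) = C.res₁ b :=
  h.hres₁ _ (C.B_le₁ b.2)

theorem res₂_mapB (b : ↥C.P.B) : C'.res₂ (h.mapB b) = C.res₂ b :=
  h.hres₂ _ (C.B_le₂ b.2)

/-- the vertical valuation rings restrict -/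
theorem comap_V₁ : C'.V₁.comap h.ιF = C.V₁ :=
  dlx_comap_eq g₁ g₁' h.ιF h.hO₁ h.hres₁ C.V₁ C.hV₁ C'.V₁ C'.hV₁

theorem comap_V₂ : C'.V₂.comap h.ιF = C.V₂ :=
  dlx_comap_eq g₂ g₂' h.ιF h.hO₂ h.hres₂ C.V₂ C.hV₂ C'.V₂ C'.hV₂

section Point

variable (P : Place k κ₁) (hP : 0 ≤ P.ord C.G.x.1)

include h hP in
theorem hP' : 0 ≤ P.ord C'.G.x.1 := by rw [h.hGx]; exact hP

/-- the evaluations at a place of the first component agree -/
theorem ev₁_mapB (b : ↥C.P.B) : C'.ev₁ P (h.hP' P hP) (h.mapB b) = C.ev₁ P hP b := by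
  rw [DlxChart.ev₁_eq_iff, h.res₁_mapB]
  exact C.ev₁_spec P hP b

theorem mem_n₁_mapB (b : ↥C.P.B) : h.mapB b ∈ C'.n₁ P (h.hP' P hP) ↔ b ∈ C.n₁ P hP := by
  rw [DlxChart.mem_n₁, DlxChart.mem_n₁, h.ev₁_mapB]

/-- the local rings at a place of the first component are compatible -/
theorem map_A₁ {f : F₁} (hf : f ∈ C.A₁ P hP) : h.ιF f ∈ C'.A₁ P (h.hP' P hP) := by
  obtain ⟨c, hc, hcf⟩ := (C.P.mem_loc_iff).mp hf
  refine (C'.P.mem_loc_iff).mpr ⟨h.mapB c, fun hmem => hc ((h.mem_n₁_mapB P hP c).mp hmem), ?_⟩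
  have := h.hB _ hcf
  rwa [map_mul] at this

/-- the map of local rings -/
noncomputable def mapA : ↥(C.A₁ P hP) →+* ↥(C'.A₁ P (h.hP' P hP)) :=
  (h.ιF.comp (C.A₁ P hP).subtype).codRestrict (C'.A₁ P (h.hP' P hP))
    (fun a => h.map_A₁ P hP a.2)

@[simp] theorem coe_mapA (a : ↥(C.A₁ P hP)) :
    ((h.mapA P hP a : ↥(C'.A₁ P (h.hP' P hP))) : F₂) = h.ιF (a : F₁) := rfl

theorem lres₁_mapA (a : ↥(C.A₁ P hP)) :
    C'.lres₁ P (h.hP' P hP) (h.mapA P hP a) = C.lres₁ P hP a :=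
  h.hres₁ _ (C.A₁_le₁ P hP a.2)

theorem lev₁_mapA (a : ↥(C.A₁ P hP)) :
    C'.lev₁ P (h.hP' P hP) (h.mapA P hP a) = C.lev₁ P hP a := by
  rw [DlxChart.lev₁_eq_iff, h.lres₁_mapA]
  exact C.lev₁_spec P hP a

/-- the map of local rings is local -/
theorem isUnit_mapA {a : ↥(C.A₁ P hP)} (ha : IsUnit a) : IsUnit (h.mapA P hP a) := by
  rw [DlxChart.isUnit_A₁_iff, h.lev₁_mapA]
  exact (C.isUnit_A₁_iff P hP a).mp ha

theorem isUnit_mapA_iff (a : ↥(C.A₁ P hP)) : IsUnit (h.mapA P hP a) ↔ IsUnit a := by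
  rw [DlxChart.isUnit_A₁_iff, DlxChart.isUnit_A₁_iff, h.lev₁_mapA]

end Point

end DlxHom

end Fermat.Agent.Delta
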