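/-
DELTA / NODE-X (helper8): **the morphisms of charts between two inertia levels** `H ≤ H₁`
(instances of helper2's abstract `DlxHom`, `NodeX/Hom.lean`).

* `dlxLevHom1 𝔓 hle hϖ₁ hϖ N' h h49 su₁ hx₁ hxb₁ su hx hxb :
    DlxHom (dlxChart1 𝔓 H₁ hϖ₁ N' h h49 su₁ hx₁ hxb₁) (dlxChart1 𝔓 H hϖ N' h h49 su hx hxb)`
  with `ιL = t4cyInc 𝔓 hle`, `ιF = dlqlF 𝔓 hle (N' * 𝔓.p)` (helper7's `Core/Level.lean`); the two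
  setups `su₁`, `su` are INDEPENDENT (only `su.x = t2gaX …` and `su.xb = (ξ, ξ)` are used);
* `dlxLevHom2 …` : the same for the charts `x_s⁻¹` (`dlxChart2`).
-/
import Fermat.Agent.Lib.Delta.NodeX.Hom
import Fermat.Agent.Lib.Delta.NodeX.InstH
import Fermat.Agent.Lib.Delta.Core.Level

set_option autoImplicit false
set_option linter.unusedSectionVars false
set_option linter.unusedVariables false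
set_option linter.style.haveILetI false
set_option synthInstance.maxHeartbeats 400000
set_option maxHeartbeats 1000000

open HahnSeries ModularCurve Fermat.Agent.T1 Fermat.Agent.T2 Fermat.Agent.T4 Fermat.Agent.TW
  Fermat.Agent.S05Lib Fermat.Agent.S24Lib IntermediateField AlgebraicCurve Fermat.Agent.Curve Module
  Fermat.Agent.S33 Fermat.Agent.S33Q

noncomputable section

namespace Fermat.Agent.Delta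

attribute [local instance] t2i_dvr t2i_isAlgClosed t2i_charP t2i_fact
attribute [local instance 10000] dliAlgF dliAlgE

variable (𝔓 : FFPlace) {H₁ H : Subgroup 𝔓.I} (hle : H ≤ H₁) [H₁.FiniteIndex] [H.FiniteIndex]
  {ϖ₁ : ↥(tbFixO 𝔓 H₁)} (hϖ₁ : Irreducible ϖ₁) {ϖ : ↥(tbFixO 𝔓 H)} (hϖ : Irreducible ϖ)
  (N' : ℕ) [NeZero N'] (h : ¬ 𝔓.p ∣ N') (h49 : 4 ∣ N' ∨ 9 ∣ N') {n₁ n : ℕ}
  (su₁ : T2Setup (t2iBase2Fix 𝔓 H₁ N' h) (Fin n₁))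
  (hx₁ : su₁.x = t2gaX 𝔓 H₁ N' h (𝔓.p ^ 2)) (hxb₁ : su₁.xb = (s33qXi 𝔓 N', s33qXi 𝔓 N'))
  (su : T2Setup (t2iBase2Fix 𝔓 H N' h) (Fin n))
  (hx : su.x = t2gaX 𝔓 H N' h (𝔓.p ^ 2)) (hxb : su.xb = (s33qXi 𝔓 N', s33qXi 𝔓 N'))

/-- **the morphism of charts 1 between two inertia levels** -/
def dlxLevHom1 : DlxHom (dlxChart1 𝔓 H₁ hϖ₁ N' h h49 su₁ hx₁ hxb₁)
    (dlxChart1 𝔓 H hϖ N' h h49 su hx hxb) where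
  ιL := (t4cyInc 𝔓 hle : ↥(tbFix 𝔓 H₁) →ₐ[ℚ] ↥(tbFix 𝔓 H))
  ιF := dlqlF 𝔓 hle (N' * 𝔓.p)
  hsq := fun a => dlqlF_algebraMap 𝔓 hle (N' * 𝔓.p) a
  hA := fun a ha => (t4cyInc_mem_tbFixO 𝔓 hle a).mpr ha
  hresA := fun a ha => rfl
  hO₁ := fun f hf => dlqlF_mem_inf 𝔓 hle N' h hϖ₁ hϖ hf
  hres₁ := fun f hf => dlqlF_res_inf 𝔓 hle N' h hϖ₁ hϖ hf
  hO₂ := fun f hf => dlqlF_mem_zero 𝔓 hle N' h hϖ₁ hϖ hf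
  hres₂ := fun f hf => dlqlF_res_zero 𝔓 hle N' h hϖ₁ hϖ hf
  hB := by
    intro f hf
    rw [mem_dlxChart1_B] at hf ⊢
    refine ⟨?_, ?_⟩
    · have h1 := dlqlF_int 𝔓 hle (N' * 𝔓.p) hf.1
      rwa [hx₁, dlqlF_X, ← hx] at h1
    · exact ⟨dlqlF_mem_inf 𝔓 hle N' h hϖ₁ hϖ hf.2.1, dlqlF_mem_zero 𝔓 hle N' h hϖ₁ hϖ hf.2.2⟩
  hGx := by
    rw [dlxChart1_Gx, dlxChart1_Gx]

/-- **the morphism of charts 2 between two inertia levels** -/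
def dlxLevHom2 : DlxHom (dlxChart2 𝔓 H₁ hϖ₁ N' h su₁ hx₁ hxb₁)
    (dlxChart2 𝔓 H hϖ N' h su hx hxb) where
  ιL := (t4cyInc 𝔓 hle : ↥(tbFix 𝔓 H₁) →ₐ[ℚ] ↥(tbFix 𝔓 H))
  ιF := dlqlF 𝔓 hle (N' * 𝔓.p)
  hsq := fun a => dlqlF_algebraMap 𝔓 hle (N' * 𝔓.p) a
  hA := fun a ha => (t4cyInc_mem_tbFixO 𝔓 hle a).mpr ha
  hresA := fun a ha => rfl
  hO₁ := fun f hf => dlqlF_mem_inf 𝔓 hle N' h hϖ₁ hϖ hf
  hres₁ := fun f hf => dlqlF_res_inf 𝔓 hle N' h hϖ₁ hϖ hf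
  hO₂ := fun f hf => dlqlF_mem_zero 𝔓 hle N' h hϖ₁ hϖ hf
  hres₂ := fun f hf => dlqlF_res_zero 𝔓 hle N' h hϖ₁ hϖ hf
  hB := by
    intro f hf
    rw [mem_dlxChart2_B] at hf ⊢
    refine ⟨?_, ?_⟩
    · have h1 := dlqlF_int 𝔓 hle (N' * 𝔓.p) hf.1
      rwa [hx₁, map_inv₀, dlqlF_X, ← hx] at h1
    · exact ⟨dlqlF_mem_inf 𝔓 hle N' h hϖ₁ hϖ hf.2.1, dlqlF_mem_zero 𝔓 hle N' h hϖ₁ hϖ hf.2.2⟩
  hGx := by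
    rw [dlxChart2_Gx, dlxChart2_Gx]

@[simp] theorem dlxLevHom1_ιF :
    (dlxLevHom1 𝔓 hle hϖ₁ hϖ N' h h49 su₁ hx₁ hxb₁ su hx hxb).ιF = dlqlF 𝔓 hle (N' * 𝔓.p) := rfl

@[simp] theorem dlxLevHom1_ιL (a : ↥(tbFix 𝔓 H₁)) :
    (dlxLevHom1 𝔓 hle hϖ₁ hϖ N' h h49 su₁ hx₁ hxb₁ su hx hxb).ιL a = t4cyInc 𝔓 hle a := rfl

@[simp] theorem dlxLevHom2_ιF :
    (dlxLevHom2 𝔓 hle hϖ₁ hϖ N' h su₁ hx₁ hxb₁ su hx hxb).ιF = dlqlF 𝔓 hle (N' * 𝔓.p) := rfl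

@[simp] theorem dlxLevHom2_ιL (a : ↥(tbFix 𝔓 H₁)) :
    (dlxLevHom2 𝔓 hle hϖ₁ hϖ N' h su₁ hx₁ hxb₁ su hx hxb).ιL a = t4cyInc 𝔓 hle a := rfl

end Fermat.Agent.Delta
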