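/-
DELTA / NODE-X (helper8): **VERT, part 3 — the exact orders of the vertical unit**
`D = Δ(q) / Δ(q ^ p)` at the two Gauss places.

* generic (`VertGen.lean` setting): `dlxvD_ord_inf : ord_{v_∞} D = 0`,
  `dlxvD_ord_zero : ord_{v_0} D = 12 · ord_{v_0} q`, and
  `dlxvD_ord_zero' : ord_{v_0} D = 12 · e` if `q = η ϖ ^ e`, `η ∈ O^×`, `ord_{v_0} ϖ = 1`;
* level `H`: `dlxVertD_ord_inf`, `dlxVertD_ord_zero`;
* **the tame level `H₁`** (`p = η (1 - ζ_p) ^ (p - 1)`): `dlxVertD_ord_zero_H1 :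
  ord_{v_0} D = 12 (p - 1)`, hence `dlxVertD_delta_H1 : ord_{v_0} D - ord_{v_∞} D = 12 (p - 1)` and
  `dlxVertD_delta_H1_not_dvd : ¬ p ∣ 12 (p - 1)` for `5 ≤ p`.
-/
import Fermat.Agent.Lib.Delta.NodeX.Vert
import Fermat.Agent.Lib.Delta.Toric.MainH
import Fermat.Agent.Lib.Delta.Node.Basic

set_option autoImplicit false
set_option linter.unusedSectionVars false
set_option linter.unusedVariables false
set_option linter.style.haveILetI false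
set_option synthInstance.maxHeartbeats 400000

open HahnSeries ModularCurve Fermat.Agent.Igusa Fermat.Agent.T1 Fermat.Agent.T2
  Fermat.Agent.T4 Fermat.Agent.TW

noncomputable section

namespace Fermat.Agent.Delta

/-! ### generic -/

section Gen

theorem dlxv_comap_val_eq_one {F : Type*} [Field F] (V : ValuationSubring F) (σ : F →+* F)
    {x : F} (hx : x ≠ 0) : (V.comap σ).valuation x = 1 ↔ V.valuation (σ x) = 1 := by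
  rw [t4vp_valuation_eq_one_iff _ hx, t4vp_valuation_eq_one_iff _ ((_root_.map_ne_zero σ).mpr hx),
    ValuationSubring.mem_comap, ValuationSubring.mem_comap, map_inv₀]

variable {L : Type*} [Field L] [Algebra ℚ L] (O : ValuationSubring L) {k : Type*} [Field k]
  (π : ↥O →+* k) [IsDiscreteValuationRing ↥O] (hπ : Function.Surjective π)

/-- **`ord_{v_∞} D = 0`** -/
theorem dlxvD_ord_inf (N : ℕ) [NeZero N] {r : ℕ} [NeZero r] (hr : r ∣ N)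
    [IsDiscreteValuationRing ↥(taOv O π hπ N)] : dlOrd (taOv O π hπ N) (dlxvD N hr) = 0 :=
  (dl_valuation_eq_one_iff _ (dlxvD_ne_zero N hr)).mp (dlxvD_val_inf O π hπ N hr)

variable {N' q : ℕ} [NeZero N'] [hq : Fact q.Prime] (W : T2iAL L N' q)

/-- `w D` is a unit at `v_0` -/
theorem dlxv_w_D_val_zero :
    (dliO0 O π hπ W).valuation (W.w (dlxvD (N' * q) (dvd_mul_left q N'))) = 1 := by
  have hD0 := dlxvD_ne_zero (L := L) (N' * q) (dvd_mul_left q N')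
  have h1 := (dlxv_comap_val_eq_one (taOv O π hπ (N' * q))
    (W.w : ↥(TaF L (N' * q)) →+* ↥(TaF L (N' * q)))
    (x := W.w (dlxvD (N' * q) (dvd_mul_left q N')))
    ((EmbeddingLike.map_ne_zero_iff (f := W.w)).mpr hD0)).mpr (by
      show (taOv O π hπ (N' * q)).valuation (W.w (W.w _)) = 1
      rw [W.w_w]
      exact dlxvD_val_inf O π hπ (N' * q) (dvd_mul_left q N'))
  exact h1

/-- **`ord_{v_0} D = 12 · ord_{v_0} q`** -/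
theorem dlxvD_ord_zero [IsDiscreteValuationRing ↥(dliO0 O π hπ W)] :
    dlOrd (dliO0 O π hπ W) (dlxvD (N' * q) (dvd_mul_left q N')) =
      12 * dlOrd (dliO0 O π hπ W) (algebraMap L ↥(TaF L (N' * q)) (q : L)) := by
  have hD0 := dlxvD_ne_zero (L := L) (N' * q) (dvd_mul_left q N')
  have hwD0 : W.w (dlxvD (N' * q) (dvd_mul_left q N')) ≠ 0 :=
    (EmbeddingLike.map_ne_zero_iff (f := W.w)).mpr hD0
  have h1 := congrArg (dlOrd (dliO0 O π hπ W)) (dlxv_w_D_mul W)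
  rw [dlOrd_mul _ hwD0 hD0, (dl_valuation_eq_one_iff _ hwD0).mp (dlxv_w_D_val_zero O π hπ W),
    zero_add, map_pow, dlOrd_pow] at h1
  rw [h1]
  norm_num

/-- units of the base are units at `v_0` -/
theorem dlxv_ord_zero_unit [IsDiscreteValuationRing ↥(dliO0 O π hπ W)] {η : L} (hη : η ∈ O)
    (hηi : η⁻¹ ∈ O) (hη0 : η ≠ 0) :
    dlOrd (dliO0 O π hπ W) (algebraMap L ↥(TaF L (N' * q)) η) = 0 := by
  have hmem : ∀ a : L, a ∈ O → algebraMap L ↥(TaF L (N' * q)) a ∈ dliO0 O π hπ W := by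
    intro a ha
    show W.w (algebraMap L ↥(TaF L (N' * q)) a) ∈ taOv O π hπ (N' * q)
    rw [W.w.commutes]
    exact algebraMap_mem_taOv O π hπ (N' * q) ⟨a, ha⟩
  rw [← dl_valuation_eq_one_iff _ ((_root_.map_ne_zero _).mpr hη0),
    t4vp_valuation_eq_one_iff _ ((_root_.map_ne_zero _).mpr hη0), ← map_inv₀]
  exact ⟨hmem _ hη, hmem _ hηi⟩

/-- **`ord_{v_0} D = 12 e`** if `q = η ϖ ^ e` with `η` a unit of `O` and `ϖ` a uniformiser at `v_0` -/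
theorem dlxvD_ord_zero' [IsDiscreteValuationRing ↥(dliO0 O π hπ W)] {η ϖ : L} {e : ℕ}
    (hqe : (q : L) = η * ϖ ^ e) (hη : η ∈ O) (hηi : η⁻¹ ∈ O)
    (hϖ : dlOrd (dliO0 O π hπ W) (algebraMap L ↥(TaF L (N' * q)) ϖ) = 1) :
    dlOrd (dliO0 O π hπ W) (dlxvD (N' * q) (dvd_mul_left q N')) = 12 * (e : ℤ) := by
  haveI := algebraRat.charZero L
  have hq0 : (q : L) ≠ 0 := Nat.cast_ne_zero.mpr hq.out.ne_zero
  have hη0 : η ≠ 0 := by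
    rintro rfl
    rw [zero_mul] at hqe
    exact hq0 hqe
  have hϖ0 : ϖ ≠ 0 := by
    rintro rfl
    rw [map_zero, dlOrd_zero] at hϖ
    exact zero_ne_one hϖ
  rw [dlxvD_ord_zero, hqe, map_mul, map_pow,
    dlOrd_mul _ ((_root_.map_ne_zero _).mpr hη0) (pow_ne_zero _ ((_root_.map_ne_zero _).mpr hϖ0)),
    dlxv_ord_zero_unit O π hπ W hη hηi hη0, dlOrd_pow, hϖ]
  ring

end Gen

/-! ### the level `H` -/

section LevelH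

attribute [local instance] t2i_dvr t2i_isAlgClosed t2i_charP t2i_fact

variable (𝔓 : FFPlace) (H : Subgroup 𝔓.I) [H.FiniteIndex] (N' : ℕ) [NeZero N'] (h : ¬ 𝔓.p ∣ N')

/-- **`ord_{v_∞} D = 0`** at the level `H` -/
theorem dlxVertD_ord_inf
    [IsDiscreteValuationRing ↥(taOv (tbFixO 𝔓 H) (tbFixRes 𝔓 H) (tbFixRes_surjective 𝔓 H)
      (N' * 𝔓.p))] :
    dlOrd (taOv (tbFixO 𝔓 H) (tbFixRes 𝔓 H) (tbFixRes_surjective 𝔓 H) (N' * 𝔓.p))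
      (dlxVertD 𝔓 H N') = 0 :=
  dlxvD_ord_inf _ _ _ _ _

/-- **`ord_{v_0} D = 12 · ord_{v_0} p`** at the level `H` -/
theorem dlxVertD_ord_zero
    [IsDiscreteValuationRing ↥(dliO0 (tbFixO 𝔓 H) (tbFixRes 𝔓 H) (tbFixRes_surjective 𝔓 H)
      (t2iALFix 𝔓 H N' h))] :
    dlOrd (dliO0 (tbFixO 𝔓 H) (tbFixRes 𝔓 H) (tbFixRes_surjective 𝔓 H) (t2iALFix 𝔓 H N' h))
      (dlxVertD 𝔓 H N') =
    12 * dlOrd (dliO0 (tbFixO 𝔓 H) (tbFixRes 𝔓 H) (tbFixRes_surjective 𝔓 H) (t2iALFix 𝔓 H N' h))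
      (algebraMap ↥(tbFix 𝔓 H) ↥(tbLevF 𝔓 (N' * 𝔓.p) H) (𝔓.p : ↥(tbFix 𝔓 H))) :=
  dlxvD_ord_zero _ _ _ (t2iALFix 𝔓 H N' h)

/-- `ord_{v_0} D = 12 e` if `p = η ϖ ^ e`, `η` a unit and `ϖ` a uniformiser of `O_H` -/
theorem dlxVertD_ord_zero_of_unif
    [IsDiscreteValuationRing ↥(dliO0 (tbFixO 𝔓 H) (tbFixRes 𝔓 H) (tbFixRes_surjective 𝔓 H)
      (t2iALFix 𝔓 H N' h))]
    {ϖ : ↥(tbFixO 𝔓 H)} (hϖ : Irreducible ϖ) {η : ↥(tbFixO 𝔓 H)} (hη : IsUnit η) {e : ℕ}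
    (hpe : (𝔓.p : ↥(tbFix 𝔓 H)) = (η : ↥(tbFix 𝔓 H)) * (ϖ : ↥(tbFix 𝔓 H)) ^ e) :
    dlOrd (dliO0 (tbFixO 𝔓 H) (tbFixRes 𝔓 H) (tbFixRes_surjective 𝔓 H) (t2iALFix 𝔓 H N' h))
      (dlxVertD 𝔓 H N') = 12 * (e : ℤ) := by
  obtain ⟨η', hη'⟩ := isUnit_iff_exists_inv.mp hη
  have hηi : ((η : ↥(tbFix 𝔓 H)))⁻¹ ∈ tbFixO 𝔓 H := by
    have h1 : (η : ↥(tbFix 𝔓 H)) * (η' : ↥(tbFix 𝔓 H)) = 1 := congrArg Subtype.val hη'
    rw [← eq_inv_of_mul_eq_one_right h1]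
    exact η'.2
  refine dlxvD_ord_zero' _ _ _ (t2iALFix 𝔓 H N' h) hpe η.2 hηi ?_
  exact dln_ord_of_unif _ ((dliZeroH 𝔓 H hϖ N' h).unif _ rfl)

end LevelH

/-! ### the tame level `H₁` -/

section Tame

attribute [local instance] t2i_dvr t2i_isAlgClosed t2i_charP t2i_fact

variable (𝔓 : FFPlace) (N' : ℕ) [NeZero N'] (h : ¬ 𝔓.p ∣ N')

/-- **`ord_{v_0} D = 12 (p - 1)`** at the tame level -/
theorem dlxVertD_ord_zero_H1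
    [IsDiscreteValuationRing ↥(dliO0 (tbFixO 𝔓 (dliH1 𝔓)) (tbFixRes 𝔓 (dliH1 𝔓))
      (tbFixRes_surjective 𝔓 (dliH1 𝔓)) (t2iALFix 𝔓 (dliH1 𝔓) N' h))] :
    dlOrd (dliO0 (tbFixO 𝔓 (dliH1 𝔓)) (tbFixRes 𝔓 (dliH1 𝔓)) (tbFixRes_surjective 𝔓 (dliH1 𝔓))
      (t2iALFix 𝔓 (dliH1 𝔓) N' h)) (dlxVertD 𝔓 (dliH1 𝔓) N') = 12 * ((𝔓.p - 1 : ℕ) : ℤ) :=
  dlxVertD_ord_zero_of_unif 𝔓 (dliH1 𝔓) N' h (dliPi1_irreducible 𝔓) (dliEta_isUnit 𝔓) (dli_p_eq 𝔓)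

/-- **`δ = ord_{v_0} D − ord_{v_∞} D = 12 (p - 1)`** at the tame level -/
theorem dlxVertD_delta_H1
    [IsDiscreteValuationRing ↥(dliO0 (tbFixO 𝔓 (dliH1 𝔓)) (tbFixRes 𝔓 (dliH1 𝔓))
      (tbFixRes_surjective 𝔓 (dliH1 𝔓)) (t2iALFix 𝔓 (dliH1 𝔓) N' h))]
    [IsDiscreteValuationRing ↥(taOv (tbFixO 𝔓 (dliH1 𝔓)) (tbFixRes 𝔓 (dliH1 𝔓))
      (tbFixRes_surjective 𝔓 (dliH1 𝔓)) (N' * 𝔓.p))] :
    dlOrd (dliO0 (tbFixO 𝔓 (dliH1 𝔓)) (tbFixRes 𝔓 (dliH1 𝔓)) (tbFixRes_surjective 𝔓 (dliH1 𝔓))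
      (t2iALFix 𝔓 (dliH1 𝔓) N' h)) (dlxVertD 𝔓 (dliH1 𝔓) N') -
    dlOrd (taOv (tbFixO 𝔓 (dliH1 𝔓)) (tbFixRes 𝔓 (dliH1 𝔓)) (tbFixRes_surjective 𝔓 (dliH1 𝔓))
      (N' * 𝔓.p)) (dlxVertD 𝔓 (dliH1 𝔓) N') = 12 * ((𝔓.p - 1 : ℕ) : ℤ) := by
  rw [dlxVertD_ord_zero_H1, dlxVertD_ord_inf, sub_zero]

/-- `p ∤ 12 (p - 1)` for `p ≥ 5` -/
theorem dlxVertD_delta_H1_not_dvd (hp5 : 5 ≤ 𝔓.p) : ¬ (𝔓.p : ℤ) ∣ 12 * ((𝔓.p - 1 : ℕ) : ℤ) := by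
  have hp := 𝔓.hp
  intro hd
  have hd' : 𝔓.p ∣ 12 * (𝔓.p - 1) := by exact_mod_cast hd
  rcases (Nat.Prime.dvd_mul hp).mp hd' with h1 | h1
  · have := Nat.le_of_dvd (by norm_num) h1
    interval_cases h𝔓 : 𝔓.p <;> simp_all (config := {decide := true})
  · have := Nat.le_of_dvd (by omega) h1
    omega

end Tame

end Fermat.Agent.Delta
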