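/-
DELTA / NODE-X (helper2), part 4: **the semilocal ring at the nodes of a chart** — helper9's
`DliNod` (Toric/Const.lean).

`C.On = ⋂_{s ∈ nodes} (P.B)_{𝔫_s}` and `C.toNod hne : DliNod g₁ g₂` (`hne : C.G.nodes.Nonempty`),
with `C.toNod_On`, `C.On_le_A₁` (every element of `On` lies in the local ring at every node) and
`C.isUnit_of_mem_On` (`w, w⁻¹ ∈ On` ⇒ unit of every local ring).
-/
import Fermat.Agent.Lib.Delta.NodeX.Local
import Fermat.Agent.Lib.Delta.Toric.Const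

set_option autoImplicit false
set_option linter.unusedSectionVars false
set_option linter.unusedVariables false
set_option linter.style.haveILetI false

namespace Fermat.Agent.Delta

open AlgebraicCurve Fermat.Agent.Curve Fermat.Agent.Curve.PlaceAux Fermat.Agent.T1 Fermat.Agent.T2
  Fermat.Agent.T4

variable {L k : Type*} [Field L] [Field k] {B : DlBase L k} {F κ₁ κ₂ : Type*} [Field F]
  [Algebra L F] [Field κ₁] [Algebra k κ₁] [Field κ₂] [Algebra k κ₂] [IsAlgClosed k]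

namespace DlxChart

variable {g₁ : DlPlace B F κ₁} {g₂ : DlPlace B F κ₂} {σ : Type*} [Fintype σ]
  (C : DlxChart g₁ g₂ σ)

/-- the semilocal ring at the nodes -/
noncomputable def On : Subring F where
  carrier := {f | ∀ (s : Place k κ₁ × Place k κ₂) (hs : s ∈ C.G.nodes),
    f ∈ C.A₁ s.1 (C.node_fin₁ hs)}
  mul_mem' := fun hf hg s hs => Subring.mul_mem _ (hf s hs) (hg s hs)
  one_mem' := fun s hs => Subring.one_mem _
  add_mem' := fun hf hg s hs => Subring.add_mem _ (hf s hs) (hg s hs)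
  zero_mem' := fun s hs => Subring.zero_mem _
  neg_mem' := fun hf s hs => Subring.neg_mem _ (hf s hs)

theorem mem_On {f : F} : f ∈ C.On ↔ ∀ (s : Place k κ₁ × Place k κ₂) (hs : s ∈ C.G.nodes),
    f ∈ C.A₁ s.1 (C.node_fin₁ hs) := Iff.rfl

theorem On_le_A₁ {f : F} (hf : f ∈ C.On) {s : Place k κ₁ × Place k κ₂} (hs : s ∈ C.G.nodes) :
    f ∈ C.A₁ s.1 (C.node_fin₁ hs) := hf s hs

theorem B_le_On : C.P.B ≤ C.On := fun _ hf s hs => C.P.B_le_loc _ hf

/-- **the semilocal ring at the nodes as a `DliNod`** -/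
noncomputable def toNod (hne : C.G.nodes.Nonempty) : DliNod g₁ g₂ where
  On := C.On
  le₁ := fun f hf => C.A₁_le₁ _ _ (hf _ hne.choose_spec)
  le₂ := fun f hf => C.A₁_le₂ hne.choose_spec (hf _ hne.choose_spec)
  algebraMap_mem := fun a => C.B_le_On (C.algebraMap_mem_B a)
  div_pi := by
    intro b hb h1 h2
    have hv1 : C.V₁.valuation b < 1 := (dlx_res_eq_zero_iff g₁ C.V₁ C.hV₁ _).mp h1
    have hv2 : C.V₂.valuation b < 1 := (dlx_res_eq_zero_iff g₂ C.V₂ C.hV₂ _).mp h2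
    refine ⟨b / g₁.pi, fun s hs => C.div_pi_mem_A₁_node hs (hb s hs) hv1 hv2, ?_⟩
    rw [mul_div_cancel₀ _ g₁.pi_ne_zero]
  glue_const := by
    intro b hb c₁ c₂ h1 h2
    set s := hne.choose with hs'
    have hs : s ∈ C.G.nodes := hne.choose_spec
    have hv := C.lres₂_val hs ⟨b, hb s hs⟩
    have h3 : C.lev₁ s.1 (C.node_fin₁ hs) ⟨b, hb s hs⟩ = c₁ := by
      rw [lev₁_eq_iff, lres₁_apply]
      show DlgVal s.1 (g₁.res ⟨b, _⟩) c₁
      rw [h1]
      exact DlgVal.const _ _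
    rw [h3, lres₂_apply] at hv
    have hv' : DlgVal s.2 (g₂.res ⟨b, C.A₁_le₂ hs (hb s hs)⟩) c₁ := hv
    rw [h2] at hv'
    exact hv'.unique (DlgVal.const _ _)
  inv_mem := by
    intro a ha h1 h2 s hs
    have h3 : C.lev₁ s.1 (C.node_fin₁ hs) ⟨a, ha s hs⟩ = 1 := by
      rw [lev₁_eq_iff, lres₁_apply]
      show DlgVal s.1 (g₁.res ⟨a, _⟩) 1
      rw [h1]
      exact DlgVal.one _
    have hu : IsUnit (⟨a, ha s hs⟩ : ↥(C.A₁ s.1 (C.node_fin₁ hs))) := by
      rw [isUnit_A₁_iff, h3]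
      exact one_ne_zero
    obtain ⟨a', ha'⟩ := isUnit_iff_exists_inv.mp hu
    have h4 : a * (a' : F) = 1 := congrArg Subtype.val ha'
    have h5 : a⁻¹ = (a' : F) := by
      rw [eq_comm, ← mul_eq_one_iff_eq_inv₀ (left_ne_zero_of_mul_eq_one h4), mul_comm]
      exact h4
    rw [h5]
    exact a'.2

@[simp] theorem toNod_On (hne : C.G.nodes.Nonempty) : (C.toNod hne).On = C.On := rfl

/-- an invertible element of `On` is a unit of the local ring at every node -/
theorem isUnit_of_mem_On {w : F} (hw : w ∈ C.On) (hwi : w⁻¹ ∈ C.On) (hw0 : w ≠ 0)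
    {s : Place k κ₁ × Place k κ₂} (hs : s ∈ C.G.nodes) :
    IsUnit (⟨w, hw s hs⟩ : ↥(C.A₁ s.1 (C.node_fin₁ hs))) := by
  refine isUnit_iff_exists_inv.mpr ⟨⟨w⁻¹, hwi s hs⟩, Subtype.ext ?_⟩
  show w * w⁻¹ = 1
  exact mul_inv_cancel₀ hw0

end DlxChart

end Fermat.Agent.Delta
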