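/-
DELTA / NODE-X (helper8): **(HOR-COVER) — the horizontal orders of a function on the cover**.

The hypothesis `hhor` of helper2's `dlq_core_node` (`Core/NodeAbs.lean`): for `z'` on the cover
`F'` (constants `L`) with `Ψ z' = zx · ρ ^ p` in a function field `R / Kb` (`Kb / L` algebraic, `R`
finite over `Fb ∋ zx`, generated by `Ψ(F')` and `Kb`) and `p ∣ div zx` on `Fb / Kb`:
`p ∣ ord_V z'` at every discrete valuation ring `V ⊇ L` of `F'`.

* `dlxc_isFunctionFieldGen_tower` : a finite extension of a function field is a function field;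
* `dlxc_exists_place` : `V` lies under a place `w` of `R / Kb` with `w.ord (Ψ f) = dlOrd V f`
  (`t4ru_exists_extension`, `t4ruPlace`, helper9's `dlb_ord_comap`: constant field extensions are
  unramified);
* `dlxc_dvd_of_rel` : `p ∣ w.ord (zx · ρ ^ p)` (Prelude `Place.ord_restrict`);
* **`dlxc_hor_abs`** : the abstract statement; `DlLocal.hor_const`, **`dlxc_hhor`** : the literal
  `hhor` binder for a `DlLocal`;
* `dlxc_gen_cover` : the generation hypothesis for covers `F' = F[y]`, `R = Fb[Ψ y]`;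
* **`dlxc_hor_fix`** : the modular instance (`L = K_H`, `Kb = ℚ̄`, `Fb = F_{ℚ̄}(N)`, `φ = tbPhiF`);
  `dlxc_hor_cover` (two `DlyCover`s), `dlxc_hor_root` (`F' = DlyRoot p Z`, `R = DlyRoot p (Φ Z)`);
* `dlxc_zx_level`, **`dlxc_hor_lev`** : the two-level instance (`Kb = K_H`, `Fb = F_H(N)`, `R = F'_H`,
  `Ψ = ιF'` of `dlq_core_node`);
* `dlxc_rel_comp`, **`dlxc_hhor_cover`**, **`dlxc_hhor_lev`** : the literal `hhor` binders.
-/
import Fermat.Agent.Lib.Delta.BaseChange.Unr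
import Fermat.Agent.Lib.T4.Reg.UnrCfe
import Fermat.Agent.Lib.Delta.Node.Basic
import Fermat.Agent.Lib.Delta.Cover.Root

set_option autoImplicit false
set_option linter.style.haveILetI false
set_option linter.unusedSectionVars false
set_option linter.unusedVariables false

namespace Fermat.Agent.Delta

open AlgebraicCurve Fermat.Agent.Curve Fermat.Agent.T4 Polynomial

section Tower

variable {K F E : Type*} [Field K] [Field F] [Field E] [Algebra K F] [Algebra K E] [Algebra F E]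
  [IsScalarTower K F E]

/-- a finite extension of a function field is a function field (same generator) -/
theorem dlxc_isFunctionFieldGen_tower [FiniteDimensional F E] {x : F}
    (hx : IsFunctionFieldGen K F x) : IsFunctionFieldGen K E (algebraMap F E x) := by
  refine ⟨(transcendental_algebraMap_iff (FaithfulSMul.algebraMap_injective F E)).mpr
    hx.transcendental, ?_⟩
  haveI := hx.finite
  set f : F →ₐ[K] E := IsScalarTower.toAlgHom K F E with hf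
  set Kx : IntermediateField K F := IntermediateField.adjoin K {x} with hKx
  have hmap : Kx.map f = IntermediateField.adjoin K {algebraMap F E x} := by
    rw [hKx, IntermediateField.adjoin_map, Set.image_singleton]
    rfl
  haveI : Module.Finite Kx E := Module.Finite.trans F E
  let e₁ : Kx ≃+* (IntermediateField.adjoin K {algebraMap F E x} : IntermediateField K E) :=
    ((Kx.equivMap f).trans (IntermediateField.equivOfEq hmap)).toRingEquiv
  refine Module.Finite.of_equiv_equiv e₁ (RingEquiv.refl E) ?_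
  ext a
  rfl

end Tower

section Abs

variable {L F' Kb R : Type*} [Field L] [CharZero L] [Field F'] [Algebra L F'] [Field Kb]
  [Algebra L Kb] [Algebra.IsAlgebraic L Kb] [Field R] [Algebra Kb R]
  (Ψ : F' →+* R) (hΨ : ∀ c : L, Ψ (algebraMap L F' c) = algebraMap Kb R (algebraMap L Kb c))
  (hgen : ∀ y : R, y ∈ Subfield.closure (Set.range Ψ ∪ Set.range (algebraMap Kb R)))
  {x' : R} (hx' : IsFunctionFieldGen Kb R x')
  (V : ValuationSubring F') [IsDiscreteValuationRing V] (hL : ∀ c : L, algebraMap L F' c ∈ V)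

include hΨ hgen hx' hL in
/-- **a discrete valuation ring of `F'` containing the constants `L` lies under a place of the
function field `R / Kb` with the same order function** -/
theorem dlxc_exists_place :
    ∃ w : Place Kb R, (∀ f : F', w.ord (Ψ f) = dlOrd V f) ∧
      V = w.toValuationSubring.comap Ψ := by
  classical
  haveI : CharZero Kb := charZero_of_injective_algebraMap (algebraMap L Kb).injective
  letI : Algebra L R := ((algebraMap Kb R).comp (algebraMap L Kb)).toAlgebra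
  haveI : IsScalarTower L Kb R := IsScalarTower.of_algebraMap_eq fun _ => rfl
  obtain ⟨W, hVW⟩ := t4ru_exists_extension Ψ V
  have hLW : ∀ c : L, algebraMap L R c ∈ W := by
    intro c
    have h1 : algebraMap L R c = Ψ (algebraMap L F' c) := (hΨ c).symm
    rw [h1, ← hVW]
    exact hL c
  have hint : ∀ c : Kb, IsIntegral L (algebraMap Kb R c) := fun c =>
    (Algebra.IsIntegral.isIntegral (R := L) c).map (IsScalarTower.toAlgHom L Kb R)
  have hKW : ∀ c : Kb, algebraMap Kb R c ∈ W := fun c =>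
    t4ru_mem_of_isIntegral W (R := L) hLW (hint c)
  have hWtop : W ≠ ⊤ := by
    intro htop
    obtain ⟨π, hπ⟩ := IsDiscreteValuationRing.exists_irreducible ↥V
    have hπ0 : (π : F') ≠ 0 := fun h => hπ.ne_zero (Subtype.ext h)
    have h1 : (π : F')⁻¹ ∈ V := by
      rw [hVW, htop]
      exact ValuationSubring.mem_top _
    apply hπ.not_isUnit
    refine isUnit_iff_exists_inv.mpr ⟨⟨_, h1⟩, Subtype.ext ?_⟩
    show (π : F') * (π : F')⁻¹ = 1
    exact mul_inv_cancel₀ hπ0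
  set w : Place Kb R := t4ruPlace hx' W hKW hWtop with hw
  have hVeq : V = w.toValuationSubring.comap Ψ := by
    ext y
    rw [ValuationSubring.mem_comap]
    exact hVW y
  refine ⟨w, fun f => ?_, hVeq⟩
  have h2 := dlb_ord_comap (L := L) Ψ (fun c => hΨ c) w.toValuationSubring V hVeq hL
    (Set.range (algebraMap Kb R)) (by rintro _ ⟨c, rfl⟩; exact hint c) hgen f
  exact h2

end Abs

section Rel

variable {Kb Fb R : Type*} [Field Kb] [Field Fb] [Algebra Kb Fb] [Field R] [Algebra Kb R]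
  [Algebra Fb R] [IsScalarTower Kb Fb R] [Algebra.IsIntegral Fb R]

/-- orders of a function of `Fb` at a place of a finite extension `R` -/
theorem dlxc_dvd_algebraMap (w : Place Kb R) {p : ℕ} {zx : Fb}
    (hzx : ∀ v : Place Kb Fb, (p : ℤ) ∣ v.ord zx) : (p : ℤ) ∣ w.ord (algebraMap Fb R zx) := by
  rw [w.ord_restrict (F := Fb) zx]
  exact Dvd.dvd.mul_left (hzx _) _

/-- `zx · ρ ^ p` has all orders divisible by `p` on `R` if `zx` has on `Fb` -/
theorem dlxc_dvd_of_rel (w : Place Kb R) {p : ℕ} {zx : Fb} (ρ : R)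
    (hzx : ∀ v : Place Kb Fb, (p : ℤ) ∣ v.ord zx) :
    (p : ℤ) ∣ w.ord (algebraMap Fb R zx * ρ ^ p) := by
  rcases eq_or_ne zx 0 with rfl | hz0
  · rw [map_zero, zero_mul, w.ord_zero]
    exact dvd_zero _
  rcases eq_or_ne ρ 0 with rfl | hρ0
  · rcases Nat.eq_zero_or_pos p with rfl | hp
    · rw [pow_zero, mul_one]
      exact dlxc_dvd_algebraMap w hzx
    · rw [zero_pow hp.ne', mul_zero, w.ord_zero]
      exact dvd_zero _
  have h1 : algebraMap Fb R zx ≠ 0 := (_root_.map_ne_zero _).mpr hz0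
  rw [w.ord_mul h1 (pow_ne_zero _ hρ0)]
  refine dvd_add (dlxc_dvd_algebraMap w hzx) ?_
  have h2 := w.ord_zpow ρ (p : ℤ)
  rw [zpow_natCast] at h2
  rw [h2]
  exact dvd_mul_right _ _

end Rel

section Hor

variable {L F : Type*} [Field L] [Field F] [Algebra L F] (𝒩 : DlLocal L F)

/-- **the horizontal valuation rings contain the constants** -/
theorem DlLocal.hor_const {V : ValuationSubring F} (hV : V ∈ 𝒩.hor) (c : L) :
    algebraMap L F c ∈ V := by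
  rcases eq_or_ne c 0 with rfl | hc
  · rw [map_zero]; exact V.zero_mem
  have h1 : dlOrd 𝒩.O 𝒩.ϖ = 1 := dln_ord_of_unif 𝒩.O 𝒩.hϖ
  obtain ⟨u, hu, hcu⟩ := dl_exists_unit_mul_zpow 𝒩.O h1 hc
  have huO : u ∈ 𝒩.O := (𝒩.O.valuation_le_one_iff u).mp hu.le
  have huV : algebraMap L F u ∈ V := 𝒩.P.B_le hV.1 (𝒩.O_le u huO)
  have hπV : V.valuation (algebraMap L F 𝒩.ϖ) = 1 := 𝒩.hor_ϖ V hV.1 hV.2.1 hV.2.2
  have h2 : V.valuation (algebraMap L F 𝒩.ϖ ^ dlOrd 𝒩.O c) = 1 := by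
    rw [map_zpow₀, hπV, one_zpow]
  rw [hcu, map_mul, map_zpow₀]
  exact V.mul_mem _ _ huV ((V.valuation_le_one_iff _).mp h2.le)

end Hor

section Main

variable {L F' Kb Fb R : Type*} [Field L] [CharZero L] [Field F'] [Algebra L F'] [Field Kb]
  [Algebra L Kb] [Algebra.IsAlgebraic L Kb] [Field Fb] [Algebra Kb Fb] [Field R] [Algebra Kb R]
  [Algebra Fb R] [IsScalarTower Kb Fb R] [FiniteDimensional Fb R]
  (Ψ : F' →+* R) (hΨ : ∀ c : L, Ψ (algebraMap L F' c) = algebraMap Kb R (algebraMap L Kb c))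
  (hgen : ∀ y : R, y ∈ Subfield.closure (Set.range Ψ ∪ Set.range (algebraMap Kb R)))
  {x : Fb} (hx : IsFunctionFieldGen Kb Fb x)

include hΨ hgen hx in
/-- **(HOR-COVER), abstract form**: `Ψ z' = zx · ρ ^ p` with `p ∣ div zx` gives `p ∣ ord_V z'` at
every discrete valuation ring `V` of `F'` containing the constants -/
theorem dlxc_hor_abs (V : ValuationSubring F') [IsDiscreteValuationRing V]
    (hL : ∀ c : L, algebraMap L F' c ∈ V) {p : ℕ} {z' : F'} {zx : Fb} {ρ : R}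
    (hrel : Ψ z' = algebraMap Fb R zx * ρ ^ p) (hzx : ∀ v : Place Kb Fb, (p : ℤ) ∣ v.ord zx) :
    (p : ℤ) ∣ dlOrd V z' := by
  haveI : Algebra.IsIntegral Fb R := Algebra.IsIntegral.of_finite Fb R
  obtain ⟨w, hw, -⟩ := dlxc_exists_place Ψ hΨ hgen (dlxc_isFunctionFieldGen_tower (E := R) hx) V hL
  rw [← hw, hrel]
  exact dlxc_dvd_of_rel w ρ hzx

include hΨ hgen hx in
/-- **(HOR-COVER)**: the hypothesis `hhor` of `dlq_core_node`, literally -/
theorem dlxc_hhor (𝒩 : DlLocal L F') {p : ℕ} {z' : F'} {zx : Fb} {ρ : R}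
    (hrel : Ψ z' = algebraMap Fb R zx * ρ ^ p) (hzx : ∀ v : Place Kb Fb, (p : ℤ) ∣ v.ord zx) :
    ∀ (V : ValuationSubring F') (hV : V ∈ 𝒩.hor),
      (p : ℤ) ∣ (haveI := 𝒩.P.dvr V hV.1; dlOrd V z') := by
  intro V hV
  haveI := 𝒩.P.dvr V hV.1
  exact dlxc_hor_abs Ψ hΨ hgen hx V (𝒩.hor_const hV) hrel hzx

end Main

section Gen

variable {F F' Kb Fb R : Type*} [Field F] [Field F'] [Algebra F F'] [Field Kb] [Field Fb]
  [Algebra Kb Fb] [Field R] [Algebra Kb R] [Algebra Fb R] [IsScalarTower Kb Fb R]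

/-- generation of the cover `R = Fb[Ψ y]` by the image of `F' = F[y]` and the constants -/
theorem dlxc_gen_cover (φ : F →+* Fb) (Ψ : F' →+* R)
    (hsq : ∀ f : F, Ψ (algebraMap F F' f) = algebraMap Fb R (φ f))
    (hφ : ∀ g : Fb, g ∈ Subfield.closure (Set.range φ ∪ Set.range (algebraMap Kb Fb)))
    (y : F') (hy : ∀ g : R, ∃ T : Fb[X], aeval (Ψ y) T = g) (g : R) :
    g ∈ Subfield.closure (Set.range Ψ ∪ Set.range (algebraMap Kb R)) := by
  set S : Subfield R := Subfield.closure (Set.range Ψ ∪ Set.range (algebraMap Kb R)) with hS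
  have h1 : ∀ b : Fb, algebraMap Fb R b ∈ S := by
    intro b
    have hle : Subfield.closure (Set.range φ ∪ Set.range (algebraMap Kb Fb)) ≤
        S.comap (algebraMap Fb R) := by
      rw [Subfield.closure_le]
      rintro _ (⟨f, rfl⟩ | ⟨c, rfl⟩)
      · show algebraMap Fb R (φ f) ∈ S
        rw [← hsq]
        exact Subfield.subset_closure (Or.inl ⟨_, rfl⟩)
      · show algebraMap Fb R (algebraMap Kb Fb c) ∈ S
        rw [← IsScalarTower.algebraMap_apply]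
        exact Subfield.subset_closure (Or.inr ⟨_, rfl⟩)
    exact hle (hφ b)
  have h2 : Ψ y ∈ S := Subfield.subset_closure (Or.inl ⟨_, rfl⟩)
  obtain ⟨T, rfl⟩ := hy g
  rw [aeval_eq_sum_range]
  refine Subfield.sum_mem _ fun i _ => ?_
  rw [Algebra.smul_def]
  exact S.mul_mem (h1 _) (S.pow_mem h2 i)

end Gen

section Modular

open ModularCurve Fermat.Agent.T1 Fermat.Agent.T1.KMod Fermat.Agent.TW

local notation "Qb" => AlgebraicClosure ℚ

variable (𝔓 : FFPlace) (H : Subgroup 𝔓.I) (N : ℕ) [NeZero N]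

/-- `F_{ℚ̄}(N)` is generated by the image of `F_H(N)` and the constants -/
theorem dlxc_gen_fix (g : ↥(modularFunctionFieldBar N)) :
    g ∈ Subfield.closure (Set.range (tbPhiF 𝔓 N H) ∪
      Set.range (algebraMap Qb ↥(modularFunctionFieldBar N))) := by
  obtain ⟨ω₀, P, hP⟩ := t4ru_exists_poly ↥(tbFix 𝔓 H) N g
  rw [hP, eval₂_eq_sum_range]
  refine Subfield.sum_mem _ fun i _ => ?_
  refine mul_mem ?_ (pow_mem ?_ i)
  · exact Subfield.subset_closure (Or.inl ⟨P.coeff i, rfl⟩)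
  · exact Subfield.subset_closure (Or.inr ⟨ω₀, rfl⟩)

variable {F' R : Type*} [Field F'] [Field R] [Algebra ↥(tbLevF 𝔓 N H) F']
  [Algebra ↥(modularFunctionFieldBar N) R] [FiniteDimensional ↥(modularFunctionFieldBar N) R]
  (Ψ : F' →+* R)
  (hsq : ∀ f : ↥(tbLevF 𝔓 N H),
    Ψ (algebraMap ↥(tbLevF 𝔓 N H) F' f) = algebraMap ↥(modularFunctionFieldBar N) R (tbPhiF 𝔓 N H f))
  (y : F') (hy : ∀ g : R, ∃ T : (↥(modularFunctionFieldBar N))[X], aeval (Ψ y) T = g)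

include hsq hy in
/-- **(HOR-COVER), modular instance**: `F'` a cover of `F_H(N)`, `R` a cover of `F_{ℚ̄}(N)`
generated by `Ψ y`, `Ψ` compatible with `tbPhiF` -/
theorem dlxc_hor_fix (V : ValuationSubring F') [IsDiscreteValuationRing V]
    (hL : ∀ c : ↥(tbFix 𝔓 H),
      algebraMap ↥(tbLevF 𝔓 N H) F' (algebraMap ↥(tbFix 𝔓 H) ↥(tbLevF 𝔓 N H) c) ∈ V)
    {p : ℕ} {z' : F'} {zx : ↥(modularFunctionFieldBar N)} {ρ : R}
    (hrel : Ψ z' = algebraMap ↥(modularFunctionFieldBar N) R zx * ρ ^ p)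
    (hzx : ∀ P : Place Qb ↥(modularFunctionFieldBar N), (p : ℤ) ∣ P.ord zx) :
    (p : ℤ) ∣ dlOrd V z' := by
  letI : Algebra ↥(tbFix 𝔓 H) F' :=
    ((algebraMap ↥(tbLevF 𝔓 N H) F').comp (algebraMap ↥(tbFix 𝔓 H) ↥(tbLevF 𝔓 N H))).toAlgebra
  letI : Algebra Qb R :=
    ((algebraMap ↥(modularFunctionFieldBar N) R).comp
      (algebraMap Qb ↥(modularFunctionFieldBar N))).toAlgebra
  haveI : IsScalarTower Qb ↥(modularFunctionFieldBar N) R :=
    IsScalarTower.of_algebraMap_eq fun _ => rfl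
  haveI : Algebra.IsAlgebraic ℚ Qb := AlgebraicClosure.isAlgebraic ℚ
  haveI : Algebra.IsAlgebraic ↥(tbFix 𝔓 H) Qb := Algebra.IsAlgebraic.tower_top (K := ℚ) ↥(tbFix 𝔓 H)
  haveI : CharZero ↥(tbFix 𝔓 H) := algebraRat.charZero ↥(tbFix 𝔓 H)
  have hΨ : ∀ c : ↥(tbFix 𝔓 H), Ψ (algebraMap ↥(tbFix 𝔓 H) F' c) =
      algebraMap Qb R (algebraMap ↥(tbFix 𝔓 H) Qb c) := by
    intro c
    show Ψ (algebraMap ↥(tbLevF 𝔓 N H) F' (algebraMap ↥(tbFix 𝔓 H) ↥(tbLevF 𝔓 N H) c)) =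
      algebraMap ↥(modularFunctionFieldBar N) R
        (algebraMap Qb ↥(modularFunctionFieldBar N) (algebraMap ↥(tbFix 𝔓 H) Qb c))
    rw [hsq]
    exact congrArg _ (t4ruBc_algebraMap ↥(tbFix 𝔓 H) N c)
  have hgen := dlxc_gen_cover (Kb := Qb) (tbPhiF 𝔓 N H) Ψ hsq (dlxc_gen_fix 𝔓 H N) y hy
  exact dlxc_hor_abs (L := ↥(tbFix 𝔓 H)) (Kb := Qb) Ψ hΨ hgen
    (Fermat.Agent.S24Lib.isFunctionFieldGen_jBar N) V hL hrel hzx

end Modular

section Covers

open ModularCurve Fermat.Agent.T1 Fermat.Agent.T1.KMod Fermat.Agent.TW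

local notation "Qb" => AlgebraicClosure ℚ

/-- a cyclic cover is a finite extension -/
theorem DlyCover.finite {p : ℕ} {F F' : Type*} [Field F] [Field F'] [Algebra F F']
    (C : DlyCover p F F') : Module.Finite F F' := by
  have hint : IsIntegral F C.y := ⟨C.P₀, C.P₀_monic, by rw [← aeval_def]; exact C.aeval_y_P₀⟩
  have h1 := hint.fg_adjoin_singleton
  have h2 : Algebra.adjoin F {C.y} = ⊤ := by
    rw [eq_top_iff]
    intro f _
    obtain ⟨T, rfl⟩ := C.gen f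
    exact aeval_mem_adjoin_singleton F C.y
  rw [h2, Algebra.top_toSubmodule] at h1
  exact Module.finite_def.mpr h1

variable (𝔓 : FFPlace) (H : Subgroup 𝔓.I) (N : ℕ) [NeZero N]

/-- **(HOR-COVER) for cyclic covers**: `C₁` a cyclic cover of `F_H(N)`, `C₂` a cyclic cover of
`F_{ℚ̄}(N)`, `Ψ` compatible with `tbPhiF` and the Kummer generators -/
theorem dlxc_hor_cover {p : ℕ} {F' R : Type*} [Field F'] [Field R] [Algebra ↥(tbLevF 𝔓 N H) F']
    [Algebra ↥(modularFunctionFieldBar N) R] (C₁ : DlyCover p ↥(tbLevF 𝔓 N H) F')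
    (C₂ : DlyCover p ↥(modularFunctionFieldBar N) R) (Ψ : F' →+* R)
    (hsq : ∀ f : ↥(tbLevF 𝔓 N H), Ψ (algebraMap ↥(tbLevF 𝔓 N H) F' f) =
      algebraMap ↥(modularFunctionFieldBar N) R (tbPhiF 𝔓 N H f))
    (hy : Ψ C₁.y = C₂.y) (V : ValuationSubring F') [IsDiscreteValuationRing V]
    (hL : ∀ c : ↥(tbFix 𝔓 H),
      algebraMap ↥(tbLevF 𝔓 N H) F' (algebraMap ↥(tbFix 𝔓 H) ↥(tbLevF 𝔓 N H) c) ∈ V)
    {z' : F'} {zx : ↥(modularFunctionFieldBar N)} {ρ : R}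
    (hrel : Ψ z' = algebraMap ↥(modularFunctionFieldBar N) R zx * ρ ^ p)
    (hzx : ∀ P : Place Qb ↥(modularFunctionFieldBar N), (p : ℤ) ∣ P.ord zx) :
    (p : ℤ) ∣ dlOrd V z' := by
  haveI : FiniteDimensional ↥(modularFunctionFieldBar N) R := C₂.finite
  refine dlxc_hor_fix 𝔓 H N Ψ hsq C₁.y (fun g => ?_) V hL hrel hzx
  rw [hy]
  exact C₂.gen g

/-- **(HOR-COVER) for the models** `F' = F_H(N)[X] ⧸ (X ^ p - Z)`, `R = F_{ℚ̄}(N)[X] ⧸ (X ^ p - Φ Z)` -/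
theorem dlxc_hor_root {p : ℕ} (hp : p ≠ 0) (Z : ↥(tbLevF 𝔓 N H))
    [Fact (Irreducible (X ^ p - C Z : (↥(tbLevF 𝔓 N H))[X]))]
    [Fact (Irreducible (X ^ p - C (tbPhiF 𝔓 N H Z) : (↥(modularFunctionFieldBar N))[X]))]
    (V : ValuationSubring (DlyRoot p Z)) [IsDiscreteValuationRing V]
    (hL : ∀ c : ↥(tbFix 𝔓 H),
      algebraMap ↥(tbLevF 𝔓 N H) (DlyRoot p Z)
        (algebraMap ↥(tbFix 𝔓 H) ↥(tbLevF 𝔓 N H) c) ∈ V)
    {z' : DlyRoot p Z} {zx : ↥(modularFunctionFieldBar N)} {ρ : DlyRoot p (tbPhiF 𝔓 N H Z)}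
    (hrel : dlyRootMap p (tbPhiF 𝔓 N H) Z z' =
      algebraMap ↥(modularFunctionFieldBar N) (DlyRoot p (tbPhiF 𝔓 N H Z)) zx * ρ ^ p)
    (hzx : ∀ P : Place Qb ↥(modularFunctionFieldBar N), (p : ℤ) ∣ P.ord zx) :
    (p : ℤ) ∣ dlOrd V z' := by
  haveI : FiniteDimensional ↥(modularFunctionFieldBar N) (DlyRoot p (tbPhiF 𝔓 N H Z)) :=
    (monic_X_pow_sub_C _ hp).finite_adjoinRoot
  refine dlxc_hor_fix 𝔓 H N (dlyRootMap p (tbPhiF 𝔓 N H) Z)
    (dlyRootMap_algebraMap p (tbPhiF 𝔓 N H) Z) (AdjoinRoot.root _) (fun g => ?_) V hL hrel hzx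
  rw [dlyRootMap_root]
  obtain ⟨T, rfl⟩ := AdjoinRoot.mk_surjective g
  exact ⟨T, AdjoinRoot.aeval_eq T⟩

end Covers

section Level

open ModularCurve Fermat.Agent.T1 Fermat.Agent.T1.KMod Fermat.Agent.TW

local notation "Qb" => AlgebraicClosure ℚ

variable (𝔓 : FFPlace) (H : Subgroup 𝔓.I) (N : ℕ) [NeZero N]

/-- divisibility of the divisor over `ℚ̄` gives divisibility of the divisor at the level `H` -/
theorem dlxc_zx_level {p : ℕ} {zx : ↥(tbLevF 𝔓 N H)}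
    (hzx : ∀ P : Place Qb ↥(modularFunctionFieldBar N), (p : ℤ) ∣ P.ord (tbPhiF 𝔓 N H zx))
    (v : Place ↥(tbFix 𝔓 H) ↥(tbLevF 𝔓 N H)) : (p : ℤ) ∣ v.ord zx := by
  obtain ⟨P, hP⟩ := t4ru_cfe_fix 𝔓 H N v
  rw [← hP]
  exact hzx P

/-- **(HOR-COVER), two levels**: literally the shape of `dlq_core_node`: `z'` on the cover `F'₁` at the
level `L₁`, `ιF' z' = zx · r ^ p` on the cover `F'₂` of `F_H(N)`, `p ∣ div (Φ zx)` over `ℚ̄` -/
theorem dlxc_hor_lev {L₁ F'₁ F'₂ : Type*} [Field L₁] [CharZero L₁] [Field F'₁] [Algebra L₁ F'₁]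
    [Algebra L₁ ↥(tbFix 𝔓 H)] [Algebra.IsAlgebraic L₁ ↥(tbFix 𝔓 H)] [Field F'₂]
    [Algebra ↥(tbLevF 𝔓 N H) F'₂] [Algebra ↥(tbFix 𝔓 H) F'₂]
    [IsScalarTower ↥(tbFix 𝔓 H) ↥(tbLevF 𝔓 N H) F'₂] [FiniteDimensional ↥(tbLevF 𝔓 N H) F'₂]
    (ιF' : F'₁ →+* F'₂)
    (hι : ∀ c : L₁, ιF' (algebraMap L₁ F'₁ c) =
      algebraMap ↥(tbFix 𝔓 H) F'₂ (algebraMap L₁ ↥(tbFix 𝔓 H) c))
    (hgen : ∀ y : F'₂, y ∈ Subfield.closure (Set.range ιF' ∪
      Set.range (algebraMap ↥(tbFix 𝔓 H) F'₂)))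
    (V : ValuationSubring F'₁) [IsDiscreteValuationRing V]
    (hL : ∀ c : L₁, algebraMap L₁ F'₁ c ∈ V) {p : ℕ} {z' : F'₁} {zx : ↥(tbLevF 𝔓 N H)} {r : F'₂}
    (hrel : ιF' z' = algebraMap ↥(tbLevF 𝔓 N H) F'₂ zx * r ^ p)
    (hzx : ∀ P : Place Qb ↥(modularFunctionFieldBar N), (p : ℤ) ∣ P.ord (tbPhiF 𝔓 N H zx)) :
    (p : ℤ) ∣ dlOrd V z' :=
  dlxc_hor_abs ιF' hι hgen (t4ru_isFunctionFieldGen ↥(tbFix 𝔓 H) N) V hL hrel
    (dlxc_zx_level 𝔓 H N hzx)

end Level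

section Literal

open ModularCurve Fermat.Agent.T1 Fermat.Agent.T1.KMod Fermat.Agent.TW

local notation "Qb" => AlgebraicClosure ℚ

variable (𝔓 : FFPlace) (H : Subgroup 𝔓.I) (N : ℕ) [NeZero N]

/-- the relation `ιF' z' = zx · r ^ p` pushed forward along `Ψ₂` -/
theorem dlxc_rel_comp {F'₁ F₂ F'₂ Fb R : Type*} [Field F'₁] [Field F₂] [Field F'₂] [Field Fb]
    [Field R] [Algebra F₂ F'₂] [Algebra Fb R] (ιF' : F'₁ →+* F'₂) (Ψ₂ : F'₂ →+* R) (Φ₂ : F₂ →+* Fb)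
    (hsq₂ : ∀ f : F₂, Ψ₂ (algebraMap F₂ F'₂ f) = algebraMap Fb R (Φ₂ f)) {p : ℕ} {z' : F'₁}
    {zx : F₂} {r : F'₂} (hrel : ιF' z' = algebraMap F₂ F'₂ zx * r ^ p) :
    (Ψ₂.comp ιF') z' = algebraMap Fb R (Φ₂ zx) * Ψ₂ r ^ p := by
  rw [RingHom.comp_apply, hrel, map_mul, map_pow, hsq₂]

/-- **the literal `hhor` of `dlq_core_node`, cyclic covers, one level** (`𝒩 := (I₁.node hens₁).toDlLocal`) -/
theorem dlxc_hhor_cover {p : ℕ} {F' R : Type*} [Field F'] [Field R] [Algebra ↥(tbLevF 𝔓 N H) F']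
    [Algebra ↥(tbFix 𝔓 H) F'] [IsScalarTower ↥(tbFix 𝔓 H) ↥(tbLevF 𝔓 N H) F']
    [Algebra ↥(modularFunctionFieldBar N) R] (C₁ : DlyCover p ↥(tbLevF 𝔓 N H) F')
    (C₂ : DlyCover p ↥(modularFunctionFieldBar N) R) (Ψ : F' →+* R)
    (hsq : ∀ f : ↥(tbLevF 𝔓 N H), Ψ (algebraMap ↥(tbLevF 𝔓 N H) F' f) =
      algebraMap ↥(modularFunctionFieldBar N) R (tbPhiF 𝔓 N H f))
    (hy : Ψ C₁.y = C₂.y) (𝒩 : DlLocal ↥(tbFix 𝔓 H) F')
    {z' : F'} {zx : ↥(modularFunctionFieldBar N)} {ρ : R}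
    (hrel : Ψ z' = algebraMap ↥(modularFunctionFieldBar N) R zx * ρ ^ p)
    (hzx : ∀ P : Place Qb ↥(modularFunctionFieldBar N), (p : ℤ) ∣ P.ord zx) :
    ∀ (V : ValuationSubring F') (hV : V ∈ 𝒩.hor),
      (p : ℤ) ∣ (haveI := 𝒩.P.dvr V hV.1; dlOrd V z') := by
  intro V hV
  haveI := 𝒩.P.dvr V hV.1
  refine dlxc_hor_cover 𝔓 H N C₁ C₂ Ψ hsq hy V (fun c => ?_) hrel hzx
  rw [← IsScalarTower.algebraMap_apply]
  exact 𝒩.hor_const hV c

/-- **the literal `hhor` of `dlq_core_node`, two levels** -/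
theorem dlxc_hhor_lev {L₁ F'₁ F'₂ : Type*} [Field L₁] [CharZero L₁] [Field F'₁] [Algebra L₁ F'₁]
    [Algebra L₁ ↥(tbFix 𝔓 H)] [Algebra.IsAlgebraic L₁ ↥(tbFix 𝔓 H)] [Field F'₂]
    [Algebra ↥(tbLevF 𝔓 N H) F'₂] [Algebra ↥(tbFix 𝔓 H) F'₂]
    [IsScalarTower ↥(tbFix 𝔓 H) ↥(tbLevF 𝔓 N H) F'₂] [FiniteDimensional ↥(tbLevF 𝔓 N H) F'₂]
    (ιF' : F'₁ →+* F'₂)
    (hι : ∀ c : L₁, ιF' (algebraMap L₁ F'₁ c) =
      algebraMap ↥(tbFix 𝔓 H) F'₂ (algebraMap L₁ ↥(tbFix 𝔓 H) c))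
    (hgen : ∀ y : F'₂, y ∈ Subfield.closure (Set.range ιF' ∪
      Set.range (algebraMap ↥(tbFix 𝔓 H) F'₂)))
    (𝒩 : DlLocal L₁ F'₁) {p : ℕ} {z' : F'₁} {zx : ↥(tbLevF 𝔓 N H)} {r : F'₂}
    (hrel : ιF' z' = algebraMap ↥(tbLevF 𝔓 N H) F'₂ zx * r ^ p)
    (hzx : ∀ P : Place Qb ↥(modularFunctionFieldBar N), (p : ℤ) ∣ P.ord (tbPhiF 𝔓 N H zx)) :
    ∀ (V : ValuationSubring F'₁) (hV : V ∈ 𝒩.hor),
      (p : ℤ) ∣ (haveI := 𝒩.P.dvr V hV.1; dlOrd V z') := by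
  intro V hV
  haveI := 𝒩.P.dvr V hV.1
  exact dlxc_hor_lev 𝔓 H N ιF' hι hgen V (𝒩.hor_const hV) hrel hzx

end Literal

end Fermat.Agent.Delta
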