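/-
DELTA / NODE-X (helper8): **(HOR-COVER) in the literal shape of helper4's `dla_level`**.

`Z ∈ F_{H₁}(N)` (not a `p`-th power over `ℚ̄`), `F'₁ = DlyRoot p Z`; a level change
`ιF : F_{H₁}(N) → F_H(N)` (`Φ_H ∘ ιF = Φ_{H₁}`: helper7's `dlqlF 𝔓 hle N` or helper4's
`dlaLevInc 𝔓 N hle`), `z' ∈ F'₁`, `zx ∈ F_H(N)`, `r ∈ DlyRoot p (ιF Z)` with
`dlyRootMap p ιF Z z' = zx · r ^ p` and `p ∣ div (Φ_H zx)`:

* **`dlxc_hor_level`** : `p ∣ ord_V z'` at every discrete valuation ring `V ⊇ L_{H₁}` of `F'₁`;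
* **`dlxc_hhor_level`** : the literal `hhor` binder of `dlq_core_node` / `dly_core_family`.

(The ring `DlyRoot p (ιF Z)` need not be known to be a field: everything is pushed to the cover
`DlyRoot p (Φ Z)` over `ℚ̄`.)
-/
import Fermat.Agent.Lib.Delta.NodeX.HorCover

set_option autoImplicit false
set_option linter.style.haveILetI false
set_option linter.unusedSectionVars false
set_option linter.unusedVariables false

namespace Fermat.Agent.Delta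

open AlgebraicCurve Fermat.Agent.Curve Fermat.Agent.T4 Polynomial ModularCurve Fermat.Agent.T1
  Fermat.Agent.T1.KMod Fermat.Agent.TW

local notation "Qb" => AlgebraicClosure ℚ

section RootHom

variable {F F₂ : Type*} [Field F] [Field F₂] (p : ℕ)

/-- base change of the model of the cyclic cover along `φ`, with a propositional equation for the
Kummer function -/
noncomputable def dlxcRootMap (φ : F →+* F₂) (Z : F) (Z₂ : F₂) (h : φ Z = Z₂) :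
    DlyRoot p Z →+* DlyRoot p Z₂ :=
  AdjoinRoot.map φ _ _ (by
    rw [Polynomial.map_sub, Polynomial.map_pow, Polynomial.map_X, Polynomial.map_C, h])

theorem dlxcRootMap_algebraMap (φ : F →+* F₂) (Z : F) (Z₂ : F₂) (h : φ Z = Z₂) (f : F) :
    dlxcRootMap p φ Z Z₂ h (algebraMap F (DlyRoot p Z) f) = algebraMap F₂ (DlyRoot p Z₂) (φ f) := by
  rw [AdjoinRoot.algebraMap_eq, AdjoinRoot.algebraMap_eq, dlxcRootMap, AdjoinRoot.map_of]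

theorem dlxcRootMap_root (φ : F →+* F₂) (Z : F) (Z₂ : F₂) (h : φ Z = Z₂) :
    dlxcRootMap p φ Z Z₂ h (AdjoinRoot.root _) = AdjoinRoot.root _ := by
  rw [dlxcRootMap, AdjoinRoot.map_root]

end RootHom

section Level

variable (𝔓 : FFPlace) (N : ℕ) [NeZero N] {H₁ H : Subgroup 𝔓.I}
  (ιF : ↥(tbLevF 𝔓 N H₁) →+* ↥(tbLevF 𝔓 N H))
  (hιF : ∀ f : ↥(tbLevF 𝔓 N H₁), tbPhiF 𝔓 N H (ιF f) = tbPhiF 𝔓 N H₁ f)

include hιF in
/-- **(HOR-COVER) in the shape of `dla_level`, one valuation ring** -/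
theorem dlxc_hor_level {p : ℕ} (hp : p.Prime) (Z : ↥(tbLevF 𝔓 N H₁))
    (hnp : ∀ c : ↥(modularFunctionFieldBar N), c ^ p ≠ tbPhiF 𝔓 N H₁ Z)
    [Fact (Irreducible (X ^ p - C Z : (↥(tbLevF 𝔓 N H₁))[X]))]
    (V : ValuationSubring (DlyRoot p Z)) [IsDiscreteValuationRing V]
    (hL : ∀ c : ↥(tbFix 𝔓 H₁),
      algebraMap ↥(tbLevF 𝔓 N H₁) (DlyRoot p Z)
        (algebraMap ↥(tbFix 𝔓 H₁) ↥(tbLevF 𝔓 N H₁) c) ∈ V)
    {z' : DlyRoot p Z} {zx : ↥(tbLevF 𝔓 N H)} {r : DlyRoot p (ιF Z)}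
    (hrel : dlyRootMap p ιF Z z' = algebraMap ↥(tbLevF 𝔓 N H) (DlyRoot p (ιF Z)) zx * r ^ p)
    (hzx : ∀ P : Place Qb ↥(modularFunctionFieldBar N), (p : ℤ) ∣ P.ord (tbPhiF 𝔓 N H zx)) :
    (p : ℤ) ∣ dlOrd V z' := by
  haveI : Fact (Irreducible (X ^ p - C (tbPhiF 𝔓 N H₁ Z) : (↥(modularFunctionFieldBar N))[X])) :=
    ⟨dly_irreducible_of_npow hp hnp⟩
  haveI : FiniteDimensional ↥(modularFunctionFieldBar N) (DlyRoot p (tbPhiF 𝔓 N H₁ Z)) :=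
    (monic_X_pow_sub_C _ hp.ne_zero).finite_adjoinRoot
  set Ψ₂ : DlyRoot p (ιF Z) →+* DlyRoot p (tbPhiF 𝔓 N H₁ Z) :=
    dlxcRootMap p (tbPhiF 𝔓 N H) (ιF Z) (tbPhiF 𝔓 N H₁ Z) (hιF Z) with hΨ₂
  set Ψ : DlyRoot p Z →+* DlyRoot p (tbPhiF 𝔓 N H₁ Z) := Ψ₂.comp (dlyRootMap p ιF Z) with hΨ
  have hsq : ∀ f : ↥(tbLevF 𝔓 N H₁), Ψ (algebraMap ↥(tbLevF 𝔓 N H₁) (DlyRoot p Z) f) =
      algebraMap ↥(modularFunctionFieldBar N) (DlyRoot p (tbPhiF 𝔓 N H₁ Z)) (tbPhiF 𝔓 N H₁ f) := by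
    intro f
    rw [hΨ, RingHom.comp_apply, dlyRootMap_algebraMap, hΨ₂, dlxcRootMap_algebraMap, hιF]
  have hroot : Ψ (AdjoinRoot.root _) = AdjoinRoot.root _ := by
    rw [hΨ, RingHom.comp_apply, dlyRootMap_root, hΨ₂, dlxcRootMap_root]
  have hrel' : Ψ z' = algebraMap ↥(modularFunctionFieldBar N) (DlyRoot p (tbPhiF 𝔓 N H₁ Z))
      (tbPhiF 𝔓 N H zx) * Ψ₂ r ^ p := by
    rw [hΨ, RingHom.comp_apply, hrel, map_mul, map_pow, hΨ₂, dlxcRootMap_algebraMap]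
  refine dlxc_hor_fix 𝔓 H₁ N Ψ hsq (AdjoinRoot.root _) (fun g => ?_) V hL hrel' hzx
  rw [hroot]
  obtain ⟨T, rfl⟩ := AdjoinRoot.mk_surjective g
  exact ⟨T, AdjoinRoot.aeval_eq T⟩

include hιF in
/-- **(HOR-COVER) in the shape of `dla_level`: the literal `hhor` of `dlq_core_node`** -/
theorem dlxc_hhor_level {p : ℕ} (hp : p.Prime) (Z : ↥(tbLevF 𝔓 N H₁))
    (hnp : ∀ c : ↥(modularFunctionFieldBar N), c ^ p ≠ tbPhiF 𝔓 N H₁ Z)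
    [Fact (Irreducible (X ^ p - C Z : (↥(tbLevF 𝔓 N H₁))[X]))]
    [Algebra ↥(tbFix 𝔓 H₁) (DlyRoot p Z)]
    (hcomp : ∀ c : ↥(tbFix 𝔓 H₁), algebraMap ↥(tbFix 𝔓 H₁) (DlyRoot p Z) c =
      algebraMap ↥(tbLevF 𝔓 N H₁) (DlyRoot p Z) (algebraMap ↥(tbFix 𝔓 H₁) ↥(tbLevF 𝔓 N H₁) c))
    (𝒩 : DlLocal ↥(tbFix 𝔓 H₁) (DlyRoot p Z))
    {z' : DlyRoot p Z} {zx : ↥(tbLevF 𝔓 N H)} {r : DlyRoot p (ιF Z)}
    (hrel : dlyRootMap p ιF Z z' = algebraMap ↥(tbLevF 𝔓 N H) (DlyRoot p (ιF Z)) zx * r ^ p)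
    (hzx : ∀ P : Place Qb ↥(modularFunctionFieldBar N), (p : ℤ) ∣ P.ord (tbPhiF 𝔓 N H zx)) :
    ∀ (V : ValuationSubring (DlyRoot p Z)) (hV : V ∈ 𝒩.hor),
      (p : ℤ) ∣ (haveI := 𝒩.P.dvr V hV.1; dlOrd V z') := by
  intro V hV
  haveI := 𝒩.P.dvr V hV.1
  refine dlxc_hor_level 𝔓 N ιF hιF hp Z hnp V (fun c => ?_) hrel hzx
  rw [← hcomp]
  exact 𝒩.hor_const hV c

end Level

end Fermat.Agent.Delta
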